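import Fermat.Agent.Kolyvagin.Congr
import Fermat.Agent.ExistenceTheorem.Transfer

/-!
# Kummer theory over a totally real field, at a prime power `M`

* `exists_pow_eq_of_fixed`: over a totally real field an `M`-th root (`M` odd) which lies in
  `F(ζ_M)` already lies in `F`;
* `exists_aut_kummer`: every functional killing the relations of elements modulo `M`-th powers is
  given by an automorphism fixing `ζ_M`;
* `exists_fix_restrict`: the automorphisms fixing `ζ_M` and the roots reach every class of an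
  unramified abelian extension modulo `M`-th powers, `M = ℓ ^ k`.
-/

set_option autoImplicit false
set_option linter.unusedSectionVars false
set_option linter.style.haveILetI false

noncomputable section

open scoped Classical Pointwise
open NumberField IsDedekindDomain FA.ArtinRec

namespace FA.Kolyvagin

variable {F : Type*} [Field F] [NumberField F] {E : Type*} [Field E] [NumberField E]
  [Algebra F E] [IsGalois F E] {M : ℕ} [NeZero M] {ζ : E}

theorem zeta_pow_congr (hζ : IsPrimitiveRoot ζ M) {a b : ℕ} (h : (a : ZMod M) = b) :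
    ζ ^ a = ζ ^ b :=
  pow_eq_pow_of_modEq ((ZMod.natCast_eq_natCast_iff _ _ _).1 h) hζ.pow_eq_one

theorem zeta_pow_add (hζ : IsPrimitiveRoot ζ M) (a b : ZMod M) :
    ζ ^ (a + b).val = ζ ^ a.val * ζ ^ b.val := by
  rw [← pow_add]
  exact zeta_pow_congr hζ (by simp)

theorem eq_of_zeta_pow_eq (hζ : IsPrimitiveRoot ζ M) {a b : ZMod M}
    (h : ζ ^ a.val = ζ ^ b.val) : a = b :=
  ZMod.val_injective M (hζ.pow_inj a.val_lt b.val_lt h)

/-- An automorphism moves an `M`-th root of an element of `F` by a root of unity. -/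
theorem exists_zmod_apply_root (hζ : IsPrimitiveRoot ζ M) (σ : E ≃ₐ[F] E) {β : E} {x : F}
    (hx : x ≠ 0) (hβ : β ^ M = algebraMap F E x) : ∃ a : ZMod M, σ β = β * ζ ^ a.val := by
  have hβ0 : β ≠ 0 := fun h =>
    hx ((map_eq_zero (algebraMap F E)).1 (by rw [← hβ, h, zero_pow (NeZero.ne M)]))
  have h : (σ β / β) ^ M = 1 := by
    rw [div_pow, ← map_pow, hβ, AlgEquiv.commutes, div_self ((map_ne_zero _).2 hx)]
  obtain ⟨i, hi, hi'⟩ := hζ.eq_pow_of_pow_eq_one h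
  exact ⟨(i : ZMod M), by
    rw [ZMod.val_natCast, Nat.mod_eq_of_lt hi, hi', mul_div_cancel₀ _ hβ0]⟩

/-- Automorphisms commute on the elements fixed by the stabiliser of `ζ`. -/
theorem comm_apply_of_fixed (hζ : IsPrimitiveRoot ζ M) {z : E}
    (hfix : ∀ σ : E ≃ₐ[F] E, σ ζ = ζ → σ z = z) (σ τ : E ≃ₐ[F] E) : σ (τ z) = τ (σ z) := by
  have h : ((τ * σ)⁻¹ * (σ * τ)) ζ = ζ := by
    have hc : hζ.autToPow F ((τ * σ)⁻¹ * (σ * τ)) = 1 := by
      rw [map_mul, map_inv, map_mul, map_mul, mul_comm (hζ.autToPow F τ), inv_mul_cancel]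
    have hsp := hζ.autToPow_spec F ((τ * σ)⁻¹ * (σ * τ))
    rw [hc] at hsp
    rw [← hsp]
    calc ζ ^ ((1 : (ZMod M)ˣ) : ZMod M).val = ζ ^ 1 := zeta_pow_congr hζ (by simp)
      _ = ζ := pow_one ζ
  have := hfix _ h
  exact (AlgEquiv.symm_apply_eq (τ * σ)).1 this

/-- Over a totally real field some automorphism inverts the roots of unity. -/
theorem exists_conj [IsTotallyReal F] (hζ : IsPrimitiveRoot ζ M) :
    ∃ τ : E ≃ₐ[F] E, τ ζ = ζ⁻¹ := by
  obtain ⟨φ⟩ : Nonempty (E →+* ℂ) := inferInstance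
  have hreal : (starRingEnd ℂ).comp (φ.comp (algebraMap F E)) = φ.comp (algebraMap F E) :=
    ComplexEmbedding.isReal_iff.1 (InfinitePlace.isReal_mk_iff.1 (IsTotallyReal.isReal _))
  obtain ⟨τ', hτ'⟩ := ComplexEmbedding.exists_comp_symm_eq_of_comp_eq (k := F) φ
    ((starRingEnd ℂ).comp φ) (by rw [RingHom.comp_assoc, hreal])
  refine ⟨τ'.symm, φ.injective ?_⟩
  have hτ : φ (τ'.symm ζ) = starRingEnd ℂ (φ ζ) := RingHom.congr_fun hτ' ζ
  rw [hτ, map_inv₀]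
  exact (Complex.inv_eq_conj (Complex.norm_eq_one_of_pow_eq_one
    (by rw [← map_pow, hζ.pow_eq_one, map_one]) (NeZero.ne M))).symm

/-- **Descent of roots**: an `M`-th root in `F(ζ_M)` of an element of `F` comes from `F`. -/
theorem exists_pow_eq_of_fixed [IsTotallyReal F] (hM : Odd M) (hζ : IsPrimitiveRoot ζ M) {x : F}
    (hx : x ≠ 0) {γ : E} (hγ : γ ^ M = algebraMap F E x)
    (hfix : ∀ σ : E ≃ₐ[F] E, σ ζ = ζ → σ γ = γ) : ∃ y : F, y ^ M = x := by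
  obtain ⟨τ, hτζ⟩ := exists_conj (F := F) hζ
  obtain ⟨i, hi⟩ := exists_zmod_apply_root hζ τ hx hγ
  obtain ⟨h2, hh2⟩ : IsUnit (2 : ZMod M) := by
    rw [show (2 : ZMod M) = ((2 : ℕ) : ZMod M) by norm_num]
    exact (ZMod.isUnit_iff_coprime 2 M).2 (Nat.coprime_two_left.2 hM)
  set j : ZMod M := ↑h2⁻¹ * i
  have hj : j + j = i := by
    rw [← two_mul, ← hh2, ← mul_assoc, Units.mul_inv, one_mul]
  set z := γ * ζ ^ j.val with hz
  have hζj : τ (ζ ^ j.val) = (ζ ^ j.val)⁻¹ := by rw [map_pow, hτζ, inv_pow]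
  have hτz : τ z = z := by
    rw [hz, map_mul, hi, hζj, ← hj, zeta_pow_add hζ, mul_assoc, mul_assoc,
      mul_inv_cancel₀ (pow_ne_zero _ (hζ.ne_zero (NeZero.ne M))), mul_one]
  have hzM : z ^ M = algebraMap F E x := by
    rw [hz, mul_pow, hγ, pow_right_comm, hζ.pow_eq_one, one_pow, mul_one]
  have hzfix : ∀ σ : E ≃ₐ[F] E, σ ζ = ζ → σ z = z := fun σ hσ => by
    rw [hz, map_mul, hfix σ hσ, map_pow, hσ]
  have hz0 : z ≠ 0 := fun h =>
    hx ((map_eq_zero (algebraMap F E)).1 (by rw [← hzM, h, zero_pow (NeZero.ne M)]))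
  have hall : ∀ σ : E ≃ₐ[F] E, σ z = z := by
    intro σ
    obtain ⟨m, hm⟩ := exists_zmod_apply_root hζ σ hx hzM
    have h1 : σ z = z * (ζ ^ m.val)⁻¹ := by
      have hc := comm_apply_of_fixed hζ hzfix σ τ
      rw [hτz, hm, map_mul, hτz, map_pow, hτζ, inv_pow] at hc
      rw [hm, hc]
    have h2' : ζ ^ (m + m).val = ζ ^ (0 : ZMod M).val := by
      rw [hm] at h1
      have h3 := mul_left_cancel₀ hz0 h1
      rw [zeta_pow_add hζ, ZMod.val_zero, pow_zero]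
      nth_rw 1 [h3]
      exact inv_mul_cancel₀ (pow_ne_zero _ (hζ.ne_zero (NeZero.ne M)))
    have hm2 := eq_of_zeta_pow_eq hζ h2'
    rw [← two_mul, ← hh2, Units.mul_right_eq_zero] at hm2
    rw [hm, hm2, ZMod.val_zero, pow_zero, mul_one]
  obtain ⟨y, hy⟩ := (IsGalois.mem_range_algebraMap_iff_fixed z).mpr hall
  exact ⟨y, (algebraMap F E).injective (by rw [map_pow, hy, hzM])⟩

/-- **Kummer duality.** -/
theorem exists_aut_kummer [IsTotallyReal F] (hM : Odd M) (hζ : IsPrimitiveRoot ζ M) {ι : Type*}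
    [Fintype ι] (b : ι → Fˣ) {β : ι → E} (hβ : ∀ i, β i ^ M = algebraMap F E (b i : F))
    (ψ : ι → ZMod M)
    (hψ : ∀ a : ι → ℕ, (∃ y : F, ∏ i, (b i : F) ^ a i = y ^ M) →
      ∑ i, (a i : ZMod M) * ψ i = 0) :
    ∃ σ : E ≃ₐ[F] E, σ ζ = ζ ∧ ∀ i, σ (β i) = β i * ζ ^ (ψ i).val := by
  let U : AddSubgroup (ι → ZMod M) :=
    { carrier := {a | ∃ σ : E ≃ₐ[F] E, σ ζ = ζ ∧ ∀ i, σ (β i) = β i * ζ ^ (a i).val}
      zero_mem' := ⟨1, rfl, fun i => by simp⟩
      add_mem' := by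
        rintro a a' ⟨σ, hσ, hσβ⟩ ⟨τ, hτ, hτβ⟩
        refine ⟨σ * τ, by rw [AlgEquiv.mul_apply, hτ, hσ], fun i => ?_⟩
        rw [AlgEquiv.mul_apply, hτβ, map_mul, map_pow, hσ, hσβ, Pi.add_apply, zeta_pow_add hζ,
          mul_assoc]
      neg_mem' := by
        rintro a ⟨σ, hσ, hσβ⟩
        refine ⟨σ⁻¹, ?_, fun i => ?_⟩
        · show σ.symm ζ = ζ
          rw [AlgEquiv.symm_apply_eq, hσ]
        · show σ.symm (β i) = _
          rw [AlgEquiv.symm_apply_eq, map_mul, map_pow, hσ, hσβ, mul_assoc, Pi.neg_apply,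
            ← zeta_pow_add hζ, add_neg_cancel, ZMod.val_zero, pow_zero, mul_one] }
  by_contra hne
  have hψU : ψ ∉ U := hne
  -- a character separating `ψ` from `U`
  set q := QuotientAddGroup.mk' U
  set X := Multiplicative ((ι → ZMod M) ⧸ U)
  have hq : Multiplicative.ofAdd (q ψ) ≠ (1 : X) := fun h =>
    hψU ((QuotientAddGroup.eq_zero_iff ψ).1 (congrArg Multiplicative.toAdd h))
  obtain ⟨χ, hχ⟩ := CommGroup.exists_apply_ne_one_of_hasEnoughRootsOfUnity X ℂ hq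
  set f : (ι → ZMod M) → ℂˣ := fun a => χ (Multiplicative.ofAdd (q a))
  have hf_add : ∀ a a', f (a + a') = f a * f a' := fun a a' => by
    simp only [f, map_add, ofAdd_add, map_mul]
  have hf0 : f 0 = 1 := by simp [f]
  obtain ⟨ω, hω⟩ := HasEnoughRootsOfUnity.exists_primitiveRoot ℂ M
  set χ' : Multiplicative (ι → ZMod M) →* ℂˣ :=
    { toFun := fun a => f a.toAdd
      map_one' := hf0
      map_mul' := fun a a' => hf_add a.toAdd a'.toAdd }
  have hroot : ∀ i, ∃ a : ℕ, ω ^ a = ((f (Pi.single i 1) : ℂˣ) : ℂ) := fun i => by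
    have hM1 : (f (Pi.single i 1)) ^ M = 1 := by
      have h := (map_pow χ' (Multiplicative.ofAdd (Pi.single i (1 : ZMod M))) M).symm
      rw [← ofAdd_nsmul] at h
      refine h.trans ?_
      show f (M • Pi.single i (1 : ZMod M)) = 1
      rw [← Pi.single_smul, nsmul_one, ZMod.natCast_self, Pi.single_zero, hf0]
    obtain ⟨a, -, ha⟩ := hω.eq_pow_of_pow_eq_one
      (ξ := ((f (Pi.single i 1) : ℂˣ) : ℂ)) (by rw [← Units.val_pow_eq_pow_val, hM1, Units.val_one])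
    exact ⟨a, ha⟩
  choose a ha using hroot
  have hfx : ∀ x : ι → ZMod M, ((f x : ℂˣ) : ℂ) = ω ^ (∑ i, a i * (x i).val) := by
    intro x
    have hx : x = ∑ i, (x i).val • Pi.single i (1 : ZMod M) := by
      refine (Finset.univ_sum_single x).symm.trans (Finset.sum_congr rfl fun i _ => ?_)
      rw [← Pi.single_smul, nsmul_one, ZMod.natCast_zmod_val]
    conv_lhs => rw [hx]
    show ((χ' (Multiplicative.ofAdd (∑ i, (x i).val • Pi.single i (1 : ZMod M))) : ℂˣ) : ℂ) = _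
    rw [ofAdd_sum, map_prod, Units.coe_prod, ← Finset.prod_pow_eq_pow_sum]
    refine Finset.prod_congr rfl fun i _ => ?_
    rw [ofAdd_nsmul, map_pow, Units.val_pow_eq_pow_val, pow_mul, ha]
    rfl
  have hsum : ∀ x : ι → ZMod M, (f x = 1 ↔ ∑ i, (a i : ZMod M) * x i = 0) := fun x => by
    rw [← Units.val_eq_one, hfx, hω.pow_eq_one_iff_dvd, ← ZMod.natCast_eq_zero_iff, Nat.cast_sum]
    refine Eq.congr_left (Finset.sum_congr rfl fun i _ => ?_)
    rw [Nat.cast_mul, ZMod.natCast_zmod_val]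
  have hU : ∀ x ∈ U, f x = 1 := fun x hx => by
    show χ (Multiplicative.ofAdd (q x)) = 1
    rw [show q x = 0 from (QuotientAddGroup.eq_zero_iff x).2 hx, ofAdd_zero, map_one]
  refine hχ ((hsum ψ).2 (hψ a ?_))
  have hx0 : (∏ i, (b i : F) ^ a i) ≠ 0 :=
    Finset.prod_ne_zero_iff.2 fun i _ => pow_ne_zero _ (b i).ne_zero
  refine (exists_pow_eq_of_fixed hM hζ hx0 (γ := ∏ i, β i ^ a i)
    (by
      rw [map_prod, ← Finset.prod_pow]
      exact Finset.prod_congr rfl fun i _ => by rw [pow_right_comm, hβ, map_pow])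
    fun σ hσ => ?_).imp fun y hy => hy.symm
  choose φ hφ using fun i => exists_zmod_apply_root hζ σ (b i).ne_zero (hβ i)
  have hφU : φ ∈ U := ⟨σ, hσ, hφ⟩
  have h0 := (hsum φ).1 (hU φ hφU)
  rw [map_prod]
  simp only [map_pow, hφ, mul_pow, Finset.prod_mul_distrib, ← pow_mul,
    Finset.prod_pow_eq_pow_sum]
  suffices ζ ^ (∑ i, (φ i).val * a i) = 1 by rw [this, mul_one]
  rw [← pow_zero ζ]
  refine zeta_pow_congr hζ ?_
  rw [Nat.cast_zero, Nat.cast_sum, ← h0]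
  exact Finset.sum_congr rfl fun i _ => by rw [Nat.cast_mul, ZMod.natCast_zmod_val, mul_comm]

section inertia

/-- The ramification index is the order of inertia. -/
theorem eIdx_eq_card_inertia (K : Type*) [Field K] [NumberField K] [Algebra K E] [IsGalois K E]
    (Q : HeightOneSpectrum (𝓞 E)) :
    eIdx K Q = Nat.card (Q.asIdeal.inertia (E ≃ₐ[K] E)) := by
  haveI : Q.asIdeal.LiesOver (belowP K Q).asIdeal := ⟨rfl⟩
  haveI := (belowP K Q).isMaximal
  haveI : Finite (𝓞 K ⧸ (belowP K Q).asIdeal) :=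
    Ideal.finiteQuotientOfFreeOfNeBot _ (belowP K Q).ne_bot
  rw [Ideal.card_inertia_eq_ramificationIdxIn (G := E ≃ₐ[K] E) (belowP K Q).asIdeal Q.asIdeal,
    Ideal.ramificationIdxIn_eq_ramificationIdx _ Q.asIdeal (E ≃ₐ[K] E), eIdx,
    Ideal.ramificationIdx'_eq_ramificationIdx _ _ (belowP K Q).ne_bot]

variable {ℓ k : ℕ}

/-- The cyclotomic character on inertia at `ℓ`. -/
theorem dvd_card_map_inertia (hl : ℓ.Prime) (hk : 0 < k) [NeZero (ℓ ^ k)]
    {η : E} (hη : IsPrimitiveRoot η (ℓ ^ k)) (w : HeightOneSpectrum (𝓞 F))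
    (hcop : ¬ (ℓ : ℤ) ∣ ord w (Units.mk0 (ℓ : F) (Nat.cast_ne_zero.2 hl.ne_zero)))
    (Q : HeightOneSpectrum (𝓞 E)) (hQ : belowP F Q = w) :
    ℓ ^ (k - 1) ∣ Nat.card ((Q.asIdeal.inertia (E ≃ₐ[F] E)).map (hη.autToPow F)) := by
  haveI : Fact ℓ.Prime := ⟨hl⟩
  set χ := hη.autToPow F
  set I := Q.asIdeal.inertia (E ≃ₐ[F] E)
  set L₁ : IntermediateField F E := IntermediateField.fixedField χ.ker
  have hfixeq : L₁.fixingSubgroup = χ.ker := IntermediateField.fixingSubgroup_fixedField χ.ker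
  have hηL : η ∈ L₁ := fun σ => by
    show (σ : E ≃ₐ[F] E) η = η
    rw [← hη.autToPow_spec F (σ : E ≃ₐ[F] E), show hη.autToPow F (σ : E ≃ₐ[F] E) = 1 from σ.2]
    calc η ^ ((1 : (ZMod (ℓ ^ k))ˣ) : ZMod (ℓ ^ k)).val = η ^ 1 := zeta_pow_congr hη (by simp)
      _ = η := pow_one η
  haveI : NumberField L₁ := NumberField.of_module_finite F L₁
  haveI : IsGalois L₁ E := IsGalois.tower_top_of_isGalois F L₁ E
  -- inertia over the fixed field
  have hcard : Nat.card (Q.asIdeal.inertia (E ≃ₐ[L₁] E)) =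
      Nat.card ((χ.ker.subgroupOf I) : Subgroup I) := by
    have e := (IntermediateField.fixingSubgroupEquiv L₁).symm
    refine Nat.card_congr (Equiv.ofBijective
      (fun g => ⟨⟨(g.1).restrictScalars F, fun y => g.2 y⟩, ?_⟩) ⟨?_, ?_⟩)
    · show (g.1).restrictScalars F ∈ χ.ker
      rw [← hfixeq, IntermediateField.mem_fixingSubgroup_iff]
      exact fun y hy => g.1.commutes ⟨y, hy⟩
    · intro g g' h
      have h' := congrArg (fun t : (χ.ker.subgroupOf I) => ((t : I) : E ≃ₐ[F] E)) h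
      exact Subtype.ext (AlgEquiv.ext fun y => AlgEquiv.congr_fun h' y)
    · rintro ⟨⟨s, hsI⟩, hs⟩
      have hs' : s ∈ L₁.fixingSubgroup := by rw [hfixeq]; exact hs
      refine ⟨⟨IntermediateField.fixingSubgroupEquiv L₁ ⟨s, hs'⟩, fun y => hsI y⟩, ?_⟩
      exact Subtype.ext (Subtype.ext (AlgEquiv.ext fun y => rfl))
  have hmul : Nat.card I = Nat.card ((I.map χ) : Subgroup (ZMod (ℓ ^ k))ˣ) *
      Nat.card (Q.asIdeal.inertia (E ≃ₐ[L₁] E)) := by
    rw [hcard]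
    have h := Subgroup.card_eq_card_quotient_mul_card_subgroup (χ.comp I.subtype).ker
    rw [Nat.card_congr (QuotientGroup.quotientKerEquivRange (χ.comp I.subtype)).toEquiv,
      MonoidHom.range_comp, Subgroup.range_subtype] at h
    exact h
  -- valuations of `1 - η`
  set o₁ : ℤ := ord (belowP L₁ Q) (Units.mk0 (⟨η, hηL⟩ - 1 : L₁) (sub_ne_zero.2 fun h =>
    hη.ne_one (Nat.one_lt_pow hk.ne' hl.one_lt) (congrArg Subtype.val h)))
  have hπ0 : η - 1 ≠ 0 := sub_ne_zero.2 (hη.ne_one (Nat.one_lt_pow hk.ne' hl.one_lt))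
  have hπ : ord Q (Units.mk0 (η - 1) hπ0) =
      (Nat.card (Q.asIdeal.inertia (E ≃ₐ[L₁] E)) : ℤ) * o₁ := by
    rw [← eIdx_eq_card_inertia L₁ Q, ← ord_baseU]
    exact congrArg _ (Units.ext rfl)
  have heq : ∀ μ ∈ primitiveRoots (ℓ ^ k) E, Q.valuation E (1 - μ) = Q.valuation E (1 - η) := by
    intro μ hμ
    have hdiv : ∀ {a b : E}, IsPrimitiveRoot a (ℓ ^ k) → b ^ ℓ ^ k = 1 →
        Q.valuation E (1 - b) ≤ Q.valuation E (1 - a) := by
      intro a b ha hb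
      obtain ⟨i, -, rfl⟩ := ha.eq_pow_of_pow_eq_one hb
      rw [← mul_neg_geom_sum, map_mul]
      exact mul_le_of_le_one_right' ((Q.valuation E).map_sum_le fun i _ => by
        rw [map_pow, val_eq_one_of_pow_eq_one _ (NeZero.ne (ℓ ^ k)) ha.pow_eq_one, one_pow])
    have hμ' := (mem_primitiveRoots (NeZero.pos (ℓ ^ k))).1 hμ
    exact le_antisymm (hdiv hη hμ'.pow_eq_one) (hdiv hμ' hη.pow_eq_one)
  have hprod : Q.valuation E (ℓ : E) = Q.valuation E (η - 1) ^ Nat.totient (ℓ ^ k) := by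
    have h := congrArg (Polynomial.eval 1) (Polynomial.cyclotomic_eq_prod_X_sub_primitiveRoots hη)
    obtain ⟨m, rfl⟩ : ∃ m, k = m + 1 := ⟨k - 1, by omega⟩
    rw [Polynomial.eval_one_cyclotomic_prime_pow, Polynomial.eval_prod] at h
    simp only [Polynomial.eval_sub, Polynomial.eval_X, Polynomial.eval_C] at h
    rw [h, map_prod, Finset.prod_congr rfl heq, Finset.prod_const, hη.card_primitiveRoots,
      Valuation.map_sub_swap]
  have hℓord : ord Q (baseU (L := E) (Units.mk0 (ℓ : F) (Nat.cast_ne_zero.2 hl.ne_zero))) =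
      (Nat.totient (ℓ ^ k) : ℤ) * ord Q (Units.mk0 (η - 1) hπ0) := by
    rw [ord_eq_iff, neg_mul_eq_mul_neg, ← nsmul_eq_mul, WithZero.exp_nsmul, ← valuation_eq_exp,
      baseU_val, Units.val_mk0, Units.val_mk0, map_natCast]
    exact hprod
  rw [ord_baseU, eIdx_eq_card_inertia F Q, hQ, hπ, show Q.asIdeal.inertia (E ≃ₐ[F] E) = I from rfl,
    hmul, Nat.cast_mul] at hℓord
  set c := Nat.card ((I.map χ) : Subgroup (ZMod (ℓ ^ k))ˣ)
  set e₁ := Nat.card (Q.asIdeal.inertia (E ≃ₐ[L₁] E))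
  set o := ord w (Units.mk0 (ℓ : F) (Nat.cast_ne_zero.2 hl.ne_zero))
  have he₁ : (e₁ : ℤ) ≠ 0 := by
    exact_mod_cast (Nat.card_pos (α := Q.asIdeal.inertia (E ≃ₐ[L₁] E))).ne'
  have h1 : (c : ℤ) * o = (Nat.totient (ℓ ^ k) : ℤ) * o₁ :=
    mul_left_cancel₀ he₁ (by linear_combination hℓord)
  rw [Nat.totient_prime_pow hl hk, Nat.cast_mul, mul_assoc] at h1
  have hcop' : IsCoprime ((ℓ ^ (k - 1) : ℕ) : ℤ) o := by
    rw [Nat.cast_pow]
    exact IsCoprime.pow_left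
      ((Nat.prime_iff_prime_int.1 hl).coprime_iff_not_dvd.2 hcop)
  exact Int.natCast_dvd_natCast.1 (hcop'.dvd_of_dvd_mul_right ⟨_, h1⟩)

/-- **The unramified part**: the automorphisms fixing `ζ` and the roots cover an unramified
abelian extension modulo `M`-th powers. -/
theorem exists_fix_restrict [IsTotallyReal F] (hl : ℓ.Prime) (hl2 : ℓ ≠ 2) (hk : 0 < k)
    [NeZero (ℓ ^ k)]
    {η : E} (hη : IsPrimitiveRoot η (ℓ ^ k)) (w : HeightOneSpectrum (𝓞 F))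
    (hcop : ¬ (ℓ : ℤ) ∣ ord w (Units.mk0 (ℓ : F) (Nat.cast_ne_zero.2 hl.ne_zero)))
    {H : Type*} [Field H] [NumberField H] [Algebra F H] [IsGalois F H]
    [IsMulCommutative (H ≃ₐ[F] H)] [Algebra H E] [IsScalarTower F H E]
    (hH : ∀ v : HeightOneSpectrum (𝓞 F), ¬ IsRam H v) {ι : Type*} (b : ι → Fˣ) {β : ι → E}
    (hβ : ∀ i, β i ^ ℓ ^ k = algebraMap F E (b i : F)) (g : H ≃ₐ[F] H) :
    ∃ (t : E ≃ₐ[F] E) (h : H ≃ₐ[F] H), t η = η ∧ (∀ i, t (β i) = β i) ∧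
      AlgEquiv.restrictNormalHom H t = g * h ^ ℓ ^ k := by
  haveI : Fact ℓ.Prime := ⟨hl⟩
  letI : CommGroup (H ≃ₐ[F] H) := { mul_comm := fun a b => IsMulCommutative.is_comm.comm a b }
  let T₀ : Subgroup (E ≃ₐ[F] E) :=
    { carrier := {t | t η = η ∧ ∀ i, t (β i) = β i}
      one_mem' := ⟨rfl, fun _ => rfl⟩
      mul_mem' := fun {s t} hs ht => ⟨by rw [AlgEquiv.mul_apply, ht.1, hs.1],
        fun i => by rw [AlgEquiv.mul_apply, ht.2, hs.2]⟩
      inv_mem' := fun {s} hs => ⟨(AlgEquiv.symm_apply_eq s).2 hs.1.symm,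
        fun i => (AlgEquiv.symm_apply_eq s).2 (hs.2 i).symm⟩ }
  set S : Subgroup (H ≃ₐ[F] H) := T₀.map (AlgEquiv.restrictNormalHom H) ⊔
    (powMonoidHom (ℓ ^ k) : (H ≃ₐ[F] H) →* (H ≃ₐ[F] H)).range with hS
  suffices htop : S = ⊤ by
    have hg : g ∈ S := htop ▸ Subgroup.mem_top g
    obtain ⟨x, ⟨t, ht, rfl⟩, y, ⟨h, rfl⟩, hxy⟩ := Subgroup.mem_sup.1 hg
    refine ⟨t, h⁻¹, ht.1, ht.2, ?_⟩
    rw [← hxy, powMonoidHom_apply, inv_pow, mul_inv_cancel_right]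
  by_contra hne
  obtain ⟨g₀, hg₀⟩ : ∃ g₀, g₀ ∉ S := not_forall.1 fun h => hne ((Subgroup.eq_top_iff' S).2 h)
  have hq : (g₀ : (H ≃ₐ[F] H) ⧸ S) ≠ 1 := fun h => hg₀ ((QuotientGroup.eq_one_iff g₀).1 h)
  obtain ⟨χ₀, hχ₀⟩ := CommGroup.exists_apply_ne_one_of_hasEnoughRootsOfUnity _ ℂ hq
  set χ₁ : (H ≃ₐ[F] H) →* ℂˣ := χ₀.comp (QuotientGroup.mk' S)
  have hχ₁M : χ₁ ^ ℓ ^ k = 1 := MonoidHom.ext fun x => by
    rw [MonoidHom.pow_apply, ← map_pow, MonoidHom.one_apply]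
    show χ₀ (QuotientGroup.mk' S (x ^ ℓ ^ k)) = 1
    have hx : x ^ ℓ ^ k ∈ S := Subgroup.mem_sup_right (MonoidHom.mem_range.2 ⟨x, rfl⟩)
    rw [QuotientGroup.mk'_apply, (QuotientGroup.eq_one_iff _).2 hx, map_one]
  obtain ⟨j, -, hj⟩ :=
    (Nat.dvd_prime_pow hl).1 (orderOf_dvd_of_pow_eq_one (x := χ₁) (n := ℓ ^ k) hχ₁M)
  obtain ⟨j', rfl⟩ : ∃ j', j = j' + 1 := by
    refine Nat.exists_eq_succ_of_ne_zero fun h0 => hχ₀ ?_
    rw [h0, pow_zero, orderOf_eq_one_iff] at hj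
    exact DFunLike.congr_fun hj g₀
  set Φ₀ : (H ≃ₐ[F] H) →* ℂˣ := χ₁ ^ ℓ ^ j'
  have hΦ₀l : Φ₀ ^ ℓ = 1 := MonoidHom.ext fun y => by
    rw [MonoidHom.pow_apply, show Φ₀ = χ₁ ^ ℓ ^ j' from rfl, MonoidHom.pow_apply, ← pow_mul,
      ← pow_succ, ← hj, ← MonoidHom.pow_apply]
    exact DFunLike.congr_fun (pow_orderOf_eq_one χ₁) y
  have hΦ₀ne : Φ₀ ≠ 1 := fun h => by
    have := Nat.le_of_dvd (pow_pos hl.pos _) (hj ▸ orderOf_dvd_of_pow_eq_one h :
      ℓ ^ (j' + 1) ∣ ℓ ^ j')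
    exact absurd this (not_le.2 (Nat.pow_lt_pow_succ hl.one_lt))
  set Φ : (E ≃ₐ[F] E) →* ℂˣ := Φ₀.comp (AlgEquiv.restrictNormalHom H)
  refine hΦ₀ne (MonoidHom.ext fun x => ?_)
  obtain ⟨σ, rfl⟩ := AlgEquiv.restrictNormalHom_surjective (F := F) (K₁ := H) E x
  show Φ σ = 1
  have hpow_l : ∀ s, Φ s ^ ℓ = 1 := fun s => DFunLike.congr_fun hΦ₀l _
  have hT₀ : ∀ t ∈ T₀, Φ t = 1 := fun t ht => by
    show (χ₁ ^ ℓ ^ j') (AlgEquiv.restrictNormalHom H t) = 1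
    rw [MonoidHom.pow_apply]
    show χ₀ (QuotientGroup.mk' S _) ^ ℓ ^ j' = 1
    have ht' : AlgEquiv.restrictNormalHom H t ∈ S := Subgroup.mem_sup_left ⟨t, ht, rfl⟩
    rw [QuotientGroup.mk'_apply, (QuotientGroup.eq_one_iff _).2 ht', map_one, one_pow]
  have hfix : ∀ s : E ≃ₐ[F] E, hη.autToPow F s = 1 → s η = η := fun s hs => by
    rw [← hη.autToPow_spec F s, hs]
    calc η ^ ((1 : (ZMod (ℓ ^ k))ˣ) : ZMod (ℓ ^ k)).val = η ^ 1 := zeta_pow_congr hη (by simp)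
      _ = η := pow_one η
  have hN : ∀ n : E ≃ₐ[F] E, n η = η → ∀ τ : E ≃ₐ[F] E, τ η = η⁻¹ → τ * n * τ⁻¹ * n ∈ T₀ := by
    intro n hn τ hτ
    have hτ' : τ⁻¹ η = η⁻¹ := by
      show τ.symm η = η⁻¹
      rw [AlgEquiv.symm_apply_eq, map_inv₀, hτ, inv_inv]
    refine ⟨?_, fun i => ?_⟩
    · rw [AlgEquiv.mul_apply, hn, AlgEquiv.mul_apply, AlgEquiv.mul_apply, hτ', map_inv₀, hn,
        map_inv₀, hτ, inv_inv]
    · obtain ⟨d, hd⟩ := exists_zmod_apply_root hη τ⁻¹ (b i).ne_zero (hβ i)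
      obtain ⟨c, hc⟩ := exists_zmod_apply_root hη n (b i).ne_zero (hβ i)
      have hτβ : τ (β i) = β i * η ^ d.val := by
        have h : τ (τ⁻¹ (β i)) = β i := τ.apply_symm_apply _
        rw [hd, map_mul, map_pow, hτ, inv_pow] at h
        rwa [mul_inv_eq_iff_eq_mul₀ (pow_ne_zero _ (hη.ne_zero (NeZero.ne _)))] at h
      simp only [AlgEquiv.mul_apply, hc, map_mul, map_pow, map_inv₀, hd, hτ', hn, hτ, hτβ,
        inv_inv, inv_pow]
      have : η ≠ 0 := hη.ne_zero (NeZero.ne _)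
      field_simp
  obtain ⟨τ, hτ⟩ := exists_conj (F := F) hη
  have hker : ∀ n : E ≃ₐ[F] E, hη.autToPow F n = 1 → Φ n = 1 := by
    intro n hn
    have h2 : Φ n ^ 2 = 1 := by
      rw [← hT₀ _ (hN n (hfix n hn) τ hτ), map_mul, map_mul, map_mul, map_inv,
        mul_inv_cancel_comm, sq]
    have := pow_gcd_eq_one.2 ⟨h2, hpow_l n⟩
    rwa [show Nat.gcd 2 ℓ = 1 from (Nat.coprime_primes Nat.prime_two hl).2 hl2.symm, pow_one]
      at this
  obtain ⟨Q, hQ⟩ := exists_belowP F E w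
  set I := Q.asIdeal.inertia (E ≃ₐ[F] E)
  have hI : ∀ s ∈ I, Φ s = 1 := by
    intro s hs
    have h1 := restrict_mem_inertia (L := H) hs
    rw [inertia_eq_bot (hH w) ((belowP_belowP Q).trans hQ), Subgroup.mem_bot] at h1
    show Φ₀ (AlgEquiv.restrictNormalHom H s) = 1
    rw [h1, map_one]
  set C : Subgroup (ZMod (ℓ ^ k))ˣ := I.map (hη.autToPow F)
  haveI : IsCyclic (ZMod (ℓ ^ k))ˣ := ZMod.isCyclic_units_of_prime_pow ℓ hl hl2 k
  have hmem : ∀ y : (ZMod (ℓ ^ k))ˣ, y ^ Nat.card C = 1 → y ∈ C := by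
    intro y hy
    have hsub : Finset.univ.filter (fun z => z ∈ C) ⊆
        Finset.univ.filter (fun z : (ZMod (ℓ ^ k))ˣ => z ^ Nat.card C = 1) := fun z hz =>
      Finset.mem_filter.2 ⟨Finset.mem_univ z, congrArg Subtype.val
        (pow_card_eq_one' (x := (⟨z, (Finset.mem_filter.1 hz).2⟩ : C)))⟩
    have hle := IsCyclic.card_pow_eq_one_le (α := (ZMod (ℓ ^ k))ˣ) (Nat.card_pos (α := C))
    have hcard : (Finset.univ.filter (fun z => z ∈ C)).card = Nat.card C := by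
      rw [Nat.card_eq_fintype_card, Fintype.card_subtype]
    have heq := Finset.eq_of_subset_of_card_le hsub (by rw [hcard]; exact hle)
    exact (Finset.mem_filter.1 (heq.symm ▸ Finset.mem_filter.2 ⟨Finset.mem_univ y, hy⟩ :
      y ∈ Finset.univ.filter (fun z => z ∈ C))).2
  obtain ⟨d, hd⟩ := dvd_card_map_inertia hl hk hη w hcop Q hQ
  obtain ⟨s, hs, hsσ⟩ := Subgroup.mem_map.1 (hmem (hη.autToPow F σ ^ (ℓ - 1)) (by
    rw [show Nat.card C = ℓ ^ (k - 1) * d from hd, ← pow_mul, ← mul_assoc, pow_mul, mul_comm,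
      ← Nat.totient_prime_pow hl hk, ZMod.pow_totient, one_pow]))
  have hn : hη.autToPow F (σ ^ (ℓ - 1) * s⁻¹) = 1 := by
    rw [map_mul, map_pow, map_inv, hsσ, mul_inv_cancel]
  have h1 : Φ σ ^ (ℓ - 1) = 1 := by
    have h := hker _ hn
    rwa [map_mul, map_pow, map_inv, hI s hs, inv_one, mul_one] at h
  have h := pow_gcd_eq_one.2 ⟨h1, hpow_l σ⟩
  rwa [show Nat.gcd (ℓ - 1) ℓ = 1 from by
    rw [Nat.gcd_comm]
    exact (hl.coprime_iff_not_dvd).2 fun hdvd => absurd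
      (Nat.le_of_dvd (by have := hl.two_le; omega) hdvd) (by have := hl.two_le; omega),
    pow_one] at h

end inertia

end FA.Kolyvagin
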