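import Fermat.Agent.ArtinReciprocity.Places
import Fermat.Agent.LocalCFT.Completion

/-!
# Congruences for a valuation

* `val_one_sub_mul_eq_one`: `1 - η u` is a unit at a valuation prime to `p` for a primitive `p`-th
  root `η` and a root of unity `u` of order prime to `p`;
* `congr_*`: congruences modulo the maximal ideal between elements of value at most one;
* `val_map_sub_pow_lt`: an endomorphism of a number field congruent to the `e`-th power on
  generators of the integers is so on all the `Q`-integral elements.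
-/

set_option autoImplicit false
set_option linter.unusedSectionVars false
set_option linter.style.haveILetI false

noncomputable section

open NumberField IsDedekindDomain

namespace FA.Kolyvagin

section valuation

variable {L : Type*} [Field L] {Γ : Type*} [LinearOrderedCommGroupWithZero Γ] (w : Valuation L Γ)

theorem val_eq_one_of_pow_eq_one {x : L} {n : ℕ} (hn : n ≠ 0) (h : x ^ n = 1) : w x = 1 :=
  (pow_eq_one_iff_of_nonneg zero_le hn).1 (by rw [← map_pow, h, map_one])

theorem val_natCast_le_one (n : ℕ) : w (n : L) ≤ 1 := by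
  induction n with
  | zero => simp
  | succ n ih => rw [Nat.cast_succ]; exact w.map_add_le ih (w.map_one).le

theorem val_one_sub_le_one {x : L} (h : w x ≤ 1) : w (1 - x) ≤ 1 :=
  w.map_sub_le (w.map_one).le h

/-- `w (1 - η) = 1` for a primitive `p`-th root `η`, `w (p) = 1`. -/
theorem val_one_sub_eq_one {p : ℕ} (hp : p.Prime) (hwp : w (p : L) = 1) {η : L}
    (hη : IsPrimitiveRoot η p) : w (1 - η) = 1 := by
  classical
  haveI : Fact p.Prime := ⟨hp⟩
  have hprod : ∏ μ ∈ primitiveRoots p L, (1 - μ) = (p : L) := by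
    have h := congrArg (Polynomial.eval 1) (Polynomial.cyclotomic_eq_prod_X_sub_primitiveRoots hη)
    rw [Polynomial.eval_one_cyclotomic_prime, Polynomial.eval_prod] at h
    simpa using h.symm
  have hle : ∀ μ ∈ primitiveRoots p L, w (1 - μ) ≤ 1 := fun μ hμ =>
    val_one_sub_le_one w (val_eq_one_of_pow_eq_one w hp.ne_zero
      ((mem_primitiveRoots hp.pos).1 hμ).pow_eq_one).le
  have hmem : η ∈ primitiveRoots p L := (mem_primitiveRoots hp.pos).2 hη
  refine le_antisymm (hle η hmem) ?_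
  have h1 : (1 : Γ) = ∏ μ ∈ primitiveRoots p L, w (1 - μ) := by rw [← map_prod, hprod, hwp]
  rw [h1, ← Finset.mul_prod_erase _ _ hmem]
  exact mul_le_of_le_one_right' (Finset.prod_le_one' fun μ hμ => hle μ (Finset.mem_of_mem_erase hμ))

/-- `w (1 - η u) = 1` for `u` of order prime to `p`. -/
theorem val_one_sub_mul_eq_one {p : ℕ} (hp : p.Prime) (hwp : w (p : L) = 1) {η : L}
    (hη : IsPrimitiveRoot η p) {u : L} {m : ℕ} (hm : ¬ p ∣ m) (hu : u ^ m = 1) :
    w (1 - η * u) = 1 := by
  have hm0 : m ≠ 0 := fun h => hm (h ▸ dvd_zero p)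
  have hx1 : w (η * u) ≤ 1 := by
    rw [map_mul, val_eq_one_of_pow_eq_one w hp.ne_zero hη.pow_eq_one,
      val_eq_one_of_pow_eq_one w hm0 hu, one_mul]
  have hprim : w (1 - (η * u) ^ m) = 1 := by
    rw [mul_pow, hu, mul_one]
    exact val_one_sub_eq_one w hp hwp
      (hη.pow_of_coprime m (hp.coprime_iff_not_dvd.2 hm).symm)
  refine le_antisymm (val_one_sub_le_one w hx1) ?_
  rw [← hprim, ← mul_geom_sum₂_Ico_aux_bound w hx1 m]
  exact mul_le_of_le_one_right' (geomSum_le_one w hx1 m)
where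
  mul_geom_sum₂_Ico_aux_bound (w : Valuation L Γ) {x : L} (_hx : w x ≤ 1) (m : ℕ) :
      w (1 - x) * w (∑ i ∈ Finset.range m, x ^ i) = w (1 - x ^ m) := by
    rw [← map_mul, mul_neg_geom_sum]
  geomSum_le_one (w : Valuation L Γ) {x : L} (hx : w x ≤ 1) (m : ℕ) :
      w (∑ i ∈ Finset.range m, x ^ i) ≤ 1 :=
    w.map_sum_le fun i _ => by rw [map_pow]; exact pow_le_one' hx i

variable {w}

theorem congr_symm {a b : L} (h : w (a - b) < 1) : w (b - a) < 1 := by rwa [w.map_sub_swap]

theorem congr_trans {a b c : L} (h : w (a - b) < 1) (h' : w (b - c) < 1) : w (a - c) < 1 := by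
  rw [show a - c = (a - b) + (b - c) by ring]
  exact w.map_add_lt h h'

theorem congr_self (a : L) : w (a - a) < 1 := by simp

theorem congr_val {a b : L} (h : w (a - b) < 1) (hb : w b = 1) : w a = 1 := by
  rw [show a = (a - b) + b by ring, w.map_add_eq_of_lt_right (by rwa [hb]), hb]

theorem congr_mul {a b c d : L} (ha : w a ≤ 1) (hd : w d ≤ 1) (h : w (a - b) < 1)
    (h' : w (c - d) < 1) : w (a * c - b * d) < 1 := by
  rw [show a * c - b * d = a * (c - d) + (a - b) * d by ring]
  refine w.map_add_lt ?_ ?_ <;> rw [map_mul]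
  · exact (mul_le_of_le_one_left' ha).trans_lt h'
  · exact (mul_le_of_le_one_right' hd).trans_lt h

theorem congr_pow {a b : L} (ha : w a ≤ 1) (hb : w b ≤ 1) (h : w (a - b) < 1) (n : ℕ) :
    w (a ^ n - b ^ n) < 1 := by
  induction n with
  | zero => simp
  | succ n ih =>
    rw [pow_succ, pow_succ]
    exact congr_mul (by rw [map_pow]; exact pow_le_one' ha n) hb ih h

theorem congr_inv {a b : L} (hb : w b = 1) (h : w (a - b) < 1) : w (a⁻¹ - b⁻¹) < 1 := by
  have ha := congr_val h hb
  have ha0 : a ≠ 0 := fun e => one_ne_zero (ha.symm.trans (by rw [e, map_zero]))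
  have hb0 : b ≠ 0 := fun e => one_ne_zero (hb.symm.trans (by rw [e, map_zero]))
  rw [inv_sub_inv ha0 hb0, map_div₀, map_mul, ha, hb, one_mul, div_one, w.map_sub_swap]
  exact h

theorem congr_zpow {a b : L} (hb : w b = 1) (h : w (a - b) < 1) (n : ℤ) :
    w (a ^ n - b ^ n) < 1 := by
  have ha := congr_val h hb
  rcases Int.eq_nat_or_neg n with ⟨m, rfl | rfl⟩
  · simp only [zpow_natCast]
    exact congr_pow ha.le hb.le h m
  · simp only [zpow_neg, zpow_natCast]
    exact congr_inv (by rw [map_pow, hb, one_pow]) (congr_pow ha.le hb.le h m)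

theorem congr_mul_cancel {a b c : L} (hc : w c = 1) (h : w (a * c - b * c) < 1) :
    w (a - b) < 1 := by
  rwa [← sub_mul, map_mul, hc, mul_one] at h

theorem val_natCast_eq_one_of_coprime {a r : ℕ} (h : a.Coprime r) (hr : w (r : L) < 1) :
    w (a : L) = 1 := by
  refine le_antisymm (val_natCast_le_one w a) (not_lt.1 fun ha => ?_)
  have hab := (Nat.isCoprime_iff_coprime.2 h)
  obtain ⟨u, v, huv⟩ := hab
  have hz : ∀ z : ℤ, w (z : L) ≤ 1 := fun z => by
    rcases Int.eq_nat_or_neg z with ⟨m, rfl | rfl⟩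
    · simpa using val_natCast_le_one w m
    · simpa using val_natCast_le_one w m
  have h1 : w ((u : L) * (a : L) + (v : L) * (r : L)) < 1 := by
    refine w.map_add_lt ?_ ?_ <;> rw [map_mul]
    · exact (mul_le_of_le_one_left' (hz u)).trans_lt ha
    · exact (mul_le_of_le_one_left' (hz v)).trans_lt hr
  rw [← Int.cast_natCast (R := L) a, ← Int.cast_natCast (R := L) r, ← Int.cast_mul,
    ← Int.cast_mul, ← Int.cast_add, huv, Int.cast_one, map_one] at h1
  exact lt_irrefl _ h1

/-- Congruent natural numbers agree modulo the residue characteristic. -/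
theorem modEq_of_congr {a b r : ℕ} (hr : r.Prime) (hwr : w (r : L) < 1)
    (h : w ((a : L) - (b : L)) < 1) : a ≡ b [MOD r] := by
  wlog hab : b ≤ a generalizing a b
  · exact (this (congr_symm h) (le_of_not_ge hab)).symm
  rw [← Nat.cast_sub hab] at h
  refine ((Nat.modEq_iff_dvd' hab).2 ?_).symm
  by_contra hnd
  exact h.ne (val_natCast_eq_one_of_coprime ((hr.coprime_iff_not_dvd.2 hnd).symm) hwr)

end valuation

section endo

variable {L : Type*} [Field L] [NumberField L]

/-- An endomorphism congruent to the `e`-th power on generators of the integers. -/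
theorem val_map_sub_pow_lt {s : Set (𝓞 L)} (hs : Algebra.adjoin ℤ s = ⊤)
    (Q : HeightOneSpectrum (𝓞 L)) {e : ℕ} (he : e = 1 ∨ e.Prime ∧ (e : 𝓞 L) ∈ Q.asIdeal)
    (f : L →+* L) (hf : ∀ a ∈ s, Q.valuation L (f (a : L) - (a : L) ^ e) < 1) {x : L}
    (hx : Q.valuation L x ≤ 1) : Q.valuation L (f x - x ^ e) < 1 := by
  set π := Ideal.Quotient.mk Q.asIdeal
  obtain ⟨ψ, hψ⟩ : ∃ ψ : 𝓞 L ⧸ Q.asIdeal →+* 𝓞 L ⧸ Q.asIdeal, ∀ y, ψ y = y ^ e := by
    rcases he with rfl | ⟨he, heQ⟩
    · exact ⟨RingHom.id _, fun y => (pow_one y).symm⟩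
    · haveI : Fact e.Prime := ⟨he⟩
      haveI : Nontrivial (𝓞 L ⧸ Q.asIdeal) :=
        Ideal.Quotient.nontrivial_iff.2 Q.isPrime.ne_top
      haveI : CharP (𝓞 L ⧸ Q.asIdeal) e :=
        (CharP.charP_iff_prime_eq_zero he).2
          ((map_natCast π e).symm.trans (Ideal.Quotient.eq_zero_iff_mem.2 heQ))
      exact ⟨frobenius _ e, fun y => frobenius_def e y⟩
  set f' : 𝓞 L →+* 𝓞 L := RingOfIntegers.mapRingHom f
  have hlt : ∀ a : 𝓞 L, Q.valuation L (f (a : L) - (a : L) ^ e) < 1 ↔ π (f' a) = ψ (π a) := by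
    intro a
    have h : π (f' a) = ψ (π a) ↔ f' a - a ^ e ∈ Q.asIdeal := by
      rw [hψ, ← map_pow π, Ideal.Quotient.eq]
    rw [h, ← Q.valuation_lt_one_iff_mem (K := L)]
    exact Iff.rfl
  have hhom : (π.comp f').toIntAlgHom = (ψ.comp π).toIntAlgHom :=
    AlgHom.ext_of_adjoin_eq_top hs fun a ha => (hlt a).1 (hf a ha)
  have hint : ∀ a : 𝓞 L, Q.valuation L (f (a : L) - (a : L) ^ e) < 1 := fun a =>
    (hlt a).2 (DFunLike.congr_fun hhom a)
  obtain ⟨n, d, hd, hxd⟩ : ∃ n d : 𝓞 L, d ∉ Q.asIdeal ∧ x = (n : L) / (d : L) := by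
    obtain ⟨n, d, h⟩ := Q.exists_primeCompl_mul_eq_or_mul_eq x
    have hd1 : Q.valuation L ((d.1 : 𝓞 L) : L) = 1 :=
      le_antisymm (Q.valuation_le_one d.1) (not_lt.1 fun hlt' =>
        d.2 ((Q.valuation_lt_one_iff_mem d.1).1 hlt'))
    have hd0 : ((d.1 : 𝓞 L) : L) ≠ 0 := fun e => one_ne_zero (hd1.symm.trans (by rw [e, map_zero]))
    rcases h with h | h
    · exact ⟨n, d, d.2, by rw [eq_div_iff hd0]; exact h⟩
    · have hn : Q.valuation L (n : L) = 1 := by
        refine le_antisymm (Q.valuation_le_one n) ?_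
        rw [← hd1, show ((d.1 : 𝓞 L) : L) = x * (n : L) from h.symm, map_mul]
        exact mul_le_of_le_one_left' hx
      have hn0 : (n : L) ≠ 0 := fun e => one_ne_zero (hn.symm.trans (by rw [e, map_zero]))
      exact ⟨d, n, fun hm => hn.not_lt ((Q.valuation_lt_one_iff_mem n).2 hm),
        by rw [eq_div_iff hn0]; exact h⟩
  have hd1 : Q.valuation L (d : L) = 1 := le_antisymm (Q.valuation_le_one d)
    (not_lt.1 fun hlt' => hd ((Q.valuation_lt_one_iff_mem d).1 hlt'))
  have hfd : Q.valuation L (f (d : L)) = 1 :=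
    congr_val (hint d) (by rw [map_pow, hd1, one_pow])
  have hfn : Q.valuation L (f (n : L)) ≤ 1 := Q.valuation_le_one (f' n)
  rw [hxd, map_div₀, div_pow, div_eq_mul_inv, div_eq_mul_inv]
  refine congr_mul hfn ?_ (hint n) (congr_inv (by rw [map_pow, hd1, one_pow]) (hint d))
  rw [map_inv₀, map_pow, hd1, one_pow, inv_one]

end endo

end FA.Kolyvagin
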