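import Fermat.Agent.Kolyvagin.Derivative
import Fermat.Agent.Kolyvagin.Congr

/-!
# The divisors of Kolyvagin's classes

`F` is a Galois number field embedded in `Ω` with image `ℚ(ζ_p + ζ_p⁻¹)`, `M = ℓ ^ k`.

* `IsKappa.dvd_ord`: away from `p` and `T` the orders of `κ_T` are divisible by `M`;
* `IsKappa.dvd_ord_add_log`: at a prime `v` of norm `r ∈ T` the order of `κ_T` is minus the
  discrete logarithm of `κ_{T \ {r}}` modulo `M`.
-/

set_option autoImplicit false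
set_option linter.unusedSectionVars false
set_option linter.style.haveILetI false

noncomputable section

open scoped Classical
open NumberField IsDedekindDomain Finset IntermediateField
open FA.ArtinRec

namespace FA.Kolyvagin

variable {Ω : Type*} [Field Ω] [CharZero Ω] [IsAlgClosed Ω] [Algebra.IsAlgebraic ℚ Ω] {p : ℕ}

/-- A derivative class has a root in the plus field of its own primes. -/
theorem IsKappa.exists_mem {ℓ k : ℕ} (c : Ctx p ℓ k) {T : Finset ℕ} {x : Ω}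
    (h : IsKappa Ω p (ℓ ^ k) T x) :
    ∃ γ ∈ plusField Ω p T, γ ≠ 0 ∧ dT Ω p T 1 = x * γ ^ ℓ ^ k := by
  have hx0 := h.ne_zero c.hp
  obtain ⟨hx, S, hTS, hS, γ, hγ, he⟩ := h
  have hd0 : dT Ω p T (1 : Ω) ≠ 0 := dT_ne_zero c.hp (fun s hs => (hS s (hTS hs)).prime)
    (fun h => p_notMem c.hp hS (hTS h)) (m := 1) c.hp.not_dvd_one (one_pow 1)
  refine ⟨γ, mem_plusField_iff.2 fun σ hσ hfix => ?_, fun h0 => hd0 ?_, he⟩
  · refine eq_of_pow_eq_pow c hS (map_mem_plusField σ hσ (prime_of_adm hS) hγ) hγ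
      (mul_left_cancel₀ hx0 ?_)
    have h1 : σ (dT Ω p T 1) = dT Ω p T 1 := mem_plusField_iff.1 (dT_mem subset_rfl (one_mem _))
      σ hσ hfix
    rw [← he, ← map_pow, ← h1, he, map_mul, mem_base_iff.1 hx σ hσ]
  · rw [he, h0, zero_pow (pow_ne_zero _ c.hl.ne_zero), mul_zero]

/-- The derivative is a unit at a valuation prime to `p`. -/
theorem val_dT {L : IntermediateField ℚ Ω} {Γ : Type*} [LinearOrderedCommGroupWithZero Γ]
    (w : Valuation L Γ) (hp : p.Prime) (hwp : w (p : L) = 1) (hz : zr Ω p ∈ L) {T : Finset ℕ}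
    (hT : ∀ q ∈ T, q.Prime) (hpT : p ∉ T) (hTL : ∀ q ∈ T, zr Ω q ∈ L) {u : L} {m : ℕ}
    (hm : ¬ p ∣ m) (hu : u ^ m = 1) :
    ∃ h : dT Ω p T (u : Ω) ∈ L, w ⟨_, h⟩ = 1 := by
  refine Finset.prod_induction _ (fun x => ∃ h : x ∈ L, w ⟨x, h⟩ = 1) ?_ ⟨one_mem L, w.map_one⟩
    fun j _ => ?_
  · rintro a b ⟨ha, ha'⟩ ⟨hb, hb'⟩
    refine ⟨mul_mem ha hb, ?_⟩
    show w (⟨a, ha⟩ * ⟨b, hb⟩) = 1
    rw [map_mul, ha', hb', one_mul]
  have hptL : pt Ω T j ∈ L := prod_mem fun q hq => pow_mem (hTL q hq) _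
  set z : L := ⟨zr Ω p, hz⟩
  set y : L := u * ⟨pt Ω T j, hptL⟩
  have hy : y ^ (m * ∏ q ∈ T, q) = 1 := by
    refine Subtype.ext ?_
    show ((u : Ω) * pt Ω T j) ^ _ = 1
    have hu' : (u : Ω) ^ m = 1 := congrArg Subtype.val hu
    rw [mul_pow, pow_mul, hu', one_pow, one_mul, mul_comm m, pow_mul, pt_pow_prod, one_pow]
  have hm' : ¬ p ∣ m * ∏ q ∈ T, q := by
    rw [hp.dvd_mul, not_or]
    exact ⟨hm, not_dvd_prod hp hT hpT⟩
  have hzp : IsPrimitiveRoot z p :=
    IsPrimitiveRoot.coe_submonoidClass_iff.1 (zr_spec Ω hp.ne_zero)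
  have hval : hFun Ω p ((u : Ω) * pt Ω T j) ^ wt T j =
      (((1 - z * y) * (1 - z⁻¹ * y)) ^ wt T j : L) := by
    rw [hFun_eq]
    rfl
  rw [hval]
  refine ⟨SetLike.coe_mem _, ?_⟩
  rw [Subtype.coe_eta, map_pow, map_mul, val_one_sub_mul_eq_one w hp hwp hzp hm' hy,
    val_one_sub_mul_eq_one w hp hwp hzp.inv hm' hy, one_mul, one_pow]

/-- The derivative at a point congruent to `1`. -/
theorem val_dT_congr {L : IntermediateField ℚ Ω} {Γ : Type*} [LinearOrderedCommGroupWithZero Γ]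
    (w : Valuation L Γ) (hp : p.Prime) (hz : zr Ω p ∈ L) {T : Finset ℕ}
    (hT : ∀ q ∈ T, q.Prime) (hTL : ∀ q ∈ T, zr Ω q ∈ L) {u : L} (hu : w u ≤ 1)
    (hu1 : w (u - 1) < 1) (hf : dT Ω p T (u : Ω) ∈ L) (hd : dT Ω p T 1 ∈ L) :
    w ((⟨_, hf⟩ : L) - ⟨_, hd⟩) < 1 := by
  set cL : L := ⟨zr Ω p, hz⟩ + (⟨zr Ω p, hz⟩ : L)⁻¹
  have hwz : w (⟨zr Ω p, hz⟩ : L) = 1 := val_eq_one_of_pow_eq_one w hp.ne_zero
    (Subtype.ext (zr_pow_self Ω p))
  have hc : w cL ≤ 1 := w.map_add_le hwz.le (by rw [map_inv₀, hwz, inv_one])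
  have key : ∀ J : Finset (∀ q ∈ T, ℕ), ∃ a b : L,
      (a : Ω) = ∏ j ∈ J, hFun Ω p ((u : Ω) * pt Ω T j) ^ wt T j ∧
      (b : Ω) = ∏ j ∈ J, hFun Ω p ((1 : Ω) * pt Ω T j) ^ wt T j ∧
      w a ≤ 1 ∧ w b ≤ 1 ∧ w (a - b) < 1 := by
    intro J
    induction J using Finset.induction with
    | empty => exact ⟨1, 1, by simp, by simp, by simp, by simp, by simp⟩
    | insert j J hj ih =>
      obtain ⟨a, b, ha, hb, ha1, hb1, hab⟩ := ih
      set P : L := ⟨pt Ω T j, prod_mem fun q hq => pow_mem (hTL q hq) _⟩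
      have hP : w P = 1 := by
        refine val_eq_one_of_pow_eq_one w (n := ∏ q ∈ T, q)
          (Finset.prod_pos fun q hq => (hT q hq).pos).ne' (Subtype.ext ?_)
        exact pt_pow_prod T j
      set A : L := (u * P) ^ 2 - cL * (u * P) + 1
      set B : L := (1 * P) ^ 2 - cL * (1 * P) + 1
      have hle : ∀ x : L, w x ≤ 1 → w (x ^ 2 - cL * x + 1) ≤ 1 := fun x hx =>
        w.map_add_le (w.map_sub_le (by rw [map_pow]; exact pow_le_one' hx 2)
          (by rw [map_mul]; exact mul_le_one' hc hx)) w.map_one.le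
      have hA : w A ≤ 1 := hle _ (by rw [map_mul, hP, mul_one]; exact hu)
      have hB : w B ≤ 1 := hle _ (by rw [one_mul]; exact hP.le)
      have hAB : w (A - B) < 1 := by
        rw [show A - B = (u - 1) * (P * ((u + 1) * P - cL)) by simp only [A, B]; ring, map_mul]
        refine (mul_le_of_le_one_right' ?_).trans_lt hu1
        rw [map_mul, hP, one_mul]
        exact w.map_sub_le (by rw [map_mul, hP, mul_one]; exact w.map_add_le hu w.map_one.le) hc
      refine ⟨A ^ wt T j * a, B ^ wt T j * b, ?_, ?_, ?_, ?_, ?_⟩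
      · rw [Finset.prod_insert hj, ← ha]
        rfl
      · rw [Finset.prod_insert hj, ← hb]
        rfl
      · rw [map_mul, map_pow]; exact mul_le_one' (pow_le_one' hA _) ha1
      · rw [map_mul, map_pow]; exact mul_le_one' (pow_le_one' hB _) hb1
      · exact congr_mul (by rw [map_pow]; exact pow_le_one' hA _) hb1
          (congr_pow hA hB hAB _) hab
  obtain ⟨a, b, ha, hb, -, -, hab⟩ := key (T.pi fun q => range (q - 1))
  rwa [show (⟨_, hf⟩ : L) = a from Subtype.ext ha.symm,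
    show (⟨_, hd⟩ : L) = b from Subtype.ext hb.symm]

theorem val_natCast_lt_one_iff {K : Type*} [Field K] [NumberField K]
    (v : HeightOneSpectrum (𝓞 K)) (n : ℕ) :
    v.valuation K (n : K) < 1 ↔ (n : 𝓞 K) ∈ v.asIdeal := by
  rw [← map_natCast (algebraMap (𝓞 K) K)]
  exact v.valuation_lt_one_iff_mem _

theorem val_natCast_eq_one_iff {K : Type*} [Field K] [NumberField K]
    (v : HeightOneSpectrum (𝓞 K)) (n : ℕ) :
    v.valuation K (n : K) = 1 ↔ (n : 𝓞 K) ∉ v.asIdeal := by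
  rw [← val_natCast_lt_one_iff, not_lt]
  exact ⟨fun h => h.ge, fun h => le_antisymm (val_natCast_le_one _ n) h⟩

variable (p) in
/-- A field generated by the roots. -/
structure IsRootField (S : Finset ℕ) (L : IntermediateField ℚ Ω) : Prop where
  zr_mem : ∀ q ∈ insert p S, zr Ω q ∈ L
  plus_mem : ∀ x ∈ plusField Ω p S, x ∈ L
  fixed : ∀ σ : Ω ≃ₐ[ℚ] Ω, (∀ q ∈ insert p S, σ (zr Ω q) = zr Ω q) → ∀ y : L, σ (y : Ω) = y
  adjoin_int : ∃ Z : 𝓞 L, ((Z : L) : Ω) = zProd Ω (insert p S) ∧ Algebra.adjoin ℤ {Z} = ⊤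

theorem exists_rootField {S : Finset ℕ} (hS : ∀ q ∈ insert p S, q.Prime) :
    ∃ (L : IntermediateField ℚ Ω) (_ : NumberField L) (_ : IsGalois ℚ L), IsRootField p S L := by
  haveI : NeZero (∏ q ∈ insert p S, q) :=
    ⟨(Finset.prod_pos fun q hq => (hS q hq).pos).ne'⟩
  haveI := fullField_isCyclotomic (Ω := Ω) hS
  refine ⟨fullField Ω p S, IsCyclotomicExtension.numberField {∏ q ∈ insert p S, q} ℚ _,
    IsCyclotomicExtension.isGalois {∏ q ∈ insert p S, q} ℚ _,
    ⟨fun q hq => zr_mem_fullField hq, fun x hx => plusField_le_fullField S hx,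
      fun σ hσ y => (mem_adjoin_iff_fixed.1 y.2) σ ?_, ?_⟩⟩
  · rintro _ ⟨q, hq, rfl⟩
    exact hσ q hq
  · haveI : NumberField (fullField Ω p S) :=
      IsCyclotomicExtension.numberField {∏ q ∈ insert p S, q} ℚ _
    have hmem : zProd Ω (insert p S) ∈ fullField Ω p S :=
      prod_mem fun q hq => zr_mem_fullField hq
    have hZ : IsPrimitiveRoot (⟨_, hmem⟩ : fullField Ω p S) (∏ q ∈ insert p S, q) :=
      IsPrimitiveRoot.coe_submonoidClass_iff.1 (zProd_isPrimitiveRoot Ω hS)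
    exact ⟨hZ.toInteger, rfl, IsCyclotomicExtension.Rat.adjoin_singleton_eq_top hZ⟩

/-- The inertia group is trivial away from the primes of the roots. -/
theorem inertia_rootField_eq_bot {S : Finset ℕ} (hS : ∀ q ∈ insert p S, q.Prime)
    {L : IntermediateField ℚ Ω} [NumberField L] [IsGalois ℚ L] (hL : IsRootField p S L)
    {K : Type*} [Field K] [NumberField K] [Algebra K L] (Q : HeightOneSpectrum (𝓞 L))
    (hQ : ∀ q ∈ insert p S, (q : 𝓞 L) ∉ Q.asIdeal) :
    Q.asIdeal.inertia (L ≃ₐ[K] L) = ⊥ := by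
  haveI := isGalois_rat (Ω := Ω)
  rw [eq_bot_iff]
  intro τ hτ
  rw [Subgroup.mem_bot]
  let τQ : L ≃ₐ[ℚ] L := AlgEquiv.ofRingEquiv (f := τ.toRingEquiv) fun r =>
    map_ratCast τ.toRingEquiv r
  set σ := τQ.liftNormal Ω
  have hσ : ∀ y : L, σ (y : Ω) = (τ y : L) := fun y => τQ.liftNormal_commutes Ω y
  have hfix : ∀ q ∈ insert p S, σ (zr Ω q) = zr Ω q := by
    intro q hq
    have hqp := hS q hq
    obtain ⟨i, hi, hqi⟩ := exists_map_zr (σ : Ω →+* Ω) hqp
    have hi' : σ (zr Ω q) = zr Ω q ^ i := hi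
    set z : L := ⟨zr Ω q, hL.zr_mem q hq⟩
    have hz : IsPrimitiveRoot z q :=
      IsPrimitiveRoot.coe_submonoidClass_iff.1 (zr_spec Ω hqp.ne_zero)
    have hτz : τ z = z ^ i := Subtype.ext (by rw [← hσ z]; exact hi')
    have hlt : Q.valuation L (z ^ i - z) < 1 := by
      haveI : NeZero q := ⟨hqp.ne_zero⟩
      have h : τ • hz.toInteger - hz.toInteger ∈ Q.asIdeal := hτ hz.toInteger
      rw [← hτz]
      exact (Q.valuation_lt_one_iff_mem (K := L) _).2 h
    rw [hi']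
    by_contra hne
    have hi0 : i ≠ 0 := fun h => hqi (h ▸ dvd_zero q)
    have hwq : Q.valuation L (q : L) = 1 := (val_natCast_eq_one_iff Q q).2 (hQ q hq)
    have hnd : ¬ q ∣ i - 1 := fun ⟨c, hc⟩ => hne (by
      rw [show i = q * c + 1 by omega, pow_succ, pow_mul, zr_pow_self, one_pow, one_mul])
    have h1 : Q.valuation L (z ^ i - z) = 1 := by
      obtain ⟨n, rfl⟩ : ∃ n, i = n + 1 := ⟨i - 1, by omega⟩
      rw [Nat.add_sub_cancel] at hnd
      rw [pow_succ, ← sub_one_mul, map_mul, val_eq_one_of_pow_eq_one _ hqp.ne_zero hz.pow_eq_one,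
        mul_one, Valuation.map_sub_swap]
      exact val_one_sub_eq_one _ hqp hwq
        (hz.pow_of_coprime n (hqp.coprime_iff_not_dvd.2 hnd).symm)
    exact hlt.ne h1
  refine AlgEquiv.ext fun y => Subtype.ext ?_
  rw [← hσ y]
  exact hL.fixed σ hfix y

section base

variable {F : Type*} [Field F] [NumberField F]

variable (p) in
/-- The embedding identifies `F` with `ℚ(ζ_p + ζ_p⁻¹)`. -/
def IsBase (ι : F →+* Ω) : Prop := ∀ x : Ω, x ∈ plusField Ω p ∅ ↔ ∃ y, ι y = x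

variable {ι : F →+* Ω} (hι : IsBase p ι)
include hι

theorem map_iota {σ : Ω ≃ₐ[ℚ] Ω} (hσ : σ (cp Ω p) = cp Ω p) (y : F) : σ (ι y) = ι y :=
  mem_base_iff.1 ((hι _).2 ⟨y, rfl⟩) σ hσ

theorem exists_isKappa_base {ℓ k : ℕ} (c : Ctx p ℓ k) {T : Finset ℕ}
    (hT : ∀ q ∈ T, IsAdm p (ℓ ^ k) q) :
    ∃ x : Fˣ, IsKappa Ω p (ℓ ^ k) T (ι x) := by
  obtain ⟨x, hx⟩ := exists_isKappa (Ω := Ω) c hT
  obtain ⟨y, rfl⟩ := (hι x).1 hx.1
  exact ⟨Units.mk0 y fun h => hx.ne_zero c.hp (by rw [h, map_zero]), hx⟩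

/-- A place over `v`. -/
theorem exists_place {S : Finset ℕ} (hS : ∀ q ∈ insert p S, q.Prime)
    (v : HeightOneSpectrum (𝓞 F)) :
    ∃ (L : IntermediateField ℚ Ω) (_ : NumberField L) (_ : IsGalois ℚ L) (j : F →+* L)
      (Q : HeightOneSpectrum (𝓞 L)) (e : ℕ),
      IsRootField p S L ∧ (∀ x, (j x : Ω) = ι x) ∧ 0 < e ∧
      (∀ x : Fˣ, ord Q (Units.map (j : F →* L) x) = e * ord v x) ∧
      (∀ x : F, Q.valuation _ (j x) = v.valuation F x ^ e) ∧
      ((∀ q ∈ insert p S, (q : 𝓞 F) ∉ v.asIdeal) → e = 1) := by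
  obtain ⟨L, hNF, hGal, hL⟩ := exists_rootField (Ω := Ω) hS
  let j : F →+* L := ι.codRestrict L fun y =>
    hL.plus_mem _ (plusField_mono (Finset.empty_subset S) ((hι _).2 ⟨y, rfl⟩))
  letI : Algebra F L := j.toAlgebra
  haveI : IsScalarTower ℚ F L := IsScalarTower.of_algebraMap_eq' (Subsingleton.elim _ _)
  haveI : IsGalois F L := IsGalois.tower_top_of_isGalois ℚ F _
  obtain ⟨Q, rfl⟩ := exists_belowP F L v
  refine ⟨L, hNF, hGal, j, Q, eIdx F Q, hL, fun _ => rfl, eIdx_pos Q, fun x => ord_baseU Q x,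
    fun x => ?_, fun hv => ?_⟩
  · haveI : Q.asIdeal.LiesOver (belowP F Q).asIdeal := ⟨rfl⟩
    exact (HeightOneSpectrum.valuation_liesOver L (belowP F Q) Q x).symm
  · refine eIdx_eq_one fun ⟨Q', hQ', hne⟩ => hne (inertia_rootField_eq_bot hS hL Q' fun q hq hmem =>
      hv q hq ?_)
    rw [← hQ']
    show algebraMap (𝓞 F) (𝓞 L) (q : 𝓞 F) ∈ Q'.asIdeal
    rwa [map_natCast]

/-- Primes other than `p` do not ramify in `F`. -/
theorem ord_natCast_eq_one (hp : p.Prime) {r : ℕ} (hr : r.Prime) (hrp : r ≠ p)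
    (v : HeightOneSpectrum (𝓞 F)) (hrv : (r : 𝓞 F) ∈ v.asIdeal) :
    ord v (Units.mk0 (r : F) (Nat.cast_ne_zero.2 hr.ne_zero)) = 1 := by
  have hS : ∀ q ∈ insert p (∅ : Finset ℕ), q.Prime := by simp [hp]
  obtain ⟨L, hNF, hGal, j, Q, e, hL, -, hepos, hord, hval, -⟩ := exists_place hι hS v
  have hrQ : Q.valuation L (r : L) < 1 := by
    rw [← map_natCast j r, hval]
    exact pow_lt_one₀ zero_le ((val_natCast_lt_one_iff v r).2 hrv) hepos.ne'
  -- the prime of `ℚ` below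
  set P := belowP ℚ Q
  have hPr : (r : 𝓞 ℚ) ∈ P.asIdeal := by
    show algebraMap (𝓞 ℚ) (𝓞 L) (r : 𝓞 ℚ) ∈ Q.asIdeal
    rw [map_natCast]
    exact (val_natCast_lt_one_iff Q r).1 hrQ
  have hprime : Prime (r : 𝓞 ℚ) := by
    refine (MulEquiv.prime_iff Rat.ringOfIntegersEquiv.toMulEquiv).1 ?_
    show Prime (Rat.ringOfIntegersEquiv (r : 𝓞 ℚ))
    rw [map_natCast]
    exact Nat.prime_iff_prime_int.1 hr
  have hspan : P.asIdeal = Ideal.span {(r : 𝓞 ℚ)} := by
    haveI : (Ideal.span {(r : 𝓞 ℚ)}).IsPrime :=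
      (Ideal.span_singleton_prime hprime.ne_zero).2 hprime
    exact (((inferInstance : (Ideal.span {(r : 𝓞 ℚ)}).IsPrime).isMaximal
      (by simpa using hprime.ne_zero)).eq_of_le P.isPrime.ne_top
      ((Ideal.span_singleton_le_iff_mem _).2 hPr)).symm
  have hPord : ord P (intU (r : 𝓞 ℚ) hprime.ne_zero) = 1 := by
    rw [ord_intU, ← hspan, multiplicity_self]
    rfl
  have hQe : eIdx ℚ Q = 1 := by
    refine eIdx_eq_one fun ⟨Q', hQ', hne⟩ => hne (inertia_rootField_eq_bot hS hL Q'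
      fun q hq hmem => hrp ((Nat.prime_dvd_prime_iff_eq hr hp).1 ?_))
    have hqp : q = p := by simpa using hq
    subst hqp
    have h : (q : 𝓞 ℚ) ∈ P.asIdeal := by
      rw [show P = belowP ℚ Q' from hQ'.symm]
      show algebraMap (𝓞 ℚ) (𝓞 L) (q : 𝓞 ℚ) ∈ Q'.asIdeal
      rwa [map_natCast]
    rw [hspan, Ideal.mem_span_singleton] at h
    have h' := map_dvd Rat.ringOfIntegersEquiv h
    rw [map_natCast, map_natCast] at h'
    exact_mod_cast h'
  have h1 := ord_baseU (L := L) Q (intU (r : 𝓞 ℚ) hprime.ne_zero)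
  rw [hQe, hPord, mul_one, Nat.cast_one] at h1
  have h2 := hord (Units.mk0 (r : F) (Nat.cast_ne_zero.2 hr.ne_zero))
  rw [show Units.map (j : F →* L) (Units.mk0 (r : F) (Nat.cast_ne_zero.2 hr.ne_zero)) =
    baseU (intU (r : 𝓞 ℚ) hprime.ne_zero) from Units.ext (by
      rw [Units.coe_map, baseU_val, intU_val]
      simp), h1] at h2
  exact ((Int.eq_one_or_neg_one_of_mul_eq_one' h2.symm).elim (fun h => h.2)
    fun h => absurd h.1 (by omega))

/-- The discrete logarithm at a prime of norm `r`, with `r` as uniformiser. -/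
def LogAt (v : HeightOneSpectrum (𝓞 F)) (r : ℕ) (x : Fˣ) (j : ℕ) : Prop :=
  v.valuation F ((x : F) * (r : F) ^ (-ord v x) - (gen r : F) ^ j) < 1

variable {ℓ k : ℕ}

/-- **Orders away from `T`.** -/
theorem IsKappa.dvd_ord (c : Ctx p ℓ k) {T : Finset ℕ} (hT : ∀ q ∈ T, IsAdm p (ℓ ^ k) q) {x : Fˣ}
    (hx : IsKappa Ω p (ℓ ^ k) T (ι x)) (v : HeightOneSpectrum (𝓞 F))
    (hv : ∀ q ∈ insert p T, (q : 𝓞 F) ∉ v.asIdeal) : ((ℓ ^ k : ℕ) : ℤ) ∣ ord v x := by
  have hS : ∀ q ∈ insert p T, q.Prime := fun q hq =>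
    (Finset.mem_insert.1 hq).elim (fun h => h ▸ c.hp) (prime_of_adm hT q)
  obtain ⟨L, hNF, hGal, ιL, Q, e, hL, hιL, -, hord, hval, he1⟩ := exists_place hι hS v
  obtain ⟨γ, hγ, hγ0, he⟩ := hx.exists_mem c
  set γL : Lˣ := Units.mk0 ⟨γ, hL.plus_mem _ hγ⟩
    fun h => hγ0 (congrArg Subtype.val h)
  have hwp : Q.valuation L (p : L) = 1 := by
    rw [← map_natCast ιL p, hval, he1 hv, pow_one]
    exact (val_natCast_eq_one_iff v p).2 (hv p (Finset.mem_insert_self _ _))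
  obtain ⟨hd, hd1⟩ := val_dT (Q.valuation L) c.hp hwp (hL.zr_mem _ (Finset.mem_insert_self _ _))
    (prime_of_adm hT) (p_notMem c.hp hT) (fun q hq => hL.zr_mem _ (Finset.mem_insert_of_mem hq))
    (u := 1) (m := 1) c.hp.not_dvd_one (one_pow 1)
  set X : Lˣ := Units.map (ιL : F →* L) x * γL ^ ℓ ^ k
  have h0 : ord Q X = 0 := by
    rw [ord_eq_iff, neg_zero, WithZero.exp_zero, ← hd1]
    refine congrArg _ (Subtype.ext ?_)
    show ((ιL (x : F) : L) : Ω) * γ ^ ℓ ^ k = dT Ω p T 1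
    rw [hιL, he]
  rw [ord_mul, ord_pow, hord, he1 hv, Nat.cast_one, one_mul] at h0
  exact ⟨-ord Q γL, by linarith⟩

/-- **The order at a prime of `T`.** -/
theorem IsKappa.dvd_ord_add_log (c : Ctx p ℓ k) {T : Finset ℕ}
    (hT : ∀ q ∈ T, IsAdm p (ℓ ^ k) q) {r : ℕ} (hrT : r ∈ T) (v : HeightOneSpectrum (𝓞 F))
    (hrv : (r : 𝓞 F) ∈ v.asIdeal) {x y : Fˣ}
    (hx : IsKappa Ω p (ℓ ^ k) T (ι x)) (hy : IsKappa Ω p (ℓ ^ k) (T.erase r) (ι y))
    {j : ℕ} (hj : LogAt v r y j) : ((ℓ ^ k : ℕ) : ℤ) ∣ ord v x + j := by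
  set M := ℓ ^ k with hM
  have hra := hT r hrT
  have hr := hra.prime
  set T' := T.erase r with hT'
  have hT'T : T' ⊆ T := Finset.erase_subset _ _
  have hT'a : ∀ q ∈ T', IsAdm p M q := fun q hq => hT q (hT'T hq)
  obtain ⟨e', he'⟩ := hra.dvd
  have hins : insert r T' = T := Finset.insert_erase hrT
  -- normalise `y` at `v`
  set rU : Fˣ := Units.mk0 (r : F) (Nat.cast_ne_zero.2 hr.ne_zero)
  have hrU : ord v rU = 1 := ord_natCast_eq_one hι c.hp hr (hra.ne_p c.hp) v hrv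
  have hvone : ∀ q : ℕ, q.Prime → q ≠ r → (q : 𝓞 F) ∉ v.asIdeal := fun q hq hne hmem => by
    exact ((val_natCast_lt_one_iff v q).2 hmem).ne (val_natCast_eq_one_of_coprime
      ((Nat.coprime_primes hq hr).2 hne) ((val_natCast_lt_one_iff v r).2 hrv))
  obtain ⟨b, hb⟩ := IsKappa.dvd_ord hι c hT'a hy v fun q hq => by
    rcases Finset.mem_insert.1 hq with rfl | hq
    · exact hvone _ c.hp (hra.ne_p c.hp).symm
    · exact hvone q (hT'a q hq).prime (Finset.ne_of_mem_erase hq)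
  obtain ⟨γ', hγ', hγ'0, hey⟩ := hy.exists_mem c
  obtain ⟨γ, hγ, hγ0, hex⟩ := hx.exists_mem c
  set y' : Fˣ := y * rU ^ (-ord v y) with hy'
  set δ : Ω := γ' * ι (rU ^ b : Fˣ)
  have hδmem : δ ∈ plusField Ω p T' :=
    mul_mem hγ' (plusField_mono (Finset.empty_subset _) ((hι _).2 ⟨_, rfl⟩))
  have hδ0 : δ ≠ 0 := mul_ne_zero hγ'0 ((map_ne_zero ι).2 (Units.ne_zero _))
  have hey' : dT Ω p T' 1 = ι y' * δ ^ M := by
    rw [hey]
    have hu : y = y' * (rU ^ b) ^ M := by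
      rw [hy', hb, mul_assoc, ← zpow_natCast (rU ^ b), ← zpow_mul, ← zpow_add,
        neg_add_eq_zero.2 (mul_comm _ _), zpow_zero, mul_one]
    conv_lhs => rw [hu]
    rw [Units.val_mul, Units.val_pow_eq_pow_val, map_mul, map_pow, mul_pow]
    ring
  have hy'0 : ord v y' = 0 := by rw [hy', ord_mul, ord_zpow, hrU]; ring
  have hy'j : v.valuation F ((y' : F) - (gen r : F) ^ j) < 1 := by
    rw [hy', Units.val_mul, Units.val_zpow_eq_zpow_val]
    exact hj
  -- automorphisms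
  obtain ⟨σ, φ, hσc, hσp, hσT, hσr, hφc, hφT⟩ := exists_sigma_phi (Ω := Ω) c.hp
    (Finset.notMem_erase r T) (hra.ne_p c.hp) (prime_of_adm hT'a) (p_notMem c.hp hT'a) hr
  have hrel := derivative_relation (σ := (σ : Ω →+* Ω)) (φ := (φ : Ω →+* Ω))
    (Finset.notMem_erase r T) hr hra.sign hσc hσT hσr hφc hφT
  rw [hins, hex, hey'] at hrel
  set f := dT Ω p T' (zr Ω r)
  have hfP : f ∈ plusField Ω p T := dT_mem hT'T (zr_mem_plusField hrT)
  have hroot : σ γ * φ δ = γ * f ^ e' * δ := by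
    refine eq_of_pow_eq_pow c hT
      (mul_mem (map_mem_plusField σ hσc (prime_of_adm hT) hγ)
        (plusField_mono hT'T (map_mem_plusField φ hφc (prime_of_adm hT'a) hδmem)))
      (mul_mem (mul_mem hγ (pow_mem hfP _)) (plusField_mono hT'T hδmem)) ?_
    have hne : ι (x : F) * ι (y' : F) ≠ 0 :=
      mul_ne_zero ((map_ne_zero ι).2 x.ne_zero) ((map_ne_zero ι).2 y'.ne_zero)
    refine mul_left_cancel₀ hne ?_
    rw [he'] at hrel
    have h' : σ (ι x * γ ^ M) * φ (ι y' * δ ^ M) =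
        ι x * γ ^ M * f ^ (M * e') * (ι y' * δ ^ M) := hrel
    rw [map_mul, map_mul, map_pow, map_pow, map_iota hι hσc, map_iota hι hφc] at h'
    rw [← hM, mul_pow, mul_pow, mul_pow, ← pow_mul, mul_comm e' M]
    linear_combination h'
  -- the field
  have hS : ∀ q ∈ insert p T, q.Prime := fun q hq =>
    (Finset.mem_insert.1 hq).elim (fun h => h ▸ c.hp) (prime_of_adm hT q)
  obtain ⟨L, hNF, hGal, ιL, Q, e, hL, hιL, hepos, hord, hval, -⟩ := exists_place hι hS v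
  set w := Q.valuation L
  have hlt_iff : ∀ a : F, v.valuation F a < 1 → w (ιL a) < 1 := fun a h => by
    rw [hval]; exact pow_lt_one₀ zero_le h hepos.ne'
  have hone : ∀ a : Fˣ, ord v a = 0 → w (ιL (a : F)) = 1 := fun a h => by
    rw [hval, valuation_eq_exp, h, neg_zero, WithZero.exp_zero, one_pow]
  have hwr : w (r : L) < 1 := by
    rw [← map_natCast (ιL) r]
    exact hlt_iff _ ((val_natCast_lt_one_iff v r).2 hrv)
  have hwp : w (p : L) = 1 :=
    val_natCast_eq_one_of_coprime ((Nat.coprime_primes c.hp hr).2 (hra.ne_p c.hp).symm) hwr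
  have hwg : w (gen r : L) = 1 :=
    val_natCast_eq_one_of_coprime ((hr.coprime_iff_not_dvd.2 (not_dvd_gen hr)).symm) hwr
  -- the root at `r`
  set z : L := ⟨zr Ω r, hL.zr_mem _ (Finset.mem_insert_of_mem hrT)⟩
  have hz : IsPrimitiveRoot z r :=
    IsPrimitiveRoot.coe_submonoidClass_iff.1 (zr_spec Ω hr.ne_zero)
  have hz1 : w z = 1 := val_eq_one_of_pow_eq_one w hr.ne_zero hz.pow_eq_one
  have hπ0 : z - 1 ≠ 0 := sub_ne_zero.2 (hz.ne_one hr.one_lt)
  set π : Lˣ := Units.mk0 (z - 1) hπ0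
  have hπeq : ∀ μ ∈ primitiveRoots r L, w (1 - μ) = w (1 - z) := fun μ hμ => by
    have hdiv : ∀ {a b : L}, IsPrimitiveRoot a r → b ^ r = 1 → w (1 - b) ≤ w (1 - a) := by
      intro a b ha hb
      haveI : NeZero r := ⟨hr.ne_zero⟩
      obtain ⟨i, -, rfl⟩ := ha.eq_pow_of_pow_eq_one hb
      rw [← mul_neg_geom_sum, map_mul]
      exact mul_le_of_le_one_right' (w.map_sum_le fun i _ => by
        rw [map_pow, val_eq_one_of_pow_eq_one w hr.ne_zero ha.pow_eq_one, one_pow])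
    exact le_antisymm (hdiv hz ((mem_primitiveRoots hr.pos).1 hμ).pow_eq_one)
      (hdiv ((mem_primitiveRoots hr.pos).1 hμ) hz.pow_eq_one)
  have hrπ : (e : ℤ) = (r - 1 : ℕ) * ord Q π := by
    have hwprod : w (r : L) = w (z - 1) ^ (r - 1) := by
      have h := congrArg (Polynomial.eval 1) (Polynomial.cyclotomic_eq_prod_X_sub_primitiveRoots hz)
      haveI : Fact r.Prime := ⟨hr⟩
      rw [Polynomial.eval_one_cyclotomic_prime, Polynomial.eval_prod] at h
      simp only [Polynomial.eval_sub, Polynomial.eval_X, Polynomial.eval_C] at h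
      rw [h, map_prod, Finset.prod_congr rfl hπeq, Finset.prod_const, hz.card_primitiveRoots,
        Nat.totient_prime hr, Valuation.map_sub_swap]
    have h := hord rU
    rw [hrU, mul_one] at h
    rw [← h, ord_eq_iff, neg_mul_eq_mul_neg, ← nsmul_eq_mul, WithZero.exp_nsmul,
      ← valuation_eq_exp]
    rw [Units.coe_map]
    show w (ιL (r : F)) = _
    rw [map_natCast]
    exact hwprod
  have hcoe : ∀ (a : Ω) (h : a ∈ L) (b : L), a = (b : Ω) → (⟨a, h⟩ : L) = b :=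
    fun a h b hab => Subtype.ext hab
  -- `γ`
  set γL : Lˣ := Units.mk0 ⟨γ, hL.plus_mem _ hγ⟩
    fun h => hγ0 (congrArg Subtype.val h)
  obtain ⟨hd, hd1⟩ := val_dT w c.hp hwp (hL.zr_mem _ (Finset.mem_insert_self _ _))
    (prime_of_adm hT) (p_notMem c.hp hT)
    (fun q hq => hL.zr_mem _ (Finset.mem_insert_of_mem hq))
    (u := 1) (m := 1) c.hp.not_dvd_one (one_pow 1)
  set o := ord v x
  set n : ℤ := -((e' : ℤ) * o)
  have hγord : ord Q γL = n * ord Q π := by
    have h0 : ord Q (Units.map (ιL : F →* L) x * γL ^ M) = 0 := by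
      rw [ord_eq_iff, neg_zero, WithZero.exp_zero, ← hd1]
      refine congrArg _ (Subtype.ext ?_)
      show ((ιL (x : F) : L) : Ω) * γ ^ M = dT Ω p T 1
      rw [hιL, hex]
    rw [ord_mul, ord_pow, hord, hrπ, he', Nat.cast_mul] at h0
    have hM0 : (M : ℤ) ≠ 0 := by exact_mod_cast pow_ne_zero _ c.hl.ne_zero
    exact mul_left_cancel₀ hM0 (by linear_combination h0)
  set u : Lˣ := γL / π ^ n
  have hu1 : w (u : L) = 1 := by
    rw [valuation_eq_exp, ord_div, ord_zpow, hγord, sub_self, neg_zero, WithZero.exp_zero]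
  -- integers
  obtain ⟨Zi, hZi, hadj⟩ := hL.adjoin_int
  set Z : L := (Zi : L)
  have hZ1 : w Z ≤ 1 := Q.valuation_le_one Zi
  set σL := σ.restrictNormal L
  set φL := φ.restrictNormal L
  have hσL : ∀ a : L, ((σL a : L) : Ω) = σ (a : Ω) := fun a =>
    AlgEquiv.restrictNormal_commutes σ L a
  have hφL : ∀ a : L, ((φL a : L) : Ω) = φ (a : Ω) := fun a =>
    AlgEquiv.restrictNormal_commutes φ L a
  have hzpow : ∀ i : ℕ, w (z ^ i - 1) < 1 := fun i => by
    have hπ1 : w (z - 1) < 1 := by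
      rw [show (z - 1) = (π : L) from rfl, valuation_eq_exp, ← WithZero.exp_zero,
        WithZero.exp_lt_exp, neg_lt_zero]
      have h1 : (0 : ℤ) < e := by exact_mod_cast hepos
      rw [hrπ] at h1
      exact pos_of_mul_pos_right h1 (Int.natCast_nonneg _)
    have := congr_pow (w := w) hz1.le (by rw [map_one]) (b := 1) hπ1 i
    rwa [one_pow] at this
  have hσcongr : ∀ a : L, w a ≤ 1 → w (σL a - a) < 1 := fun a ha => by
    have h := val_map_sub_pow_lt hadj Q (Or.inl rfl) (σL : L →+* L) (fun b hb => ?_) ha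
    · rwa [pow_one] at h
    rw [Set.mem_singleton_iff] at hb
    subst hb
    rw [pow_one]
    show w (σL Z - Z) < 1
    have hσZ : σL Z * z = Z * z ^ gen r := by
      refine Subtype.ext ?_
      show ((σL Z : L) : Ω) * zr Ω r = (Z : Ω) * zr Ω r ^ gen r
      rw [hσL, hZi]
      rw [zProd, map_prod, ← Finset.mul_prod_erase _ _ (Finset.mem_insert_of_mem hrT),
        ← Finset.mul_prod_erase _ (fun q => zr Ω q) (Finset.mem_insert_of_mem hrT), hσr,
        Finset.prod_congr rfl fun q hq => (show σ (zr Ω q) = zr Ω q from ?_)]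
      · ring
      · obtain ⟨hqr, hq⟩ := Finset.mem_erase.1 hq
        rcases Finset.mem_insert.1 hq with rfl | hq
        · exact hσp
        · exact hσT q (Finset.mem_erase.2 ⟨hqr, hq⟩)
    refine congr_mul_cancel hz1 ?_
    rw [hσZ]
    exact congr_mul hZ1 hz1.le (congr_self Z)
      (congr_trans (b := 1) (hzpow (gen r)) (congr_symm (by simpa using hzpow 1)))
  set δL : Lˣ := Units.mk0 ⟨δ, hL.plus_mem _ (plusField_mono hT'T hδmem)⟩
    fun h => hδ0 (congrArg Subtype.val h)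
  have hwy : w (ιL (y' : F)) = 1 := hone y' hy'0
  obtain ⟨hd', hd'1⟩ := val_dT w c.hp hwp (hL.zr_mem _ (Finset.mem_insert_self _ _))
    (prime_of_adm hT'a) (p_notMem c.hp hT'a)
    (fun q hq => hL.zr_mem _ (Finset.mem_insert_of_mem (hT'T hq)))
    (u := 1) (m := 1) c.hp.not_dvd_one (one_pow 1)
  obtain ⟨hf, hf1⟩ := val_dT w c.hp hwp (hL.zr_mem _ (Finset.mem_insert_self _ _))
    (prime_of_adm hT'a) (p_notMem c.hp hT'a)
    (fun q hq => hL.zr_mem _ (Finset.mem_insert_of_mem (hT'T hq)))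
    (u := z) (m := r) (fun h => hra.ne_p c.hp ((Nat.prime_dvd_prime_iff_eq c.hp hr).1 h).symm)
    hz.pow_eq_one
  have hd'eq : (⟨_, hd'⟩ : L) = ιL (y' : F) * (δL : L) ^ M :=
    Subtype.ext (by
      show dT Ω p T' 1 = ((ιL (y' : F) : L) : Ω) * δ ^ M
      rw [hιL, hey'])
  have hδ1 : w (δL : L) = 1 := by
    rw [hd'eq, map_mul, hwy, one_mul, map_pow] at hd'1
    exact (pow_eq_one_iff_of_nonneg zero_le (pow_ne_zero _ c.hl.ne_zero)).1 hd'1
  -- Frobenius
  have hφcongr : w (φL (δL : L) - (δL : L) ^ r) < 1 := by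
    obtain ⟨φ', hφ'⟩ := exists_aut (Ω := Ω) hS (fun q => if q = r then 1 else r) fun q hq => by
      split_ifs with h
      · exact (hS q hq).not_dvd_one
      · exact fun hd => h ((Nat.prime_dvd_prime_iff_eq (hS q hq) hr).1 hd)
    have hrQ : (r : 𝓞 L) ∈ Q.asIdeal := (val_natCast_lt_one_iff Q r).1 hwr
    have hrp : r ≠ p := hra.ne_p c.hp
    have hφ'c : φ' (cp Ω p) = cp Ω p := by
      have hp' : φ' (zr Ω p) = zr Ω p ^ r := by
        rw [hφ' p (Finset.mem_insert_self _ _), if_neg hrp.symm]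
      rw [cp, map_add, map_inv₀, hp']
      rcases zr_pow_sign (Ω := Ω) hra.sign with h | h <;> rw [h]
      rw [inv_inv, add_comm]
    have heq : φ' δ = φ δ := by
      have : (φ⁻¹ * φ') δ = δ := by
        refine mem_plusField_iff.1 hδmem (φ⁻¹ * φ') ?_ fun q hq => ?_
        · show φ.symm (φ' (cp Ω p)) = _
          rw [hφ'c, AlgEquiv.symm_apply_eq, hφc]
        · show φ.symm (φ' (zr Ω q)) = _
          rw [hφ' q (Finset.mem_insert_of_mem (hT'T hq)), if_neg (Finset.ne_of_mem_erase hq),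
            AlgEquiv.symm_apply_eq, hφT q hq]
      exact (AlgEquiv.symm_apply_eq _).1 this
    set φ'L := φ'.restrictNormal L
    have hφ'L : ∀ a : L, ((φ'L a : L) : Ω) = φ' (a : Ω) := fun a =>
      AlgEquiv.restrictNormal_commutes φ' L a
    have h := val_map_sub_pow_lt hadj Q (Or.inr ⟨hr, hrQ⟩) (φ'L : L →+* L) (fun b hb => ?_)
      hδ1.le
    · have : φ'L (δL : L) = φL (δL : L) := Subtype.ext (by rw [hφL, hφ'L]; exact heq)
      rwa [show (φ'L : L →+* L) (δL : L) = φL (δL : L) from this] at h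
    rw [Set.mem_singleton_iff] at hb
    subst hb
    show w (φ'L Z - Z ^ r) < 1
    have hφZ : φ'L Z = Z ^ r * z := by
      refine Subtype.ext ?_
      show ((φ'L Z : L) : Ω) = (Z : Ω) ^ r * zr Ω r
      rw [hφ'L, hZi]
      rw [zProd, map_prod, ← Finset.prod_pow,
        ← Finset.mul_prod_erase _ _ (Finset.mem_insert_of_mem hrT),
        ← Finset.mul_prod_erase _ (fun q => zr Ω q ^ r) (Finset.mem_insert_of_mem hrT),
        hφ' r (Finset.mem_insert_of_mem hrT), if_pos rfl, pow_one, zr_pow_self, one_mul, mul_comm]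
      congr 1
      exact Finset.prod_congr rfl fun q hq => by
        rw [hφ' q (Finset.mem_of_mem_erase hq), if_neg (Finset.ne_of_mem_erase hq)]
    rw [hφZ, ← mul_sub_one, map_mul, map_pow]
    exact (mul_le_of_le_one_left' (pow_le_one' hZ1 r)).trans_lt (by simpa using hzpow 1)
  -- the geometric sum
  set s : L := ∑ i ∈ range (gen r), z ^ i
  have hsg : w (s - (gen r : L)) < 1 := by
    rw [show s - (gen r : L) = ∑ i ∈ range (gen r), (z ^ i - 1) by
      rw [Finset.sum_sub_distrib, Finset.sum_const, Finset.card_range, nsmul_one]]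
    exact w.map_sum_lt one_ne_zero fun i _ => hzpow i
  have hs1 : w s = 1 := congr_val hsg hwg
  have hfd : w ((⟨_, hf⟩ : L) - ⟨_, hd'⟩) < 1 := by
    exact val_dT_congr w c.hp (hL.zr_mem _ (Finset.mem_insert_self _ _)) (prime_of_adm hT'a)
      (fun q hq => hL.zr_mem _ (Finset.mem_insert_of_mem (hT'T hq))) hz1.le
      (by simpa using hzpow 1) hf hd'
  have hγsplit : (γL : L) = (π : L) ^ n * (u : L) := by
    rw [show (u : L) = (γL : L) / (π : L) ^ n by
      simp only [u, Units.val_div_eq_div_val, Units.val_zpow_eq_zpow_val], mul_div_cancel₀]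
    exact zpow_ne_zero _ π.ne_zero
  have hσπ : σL (π : L) = (π : L) * s := by
    show σL (z - 1) = (z - 1) * s
    rw [mul_comm, geom_sum_mul, map_sub, map_one]
    congr 1
    exact Subtype.ext (by rw [hσL]; exact hσr)
  have hfL : σL (γL : L) * φL (δL : L) = (γL : L) * (⟨_, hf⟩ : L) ^ e' * (δL : L) := by
    refine Subtype.ext ?_
    push_cast [hσL, hφL]
    exact hroot
  rw [hγsplit, map_mul, map_zpow₀, hσπ, mul_zpow, mul_assoc, mul_assoc, mul_assoc, mul_assoc,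
    mul_right_inj' (zpow_ne_zero _ π.ne_zero), ← mul_assoc, ← mul_assoc] at hfL
  -- reduce
  have hgn : w ((gen r : L) ^ n) = 1 := by rw [map_zpow₀, hwg, one_zpow]
  have hur : w ((u : L) * (δL : L) ^ r) = 1 := by
    rw [map_mul, map_pow, hu1, hδ1, one_pow, mul_one]
  have hL1 : w (s ^ n * σL (u : L) * φL (δL : L) - (gen r : L) ^ n * ((u : L) * (δL : L) ^ r))
      < 1 := by
    rw [mul_assoc]
    have h1 := hσcongr _ hu1.le
    refine congr_mul (by rw [map_zpow₀, hs1, one_zpow]) hur.le (congr_zpow hwg hsg n)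
      (congr_mul (congr_val h1 hu1).le (by rw [map_pow, hδ1, one_pow]) h1 hφcongr)
  set a : L := ιL (y' : F)
  have hR1 : w ((u : L) * (⟨_, hf⟩ : L) ^ e' * (δL : L) -
      (gen r : L) ^ (j * e') * ((u : L) * (δL : L) ^ r)) < 1 := by
    have h1 : w ((⟨_, hf⟩ : L) ^ e' - ((gen r : L) ^ j * (δL : L) ^ M) ^ e') < 1 := by
      refine congr_pow hf1.le (by rw [map_mul, map_pow, map_pow, hwg, hδ1, one_pow, one_pow,
        one_mul]) (congr_trans hfd ?_) e'
      rw [hd'eq]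
      refine congr_mul hwy.le (by rw [map_pow, hδ1, one_pow]) ?_ (congr_self _)
      have := hlt_iff _ hy'j
      rwa [map_sub, map_pow, map_natCast] at this
    rw [show (gen r : L) ^ (j * e') * ((u : L) * (δL : L) ^ r) =
        (u : L) * (((gen r : L) ^ j * (δL : L) ^ M) ^ e' * (δL : L)) by
      rw [mul_pow, ← pow_mul, ← pow_mul, ← he', mul_assoc _ _ (δL : L), ← pow_succ,
        Nat.sub_add_cancel hr.one_le]
      ring, mul_assoc]
    refine congr_mul hu1.le ?_ (congr_self _) (congr_mul ?_ hδ1.le h1 (congr_self _))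
    · simp only [map_mul, map_pow, hwg, hδ1, one_pow, one_mul, le_refl]
    · rw [map_pow, hf1, one_pow]
  rw [← hfL] at hR1
  have hg : w ((gen r : L) ^ n - (gen r : L) ^ (j * e')) < 1 :=
    congr_mul_cancel hur (congr_trans (congr_symm hL1) hR1)
  -- integers
  obtain ⟨A, B, hAB⟩ : ∃ A B : ℕ, n = (A : ℤ) - B :=
    ⟨n.toNat, (-n).toNat, (Int.toNat_sub_toNat_neg n).symm⟩
  have hg0 : (gen r : L) ≠ 0 := fun h => one_ne_zero (hwg.symm.trans (by rw [h, map_zero]))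
  have hnat : w (((gen r ^ A : ℕ) : L) - ((gen r ^ (j * e' + B) : ℕ) : L)) < 1 := by
    have h := congr_mul (c := (gen r : L) ^ B) (d := (gen r : L) ^ B) hgn.le
      (by rw [map_pow, hwg, one_pow]) hg (congr_self _)
    rw [hAB, zpow_sub₀ hg0, zpow_natCast, zpow_natCast,
      div_mul_cancel₀ _ (pow_ne_zero _ hg0)] at h
    rw [Nat.cast_pow, Nat.cast_pow, pow_add]
    exact h
  have hmod : ((A : ℕ) : ZMod (r - 1)) = ((j * e' + B : ℕ) : ZMod (r - 1)) := by
    rw [ZMod.natCast_eq_natCast_iff]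
    have h := modEq_of_congr hr hwr hnat
    rw [← ZMod.natCast_eq_natCast_iff, Nat.cast_pow, Nat.cast_pow] at h
    haveI : Fact r.Prime := ⟨hr⟩
    rw [← gen_spec hr]
    refine (IsOfFinOrder.pow_eq_pow_iff_modEq ?_).1 h
    rw [← orderOf_pos_iff, gen_spec hr]
    have := hr.two_le
    omega
  have hdvd : ((r - 1 : ℕ) : ℤ) ∣ (A : ℤ) - ((j * e' + B : ℕ) : ℤ) := by
    rw [← ZMod.intCast_zmod_eq_zero_iff_dvd, Int.cast_sub, Int.cast_natCast, Int.cast_natCast,
      hmod, sub_self]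
  rw [he', Nat.cast_mul, Nat.cast_add, Nat.cast_mul] at hdvd
  have he'0 : (e' : ℤ) ≠ 0 := by
    intro h
    have h' : e' = 0 := by exact_mod_cast h
    rw [h', mul_zero] at he'
    have := hr.two_le
    omega
  refine Int.dvd_of_mul_dvd_mul_right he'0 (dvd_neg.1 ?_)
  have heq : -((o + j) * e') = (A : ℤ) - ((j : ℤ) * e' + B) := by
    have h2 : (A : ℤ) - B = -((e' : ℤ) * o) := hAB.symm
    linear_combination -h2
  rw [heq]
  exact hdvd

end base

end FA.Kolyvagin
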