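import Fermat.Agent.Kolyvagin.Kummer
import Fermat.Agent.Kolyvagin.Local
import Fermat.Agent.ExistenceTheorem.HilbertClassField
import Fermat.Agent.Root.SummaryChebotarevNumberField

/-!
# Kolyvagin's application of Chebotarev's theorem

Over a totally real field `F`, for a class `h`, finitely many elements `b i` and a functional `ψ`
killing their relations modulo `M`-th powers, `M = ℓ ^ k`, there are primes `v` of degree one, with
`N v ≡ 1 (mod M)`, in the class of `h` modulo `M`-th powers, at which the discrete logarithms of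
the `b i` are `u ψ i` for a unit `u`.
-/

set_option autoImplicit false
set_option linter.unusedSectionVars false
set_option linter.style.haveILetI false

noncomputable section

open scoped Classical Pointwise nonZeroDivisors
open NumberField IsDedekindDomain FA.ArtinRec Filter Topology
open FA.Ext (primeIdeal)

namespace FA.Kolyvagin

universe u

variable {F : Type u} [Field F] [NumberField F]

/-- **A set of positive density has primes of prime norm.** -/
theorem exists_prime_norm_notMem {S : Set (HeightOneSpectrum (𝓞 F))} {δ : ℝ}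
    (h : S.HasDirichletDensity δ) (hδ : 0 < δ) {bad : Set (HeightOneSpectrum (𝓞 F))}
    (hbad : bad.Finite) : ∃ v ∈ S, v ∉ bad ∧ (Ideal.absNorm v.asIdeal).Prime := by
  by_contra! hno
  obtain ⟨M₁, hM₁⟩ := FA.Chebotarev.exists_univ_bounds (K := F)
  obtain ⟨M₂, hM₂⟩ := FA.Ext.exists_lower_bound F
  set P : Set (HeightOneSpectrum (𝓞 F)) := {v | (Ideal.absNorm v.asIdeal).Prime}
  have hsub : S ⊆ Pᶜ ∪ bad := fun v hv => by
    by_cases hb : v ∈ bad
    · exact Or.inr hb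
    · exact Or.inl (hno v hv hb)
  have hden : Tendsto
      (fun s => (Set.univ : Set (HeightOneSpectrum (𝓞 F))).primeIdealZetaSum s)
      (𝓝[>] 1) atTop := by
    refine tendsto_atTop_mono' _ ?_
      (tendsto_atTop_add_const_right _ (-M₁) FA.Chebotarev.tendsto_log_atTop)
    filter_upwards [FA.Chebotarev.Ioc_one_two_mem] with s hs
    linarith [(abs_le.mp (hM₁ s hs)).1]
  have hbound : ∀ s ∈ Set.Ioc (1 : ℝ) 2,
      S.primeIdealZetaSum s ≤ M₁ + M₂ + bad.ncard := by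
    intro s hs
    obtain ⟨T, hTP, hT⟩ := hM₂ s hs
    have h1 : ∑ v ∈ T, FA.Ext.zN s (primeIdeal v) ≤ P.primeIdealZetaSum s := by
      refine le_trans (le_of_eq ?_) (FA.Chebotarev.primeIdealZetaSum_mono (S := (T : Set _))
        (fun v hv => hTP v hv) hs.1)
      rw [FA.Chebotarev.primeIdealZetaSum_eq_zN]
      exact (Finset.tsum_subtype' T fun v => FA.Ext.zN s (primeIdeal v)).symm
    have h2 : P.primeIdealZetaSum s + (Pᶜ).primeIdealZetaSum s =
        (Set.univ : Set (HeightOneSpectrum (𝓞 F))).primeIdealZetaSum s := by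
      rw [← FA.Chebotarev.primeIdealZetaSum_union disjoint_compl_right hs.1, Set.union_compl_self]
    have h3 : S.primeIdealZetaSum s ≤ (Pᶜ).primeIdealZetaSum s + bad.ncard := by
      refine (FA.Chebotarev.primeIdealZetaSum_mono (show S ⊆ Pᶜ ∪ bad \ Pᶜ by
        rw [Set.union_sdiff_self]; exact hsub) hs.1).trans ?_
      rw [FA.Chebotarev.primeIdealZetaSum_union disjoint_sdiff_self_right hs.1]
      refine add_le_add le_rfl ((Set.primeIdealZetaSum_le_card_of_finite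
        (hbad.subset Set.sdiff_subset) (by linarith [hs.1] : (0 : ℝ) ≤ s)).trans ?_)
      exact_mod_cast Set.ncard_le_ncard Set.sdiff_subset hbad
    linarith [(abs_le.mp (hM₁ s hs)).2]
  have h0 := le_of_tendsto_of_tendsto h (hden.const_div_atTop (M₁ + M₂ + bad.ncard)) (by
    filter_upwards [FA.Chebotarev.Ioc_one_two_mem, hden.eventually_gt_atTop 0] with s hs hpos
    exact div_le_div_of_nonneg_right (hbound s hs) hpos.le)
  linarith

/-- An element prime to a prime of prime norm is congruent to a power of the generator. -/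
theorem exists_congr_gen_pow (v : HeightOneSpectrum (𝓞 F)) {r : ℕ} (hr : r.Prime)
    (hN : Ideal.absNorm v.asIdeal = r) {x : F} (hx : v.valuation F x = 1) :
    ∃ j : ℕ, v.valuation F (x - (gen r : F) ^ j) < 1 := by
  haveI := v.isMaximal
  letI : Field (𝓞 F ⧸ v.asIdeal) := Ideal.Quotient.field _
  haveI : Finite (𝓞 F ⧸ v.asIdeal) := Ideal.finiteQuotientOfFreeOfNeBot _ v.ne_bot
  have hcard : Nat.card (𝓞 F ⧸ v.asIdeal) = r := by
    rw [← hN, Ideal.absNorm_apply, Submodule.cardQuot_apply]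
  have hrv : (r : 𝓞 F) ∈ v.asIdeal := hN ▸ Ideal.absNorm_mem v.asIdeal
  haveI : Fact r.Prime := ⟨hr⟩
  haveI : CharP (𝓞 F ⧸ v.asIdeal) r := (CharP.charP_iff_prime_eq_zero hr).2
    ((map_natCast (Ideal.Quotient.mk v.asIdeal) r).symm.trans
      (Ideal.Quotient.eq_zero_iff_mem.2 hrv))
  have hbij : Function.Bijective (ZMod.castHom dvd_rfl (𝓞 F ⧸ v.asIdeal)) := by
    refine (Nat.bijective_iff_injective_and_card _).2 ⟨ZMod.castHom_injective _, ?_⟩
    rw [hcard, Nat.card_zmod]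
  obtain ⟨n, d, hd, hxd⟩ : ∃ n d : 𝓞 F, d ∉ v.asIdeal ∧ x * (d : F) = (n : F) := by
    obtain ⟨n, d, h | h⟩ := v.exists_primeCompl_mul_eq_or_mul_eq x
    · exact ⟨n, d, d.2, h⟩
    · have hx0 : x ≠ 0 := fun e => one_ne_zero (hx.symm.trans (by rw [e, map_zero]))
      refine ⟨d, n, fun hn => d.2 ((v.valuation_lt_one_iff_mem (K := F) d.1).1 ?_), h⟩
      have h' : v.valuation F (algebraMap (𝓞 F) F d.1) < 1 := by
        rw [← h, map_mul, hx, one_mul]
        exact (v.valuation_lt_one_iff_mem n).2 hn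
      exact h'
  set π := Ideal.Quotient.mk v.asIdeal
  obtain ⟨c, hc⟩ := hbij.2 (π n / π d)
  have hπd : π d ≠ 0 := fun h => hd (Ideal.Quotient.eq_zero_iff_mem.1 h)
  have hd1 : v.valuation F (d : F) = 1 :=
    le_antisymm (v.valuation_le_one d) (not_lt.1 fun h =>
      hd ((v.valuation_lt_one_iff_mem d).1 h))
  have hlt : v.valuation F (x - (c.val : F)) < 1 := by
    have hmem : n - (c.val : 𝓞 F) * d ∈ v.asIdeal := by
      rw [← Ideal.Quotient.eq_zero_iff_mem, map_sub, map_mul, map_natCast,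
        show ((c.val : ℕ) : 𝓞 F ⧸ v.asIdeal) = π n / π d by
          rw [← hc, ZMod.castHom_apply, ZMod.natCast_val],
        div_mul_cancel₀ _ hπd, sub_self]
    have h : v.valuation F (algebraMap (𝓞 F) F (n - (c.val : 𝓞 F) * d)) < 1 :=
      (v.valuation_lt_one_iff_mem (K := F) _).2 hmem
    rw [map_sub, map_mul, map_natCast, show algebraMap (𝓞 F) F n = x * (d : F) from hxd.symm,
      show algebraMap (𝓞 F) F d = (d : F) from rfl, ← sub_mul, map_mul, hd1, mul_one] at h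
    exact h
  have hc0 : ¬ r ∣ c.val := fun hdvd => by
    have hcv : v.valuation F (c.val : F) < 1 :=
      (val_natCast_lt_one_iff v _).2 (Ideal.mem_of_dvd _ (Nat.cast_dvd_cast hdvd) hrv)
    have := (v.valuation F).map_add_lt hlt hcv
    rw [sub_add_cancel, hx] at this
    exact lt_irrefl _ this
  obtain ⟨i, -, hi⟩ := exists_gen_pow_modEq hr hc0
  refine ⟨i, congr_trans hlt ?_⟩
  have : ((c.val : ℕ) : ZMod r) = ((gen r ^ i : ℕ) : ZMod r) :=
    (ZMod.natCast_eq_natCast_iff _ _ _).2 hi.symm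
  have hmem : (c.val : 𝓞 F) - ((gen r ^ i : ℕ) : 𝓞 F) ∈ v.asIdeal := by
    have h := congrArg (ZMod.castHom dvd_rfl (𝓞 F ⧸ v.asIdeal)) this
    rwa [map_natCast, map_natCast, ← map_natCast π, ← map_natCast π, Ideal.Quotient.eq] at h
  have h : v.valuation F (algebraMap (𝓞 F) F ((c.val : 𝓞 F) - ((gen r ^ i : ℕ) : 𝓞 F))) < 1 :=
    (v.valuation_lt_one_iff_mem (K := F) _).2 hmem
  rw [map_sub, map_natCast, map_natCast, Nat.cast_pow] at h
  exact h

/-- A finite Galois extension containing a given one, roots of unity and roots. -/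
theorem exists_big_field (H : Type u) [Field H] [NumberField H] [Algebra F H] (M : ℕ) [NeZero M]
    {ι : Type*} [Fintype ι] (b : ι → Fˣ) :
    ∃ (E : Type u) (_ : Field E) (_ : NumberField E) (_ : Algebra F E) (_ : IsGalois F E)
      (_ : Algebra H E) (_ : IsScalarTower F H E) (ζ : E) (β : ι → E),
      IsPrimitiveRoot ζ M ∧ ∀ i, β i ^ M = algebraMap F E (b i : F) := by
  set A := AlgebraicClosure F
  haveI : NeZero (M : A) := ⟨by exact_mod_cast NeZero.ne M⟩
  let jH : H →ₐ[F] A := IsAlgClosed.lift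
  obtain ⟨ζ, hζ⟩ := HasEnoughRootsOfUnity.exists_primitiveRoot A M
  choose β hβ using fun i => IsAlgClosed.exists_pow_nat_eq (algebraMap F A (b i : F))
    (NeZero.pos M)
  set E₀ : IntermediateField F A :=
    jH.fieldRange ⊔ IntermediateField.adjoin F (insert ζ (Set.range β))
  haveI : FiniteDimensional F jH.fieldRange :=
    Module.Finite.equiv (AlgEquiv.ofInjectiveField jH).toLinearEquiv
  haveI : FiniteDimensional F (IntermediateField.adjoin F (insert ζ (Set.range β))) :=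
    IntermediateField.finiteDimensional_adjoin fun x _ => Algebra.IsIntegral.isIntegral x
  set E := IntermediateField.normalClosure F E₀ A
  have hle : E₀ ≤ E := IntermediateField.le_normalClosure E₀
  haveI : FiniteDimensional F E := normalClosure.is_finiteDimensional F E₀ A
  haveI : Normal F E := normalClosure.normal F E₀ A
  haveI : IsGalois F E := ⟨⟩
  haveI : NumberField E := NumberField.of_module_finite F E
  let jE : H →ₐ[F] E := jH.codRestrict E.toSubalgebra fun x =>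
    hle (le_sup_left (a := jH.fieldRange) ⟨x, rfl⟩)
  letI : Algebra H E := jE.toRingHom.toAlgebra
  haveI : IsScalarTower F H E := IsScalarTower.of_algebraMap_eq fun x => (jE.commutes x).symm
  have hmem : ∀ y ∈ insert ζ (Set.range β), y ∈ E := fun y hy =>
    hle (le_sup_right (a := jH.fieldRange) (IntermediateField.subset_adjoin F _ hy))
  refine ⟨E, inferInstance, inferInstance, inferInstance, inferInstance, inferInstance,
    inferInstance, ⟨ζ, hmem ζ (Set.mem_insert _ _)⟩,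
    fun i => ⟨β i, hmem _ (Set.mem_insert_of_mem _ ⟨i, rfl⟩)⟩,
    IsPrimitiveRoot.coe_submonoidClass_iff.1 hζ, fun i => Subtype.ext (hβ i)⟩

/-- **Kolyvagin's Chebotarev lemma.** -/
theorem exists_prime_class_log [IsTotallyReal F] {ℓ k : ℕ} (hl : ℓ.Prime) (hl2 : ℓ ≠ 2)
    (hk : 0 < k) (w : HeightOneSpectrum (𝓞 F))
    (hcop : ¬ (ℓ : ℤ) ∣ ord w (Units.mk0 (ℓ : F) (Nat.cast_ne_zero.2 hl.ne_zero)))
    (h : ClassGroup (𝓞 F)) {ι : Type*} [Fintype ι] (b : ι → Fˣ) (ψ : ι → ZMod (ℓ ^ k))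
    (hψ : ∀ a : ι → ℕ, (∃ y : F, ∏ i, (b i : F) ^ a i = y ^ ℓ ^ k) →
      ∑ i, (a i : ZMod (ℓ ^ k)) * ψ i = 0)
    {bad : Set (HeightOneSpectrum (𝓞 F))} (hbad : bad.Finite) :
    ∃ v : HeightOneSpectrum (𝓞 F), v ∉ bad ∧ ∃ r : ℕ, r.Prime ∧
      Ideal.absNorm v.asIdeal = r ∧ ℓ ^ k ∣ r - 1 ∧
      (∃ c, ClassGroup.mk0 (primeIdeal v) = h * c ^ ℓ ^ k) ∧
      ∃ u : (ZMod (ℓ ^ k))ˣ, ∀ i, ord v (b i) = 0 ∧
        ∃ j : ℕ, LogAt v r (b i) j ∧ (j : ZMod (ℓ ^ k)) = u * ψ i := by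
  haveI : NeZero (ℓ ^ k) := ⟨pow_ne_zero _ hl.ne_zero⟩
  have hodd : Odd (ℓ ^ k) := (hl.odd_of_ne_two hl2).pow
  obtain ⟨H, _, _, _, _, _, -, -, ⟨e, he⟩, hcl⟩ := exists_hilbertClassField (K := F)
  have hH : ∀ v : HeightOneSpectrum (𝓞 F), ¬ IsRam H v := fun v => hcl.unram v (sup_top_eq _)
  obtain ⟨E, _, _, _, _, _, _, η, β, hη, hβ⟩ := exists_big_field (F := F) H (ℓ ^ k) b
  letI : CommGroup (H ≃ₐ[F] H) :=
    { mul_comm := fun a b => IsMulCommutative.is_comm.comm a b }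
  obtain ⟨σ, hσ, hσβ⟩ := exists_aut_kummer hodd hη b hβ ψ hψ
  obtain ⟨t, g, ht, htβ, hres⟩ := exists_fix_restrict hl hl2 hk hη w hcop hH b hβ
    (e h * (AlgEquiv.restrictNormalHom H σ)⁻¹)
  set C : Set (E ≃ₐ[F] E) := {s | s η = η ∧
    (∃ g : H ≃ₐ[F] H, AlgEquiv.restrictNormalHom H s = e h * g ^ ℓ ^ k) ∧
    ∃ u : (ZMod (ℓ ^ k))ˣ, ∀ i, s (β i) = β i * η ^ ((u : ZMod (ℓ ^ k)) * ψ i).val}
  have hmemC : t * σ ∈ C := by
    refine ⟨by rw [AlgEquiv.mul_apply, hσ, ht], ⟨g, ?_⟩, 1, fun i => ?_⟩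
    · rw [map_mul, hres, mul_right_comm, inv_mul_cancel_right]
    · rw [AlgEquiv.mul_apply, hσβ, map_mul, map_pow, ht, htβ, Units.val_one, one_mul]
  have hconj : ∀ s ∈ C, ∀ x, x * s * x⁻¹ ∈ C := by
    rintro s ⟨hs, ⟨g', hg'⟩, u, hu⟩ x
    have hx' : x⁻¹ η = η ^ (hη.autToPow F x⁻¹ : ZMod (ℓ ^ k)).val := (hη.autToPow_spec F _).symm
    have hsx : x * s * x⁻¹ = x * (s * x⁻¹) := mul_assoc _ _ _
    refine ⟨?_, ⟨g', ?_⟩, hη.autToPow F x * u, fun i => ?_⟩
    · rw [AlgEquiv.mul_apply, hx', map_pow, AlgEquiv.mul_apply, hs, ← map_pow, ← hx']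
      exact x.apply_symm_apply η
    · rw [map_mul, map_mul, map_inv, hg', mul_comm (AlgEquiv.restrictNormalHom H x),
        mul_inv_cancel_right]
    · obtain ⟨d, hd⟩ := exists_zmod_apply_root hη x⁻¹ (b i).ne_zero (hβ i)
      have hback : x (x⁻¹ (β i)) = β i := x.apply_symm_apply _
      rw [hd, map_mul, map_pow] at hback
      have hpow : ∀ a : ZMod (ℓ ^ k), x η ^ a.val =
          η ^ ((hη.autToPow F x : ZMod (ℓ ^ k)) * a).val := fun a => by
        rw [← hη.autToPow_spec F x, ← pow_mul]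
        exact zeta_pow_congr hη (by simp)
      rw [AlgEquiv.mul_apply, AlgEquiv.mul_apply, hd, map_mul, map_pow, hs, hu,
        map_mul, map_mul, map_pow, map_pow, hpow ((u : ZMod (ℓ ^ k)) * ψ i), ← mul_assoc,
        mul_right_comm (x (β i)), hback, Units.val_mul, mul_assoc]
  have hdens := FA.Summary.chebotarev_density_numberField F E C hconj
  have hpos : 0 < (Nat.card C : ℝ) / Nat.card (E ≃ₐ[F] E) := by
    haveI : Nonempty C := ⟨⟨_, hmemC⟩⟩
    exact div_pos (by exact_mod_cast Nat.card_pos) (by exact_mod_cast Nat.card_pos)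
  set bad' : Set (HeightOneSpectrum (𝓞 F)) :=
    bad ∪ (⋃ i, {v | ord v (b i) ≠ 0}) ∪ {v | (ℓ : 𝓞 F) ∈ v.asIdeal}
  have hbad' : bad'.Finite := by
    refine (hbad.union (Set.finite_iUnion fun i => finite_ord_ne_zero (b i))).union ?_
    refine (FA.Chebotarev.finite_dvd (K := F) hl.ne_zero).subset fun v hv => ?_
    exact FA.Chebotarev.absNorm_dvd_of_mem hv
  obtain ⟨v, ⟨Q₀, hQ₀m, hQ₀, τ, ⟨hτη, ⟨g', hg'⟩, u, hu⟩, hτ⟩, hvbad, hr⟩ :=
    exists_prime_norm_notMem hdens hpos hbad'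
  set r := Ideal.absNorm v.asIdeal with hrdef
  simp only [bad', Set.mem_union, Set.mem_iUnion, Set.mem_ofPred_eq, not_or, not_exists,
    not_not] at hvbad
  obtain ⟨⟨hvb, hvord⟩, hvl⟩ := hvbad
  let Q : HeightOneSpectrum (𝓞 E) :=
    ⟨Q₀, hQ₀m.isPrime,
      Ring.ne_bot_of_isMaximal_of_not_isField hQ₀m (RingOfIntegers.not_isField _)⟩
  have hQv : belowP F Q = v := HeightOneSpectrum.ext hQ₀
  set wQ := Q.valuation E
  have hval : ∀ x : F, v.valuation F x < 1 → wQ (algebraMap F E x) < 1 := fun x hx => by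
    haveI : Q.asIdeal.LiesOver v.asIdeal := ⟨hQ₀.symm⟩
    rw [← HeightOneSpectrum.valuation_liesOver E v Q x]
    exact pow_lt_one₀ zero_le hx
      (Ideal.IsDedekindDomain.ramificationIdx'_ne_zero_of_liesOver Q.asIdeal v.ne_bot)
  have hwr : wQ (r : E) < 1 := by
    rw [← map_natCast (algebraMap F E) r]
    exact hval _ ((val_natCast_lt_one_iff v r).2 (Ideal.absNorm_mem v.asIdeal))
  have hlr : ℓ ≠ r := fun h' => hvl (h' ▸ Ideal.absNorm_mem v.asIdeal)
  have hwl : wQ (ℓ : E) = 1 :=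
    val_natCast_eq_one_of_coprime ((Nat.coprime_primes hl hr).2 hlr) hwr
  have hfrob : ∀ x : 𝓞 E, wQ (τ (x : E) - (x : E) ^ r) < 1 := fun x => by
    have h1 : τ • x - x ^ Nat.card (𝓞 F ⧸ Q₀.under (𝓞 F)) ∈ Q₀ := hτ x
    rw [show Nat.card (𝓞 F ⧸ Q₀.under (𝓞 F)) = r by
      rw [hQ₀, hrdef, Ideal.absNorm_apply, Submodule.cardQuot_apply]] at h1
    have h2 : wQ (algebraMap (𝓞 E) E (τ • x - x ^ r)) < 1 :=
      (Q.valuation_lt_one_iff_mem (K := E) _).2 h1
    rw [map_sub (algebraMap (𝓞 E) E), map_pow (algebraMap (𝓞 E) E)] at h2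
    exact h2
  have hint : ∀ {x : E} {y : F} (n : ℕ), 0 < n → x ^ n = algebraMap F E y →
      v.valuation F y = 1 → wQ x = 1 := fun {x y} n hn hxy hy => by
    haveI : Q.asIdeal.LiesOver v.asIdeal := ⟨hQ₀.symm⟩
    refine (pow_eq_one_iff_of_nonneg zero_le hn.ne').1 ?_
    rw [← map_pow, hxy, ← HeightOneSpectrum.valuation_liesOver E v Q y, hy, one_pow]
  have hη1 : wQ η = 1 := val_eq_one_of_pow_eq_one wQ (NeZero.ne (ℓ ^ k)) hη.pow_eq_one
  -- `r ≡ 1 (mod M)`
  have hηinj : ∀ a : ℕ, ¬ ℓ ^ k ∣ a → wQ (η ^ a - 1) = 1 := by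
    intro a ha
    obtain ⟨i, hi, hprim⟩ := (Nat.dvd_prime_pow hl).1
      (orderOf_dvd_of_pow_eq_one (x := η ^ a) (n := ℓ ^ k)
        (by rw [pow_right_comm, hη.pow_eq_one, one_pow]))
    obtain ⟨i', rfl⟩ : ∃ i', i = i' + 1 := Nat.exists_eq_succ_of_ne_zero fun h0 => ha <| by
      rw [h0, pow_zero, orderOf_eq_one_iff] at hprim
      exact hη.dvd_of_pow_eq_one a hprim
    have hp : IsPrimitiveRoot ((η ^ a) ^ ℓ ^ i') ℓ := by
      have h1 : IsPrimitiveRoot (η ^ a) (ℓ ^ (i' + 1)) := hprim ▸ IsPrimitiveRoot.orderOf _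
      exact h1.pow (pow_pos hl.pos _) (pow_succ _ _)
    refine le_antisymm (wQ.map_sub_le (by rw [map_pow, hη1, one_pow]) wQ.map_one.le)
      (not_lt.1 fun hlt => ?_)
    have h1 := congr_pow (w := wQ) (by rw [map_pow, hη1, one_pow]) (b := 1) wQ.map_one.le hlt
      (ℓ ^ i')
    rw [one_pow, Valuation.map_sub_swap] at h1
    exact h1.ne (val_one_sub_eq_one wQ hl hwl hp)
  have hdvd : ℓ ^ k ∣ r - 1 := by
    by_contra hnd
    have h1 := hfrob hη.toInteger
    have h2 : wQ (η - η ^ r) < 1 := by simpa [hτη] using h1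
    obtain ⟨r', hr'⟩ : ∃ r', r = r' + 1 := ⟨r - 1, by have := hr.two_le; omega⟩
    rw [hr', Nat.add_sub_cancel] at hnd
    rw [hr', pow_succ, ← one_sub_mul, map_mul, hη1, mul_one, Valuation.map_sub_swap] at h2
    exact h2.ne (hηinj r' hnd)
  obtain ⟨e', he'⟩ := hdvd
  haveI : Fact r.Prime := ⟨hr⟩
  have he'0 : e' ≠ 0 := fun h0 => by
    rw [h0, mul_zero] at he'
    have := hr.two_le
    omega
  -- `η` as a power of the generator
  haveI := Q.isMaximal
  letI : Field (𝓞 E ⧸ Q.asIdeal) := Ideal.Quotient.field _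
  set π := Ideal.Quotient.mk Q.asIdeal
  haveI : CharP (𝓞 E ⧸ Q.asIdeal) r := (CharP.charP_iff_prime_eq_zero hr).2
    ((map_natCast π r).symm.trans (Ideal.Quotient.eq_zero_iff_mem.2
      ((val_natCast_lt_one_iff Q r).1 hwr)))
  obtain ⟨i, hi⟩ : ∃ i : ℕ, wQ (η - (gen r : E) ^ i) < 1 := by
    have hg : IsPrimitiveRoot (π (gen r : 𝓞 E)) (r - 1) := by
      rw [map_natCast, ← map_natCast (ZMod.castHom dvd_rfl (𝓞 E ⧸ Q.asIdeal))]
      refine IsPrimitiveRoot.map_of_injective ?_ (ZMod.castHom_injective _)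
      rw [← gen_spec hr]
      exact IsPrimitiveRoot.orderOf _
    haveI : NeZero (r - 1) := ⟨by have := hr.two_le; omega⟩
    obtain ⟨i, -, hi⟩ := hg.eq_pow_of_pow_eq_one (ξ := π hη.toInteger) (by
      rw [← map_pow, show (hη.toInteger : 𝓞 E) ^ (r - 1) = 1 from RingOfIntegers.ext (by
        show η ^ (r - 1) = 1
        rw [he', pow_mul, hη.pow_eq_one, one_pow]), map_one])
    refine ⟨i, ?_⟩
    rw [← map_pow, Ideal.Quotient.eq] at hi
    have h : wQ (algebraMap (𝓞 E) E ((gen r : 𝓞 E) ^ i - hη.toInteger)) < 1 :=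
      (Q.valuation_lt_one_iff_mem (K := E) _).2 hi
    rw [map_sub, map_pow, map_natCast] at h
    exact congr_symm h
  have hwg : wQ (gen r : E) = 1 :=
    val_natCast_eq_one_of_coprime ((hr.coprime_iff_not_dvd.2 (not_dvd_gen hr)).symm) hwr
  have hexp : ∀ a b : ℕ, wQ ((gen r : E) ^ a - (gen r : E) ^ b) < 1 →
      a ≡ b [MOD r - 1] := fun a b hab => by
    rw [← Nat.cast_pow, ← Nat.cast_pow] at hab
    have h1 := modEq_of_congr hr hwr hab
    rw [← ZMod.natCast_eq_natCast_iff, Nat.cast_pow, Nat.cast_pow] at h1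
    rw [← gen_spec hr]
    refine (IsOfFinOrder.pow_eq_pow_iff_modEq ?_).1 h1
    rw [← orderOf_pos_iff, gen_spec hr]
    have := hr.two_le
    omega
  obtain ⟨i₀, rfl⟩ : e' ∣ i := by
    have h1 := congr_pow hη1.le (by rw [map_pow, hwg, one_pow]) hi (ℓ ^ k)
    rw [hη.pow_eq_one, ← pow_mul, ← pow_zero (gen r : E)] at h1
    have h2 := (Nat.modEq_zero_iff_dvd).1 (hexp _ _ (congr_symm h1))
    rw [he', mul_comm i] at h2
    exact (Nat.mul_dvd_mul_iff_left (pow_pos hl.pos k)).1 h2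
  have hi₀ : ¬ ℓ ∣ i₀ := fun ⟨c, hc⟩ => by
    obtain ⟨k', rfl⟩ : ∃ k', k = k' + 1 := ⟨k - 1, by omega⟩
    have h1 := congr_pow hη1.le (by rw [map_pow, hwg, one_pow]) hi (ℓ ^ k')
    have hgr : wQ ((gen r : E) ^ (r - 1) - 1) < 1 := by
      have hm := gen_pow_modEq_one hr
      rw [← ZMod.natCast_eq_natCast_iff] at hm
      have h2 : ((gen r ^ (r - 1) : ℕ) : 𝓞 E) - ((1 : ℕ) : 𝓞 E) ∈ Q.asIdeal := by
        rw [← Ideal.Quotient.eq, map_natCast, map_natCast]
        have := congrArg (ZMod.castHom dvd_rfl (𝓞 E ⧸ Q.asIdeal)) hm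
        rwa [map_natCast, map_natCast] at this
      have h3 : wQ (algebraMap (𝓞 E) E (((gen r ^ (r - 1) : ℕ) : 𝓞 E) - ((1 : ℕ) : 𝓞 E))) < 1 :=
        (Q.valuation_lt_one_iff_mem (K := E) _).2 h2
      rwa [map_sub, map_natCast, map_natCast, Nat.cast_one, Nat.cast_pow] at h3
    have h2 := congr_pow (w := wQ) (by rw [map_pow, hwg, one_pow]) (b := 1) wQ.map_one.le hgr c
    rw [one_pow, ← pow_mul] at h2
    rw [← pow_mul, show e' * i₀ * ℓ ^ k' = (r - 1) * c by rw [he', hc, pow_succ]; ring] at h1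
    have h4 : ¬ ℓ ^ (k' + 1) ∣ ℓ ^ k' := fun hd =>
      absurd (Nat.le_of_dvd (pow_pos hl.pos _) hd) (not_le.2 (Nat.pow_lt_pow_succ hl.one_lt))
    exact (congr_trans h1 h2).ne (hηinj _ h4)
  have hu₀ : IsUnit (i₀ : ZMod (ℓ ^ k)) := by
    rw [ZMod.isUnit_iff_coprime]
    exact (Nat.Coprime.pow_left k (hl.coprime_iff_not_dvd.2 hi₀)).symm
  refine ⟨v, hvb, r, hr, rfl, ⟨e', he'⟩, ?_, hu₀.unit * u, fun i => ⟨hvord i, ?_⟩⟩
  · haveI : IsScalarTower (𝓞 F) (𝓞 H) (𝓞 E) := inferInstance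
    have hart := restrict_frob (L := H) (hH v) (Q := Q) hQv (τ := τ) hτ
    rw [hg', ← he] at hart
    refine ⟨e.symm g', e.injective ?_⟩
    rw [← hart, map_mul, map_pow, e.apply_symm_apply]
  have hbi : v.valuation F (b i : F) = 1 := by
    rw [valuation_eq_exp, hvord i, neg_zero, WithZero.exp_zero]
  obtain ⟨j, hj⟩ := exists_congr_gen_pow v hr rfl hbi
  refine ⟨j, by rw [LogAt, hvord i, neg_zero, zpow_zero, mul_one]; exact hj, ?_⟩
  have hβ1 : wQ (β i) = 1 := hint _ (NeZero.pos (ℓ ^ k)) (hβ i) hbi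
  set a := ((u : ZMod (ℓ ^ k)) * ψ i).val
  have hβint : wQ (τ (β i) - β i ^ r) < 1 := by
    obtain ⟨n, d, hd, hnd⟩ : ∃ n d : 𝓞 E, d ∉ Q.asIdeal ∧ β i * (d : E) = (n : E) := by
      obtain ⟨n, d, h' | h'⟩ := Q.exists_primeCompl_mul_eq_or_mul_eq (β i)
      · exact ⟨n, d, d.2, h'⟩
      · refine ⟨d, n, fun hn => d.2 ((Q.valuation_lt_one_iff_mem (K := E) d.1).1 ?_), h'⟩
        have h'' : wQ (algebraMap (𝓞 E) E d.1) < 1 := by
          rw [← h', map_mul, hβ1, one_mul]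
          exact (Q.valuation_lt_one_iff_mem n).2 hn
        exact h''
    have hd1 : wQ (d : E) = 1 := le_antisymm (Q.valuation_le_one d)
      (not_lt.1 fun h' => hd ((Q.valuation_lt_one_iff_mem d).1 h'))
    have hτd : wQ (τ (d : E)) = 1 := congr_val (hfrob d) (by rw [map_pow, hd1, one_pow])
    have h1 := hfrob n
    rw [← hnd, map_mul, mul_pow] at h1
    have hβr : wQ (β i ^ r) ≤ 1 := by rw [map_pow, hβ1, one_pow]
    refine congr_mul_cancel hτd (congr_trans h1 (congr_mul hβr ?_ (congr_self _) (congr_symm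
      (hfrob d))))
    exact hτd.le
  have hη_a : wQ (β i * η ^ a - β i * β i ^ (r - 1)) < 1 := by
    rw [← pow_succ', Nat.sub_add_cancel hr.one_le]
    rw [← hu i]
    exact hβint
  have hje : wQ ((gen r : E) ^ (j * e') - (gen r : E) ^ (e' * i₀ * a)) < 1 := by
    have h1 : wQ (β i ^ (r - 1) - η ^ a) < 1 := congr_symm
      (congr_mul_cancel hβ1 (by rwa [mul_comm (β i) (η ^ a), mul_comm (β i) (β i ^ (r - 1))]
        at hη_a))
    have h2 : wQ ((gen r : E) ^ (j * e') - β i ^ (r - 1)) < 1 := by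
      rw [he', pow_mul, pow_mul, hβ i]
      refine congr_pow (by rw [map_pow, hwg, one_pow]) ?_ ?_ e'
      · exact (hint 1 one_pos (pow_one _) hbi).le
      · have := hval _ (congr_symm hj)
        rwa [map_sub, map_pow, map_natCast] at this
    refine congr_trans h2 (congr_trans h1 ?_)
    rw [pow_mul]
    exact congr_pow hη1.le (by rw [map_pow, hwg, one_pow]) hi a
  have hmod := hexp _ _ hje
  rw [he', show j * e' = e' * j from mul_comm _ _, mul_assoc, mul_comm (ℓ ^ k)] at hmod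
  have hmod' := Nat.ModEq.mul_left_cancel' he'0 hmod
  rw [← ZMod.natCast_eq_natCast_iff, Nat.cast_mul, ZMod.natCast_zmod_val] at hmod'
  rw [hmod', Units.val_mul, IsUnit.unit_spec, mul_assoc]

end FA.Kolyvagin
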