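import Fermat.Agent.Kolyvagin.Actions
import Fermat.Agent.Kolyvagin.Chebotarev
import Fermat.Agent.AmbiguousClass.Divisor

/-!
# Divisors modulo `M` with the group ring

* `phiV`, `phiA`: the actions on `Fˣ / M` and on the classes modulo `m`;
* `ordq`, `dlogq`: the order and the discrete logarithm at a prime as functionals on `Fˣ / M`;
* `sum_ord_cls`: the class relation of a principal divisor modulo `m`;
* `spread_ord_add_spread_dlog`: the relation of `κ_T` and `κ_(T minus r)` in the group ring.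
-/

set_option autoImplicit false
set_option linter.unusedSectionVars false
set_option linter.style.haveILetI false

noncomputable section

open scoped Classical Pointwise
open NumberField IsDedekindDomain FA.ArtinRec FA.AmbClass
open MonoidAlgebra (single)

namespace FA.Kolyvagin

variable {F : Type*} [Field F] [NumberField F] {G : Type*} [CommGroup G] [Fintype G]
  (τ : G →* (F ≃ₐ[ℚ] F))

theorem galCl_comp (g h : F ≃ₐ[ℚ] F) (c : ClassGroup (𝓞 F)) :
    galCl (g * h) c = galCl g (galCl h c) := by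
  obtain ⟨d, rfl⟩ := surjective_cls c
  rw [← cls_galDiv, ← cls_galDiv, ← cls_galDiv]
  congr 1
  refine Multiplicative.toAdd.injective ?_
  show Finsupp.mapDomain _ _ = Finsupp.mapDomain _ (Finsupp.mapDomain _ _)
  rw [← Finsupp.mapDomain_comp]
  exact congrArg (fun φ => Finsupp.mapDomain φ _) (funext fun Q => galPrime_mul g h Q)

theorem galCl_one (c : ClassGroup (𝓞 F)) : galCl (1 : F ≃ₐ[ℚ] F) c = c := by
  obtain ⟨d, rfl⟩ := surjective_cls c
  rw [← cls_galDiv]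
  congr 1
  refine Multiplicative.toAdd.injective ?_
  show Finsupp.mapDomain _ _ = _
  rw [show (galPrime (1 : F ≃ₐ[ℚ] F)) = id from funext galPrime_one, Finsupp.mapDomain_id]

/-- The action on the nonzero elements. -/
def phiV : G →* AddMonoid.End (Additive Fˣ) where
  toFun g := (galU (τ g)).toAdditive
  map_one' := AddMonoidHom.ext fun x => Additive.toMul.injective (Units.ext (by
    show (τ 1) ((Additive.toMul x : Fˣ) : F) = _
    rw [map_one]
    rfl))
  map_mul' g h := AddMonoidHom.ext fun x => Additive.toMul.injective (Units.ext (by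
    show (τ (g * h)) ((Additive.toMul x : Fˣ) : F) = (τ g) ((τ h) _)
    rw [map_mul]
    rfl))

/-- The action on classes. -/
def phiA : G →* AddMonoid.End (Additive (ClassGroup (𝓞 F))) where
  toFun g := (galCl (τ g)).toAdditive
  map_one' := AddMonoidHom.ext fun x => Additive.toMul.injective (by
    show galCl (τ 1) (Additive.toMul x) = _
    rw [map_one, galCl_one]
    rfl)
  map_mul' g h := AddMonoidHom.ext fun x => Additive.toMul.injective (by
    show galCl (τ (g * h)) (Additive.toMul x) = galCl (τ g) (galCl (τ h) _)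
    rw [map_mul, galCl_comp])

/-- `Fˣ` modulo `M`. -/
abbrev Vq (F : Type*) [Field F] (M : ℕ) := Modq (Additive Fˣ) M

/-- The classes modulo `m`. -/
abbrev Aq (F : Type*) [Field F] (m : ℕ) := Modq (Additive (ClassGroup (𝓞 F))) m

/-- The image of an element. -/
def vmk (M : ℕ) (x : Fˣ) : Vq F M := mkq M (Additive.ofMul x)

theorem vmk_surjective (M : ℕ) : Function.Surjective (vmk (F := F) M) := fun z => by
  obtain ⟨y, rfl⟩ := mkq_surjective M z
  exact ⟨Additive.toMul y, rfl⟩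

theorem vmk_eq_zero_iff {M : ℕ} {x : Fˣ} : vmk M x = 0 ↔ ∃ y : Fˣ, y ^ M = x := by
  rw [vmk, mkq_eq_zero_iff]
  exact ⟨fun ⟨y, hy⟩ => ⟨Additive.toMul y, congrArg Additive.toMul hy⟩,
    fun ⟨y, hy⟩ => ⟨Additive.ofMul y, congrArg Additive.ofMul hy⟩⟩

theorem vmk_mul (M : ℕ) (x y : Fˣ) : vmk M (x * y) = vmk M x + vmk M y :=
  map_add (mkq M) (Additive.ofMul x) (Additive.ofMul y)

theorem vmk_pow (M : ℕ) (x : Fˣ) (n : ℕ) : vmk M (x ^ n) = n • vmk M x :=
  map_nsmul (mkq M) n (Additive.ofMul x)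

theorem phiq_vmk (M : ℕ) (g : G) (x : Fˣ) :
    phiq (phiV τ) M g (vmk M x) = vmk M (galU (τ g) x) := rfl

/-- In a real field only `1` is a root of unity of odd order. -/
theorem eq_one_of_odd_pow_eq_one [IsTotallyReal F] {x : F} {n : ℕ} (hn : Odd n) (h : x ^ n = 1) :
    x = 1 := by
  obtain ⟨φ⟩ : Nonempty (F →+* ℂ) := inferInstance
  have hreal : ComplexEmbedding.IsReal φ :=
    InfinitePlace.isReal_mk_iff.1 (IsTotallyReal.isReal _)
  have hnorm : ‖φ x‖ = 1 := Complex.norm_eq_one_of_pow_eq_one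
    (by rw [← map_pow, h, map_one]) (by rintro rfl; simp at hn)
  have hinv : (φ x)⁻¹ = φ x := (Complex.inv_eq_conj hnorm).trans (RingHom.congr_fun hreal x)
  have h2 : x ^ 2 = 1 := φ.injective (by
    have h0 : φ x ≠ 0 := fun e => by rw [e, norm_zero] at hnorm; exact zero_ne_one hnorm
    rw [map_pow, map_one, sq]
    nth_rw 1 [← hinv]
    exact inv_mul_cancel₀ h0)
  obtain ⟨m, rfl⟩ := hn
  rwa [pow_succ, pow_mul, h2, one_pow, one_mul] at h

/-- **The torsion of `Fˣ / M`.** -/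
theorem exists_eq_nsmul_of_nsmul_eq_zero [IsTotallyReal F] {ℓ k i : ℕ} (hl : ℓ.Prime) (hl2 : ℓ ≠ 2)
    (hi : i ≤ k) {z : Vq F (ℓ ^ k)} (hz : ℓ ^ i • z = 0) : ∃ y, z = ℓ ^ (k - i) • y := by
  obtain ⟨x, rfl⟩ := vmk_surjective _ z
  rw [← vmk_pow, vmk_eq_zero_iff] at hz
  obtain ⟨y, hy⟩ := hz
  refine ⟨vmk _ y, ?_⟩
  rw [← vmk_pow]
  have h : (x / y ^ ℓ ^ (k - i)) ^ ℓ ^ i = 1 := by
    rw [div_pow, ← pow_mul, ← pow_add, Nat.sub_add_cancel hi, hy, div_self']
  have h1 : ((x / y ^ ℓ ^ (k - i) : Fˣ) : F) = 1 :=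
    eq_one_of_odd_pow_eq_one ((hl.odd_of_ne_two hl2).pow (n := i)) (by
      rw [← Units.val_pow_eq_pow_val, h, Units.val_one])
  rw [show x = y ^ ℓ ^ (k - i) from eq_of_div_eq_one (Units.ext h1)]

/-- The order at `v` modulo `M`. -/
def ordq (v : HeightOneSpectrum (𝓞 F)) (M : ℕ) : Vq F M →+ ZMod M :=
  QuotientAddGroup.lift _
    { toFun := fun x => ((ord v (Additive.toMul x) : ℤ) : ZMod M)
      map_zero' := by rw [toMul_zero, ord_one, Int.cast_zero]
      map_add' := fun x y => by rw [toMul_add, ord_mul, Int.cast_add] } fun x hx => by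
    obtain ⟨y, rfl⟩ := hx
    rw [AddMonoidHom.mem_ker]
    show ((ord v (Additive.toMul (M • y)) : ℤ) : ZMod M) = 0
    rw [toMul_nsmul, ord_pow, Int.cast_mul, Int.cast_natCast, ZMod.natCast_self, zero_mul]

theorem ordq_vmk (v : HeightOneSpectrum (𝓞 F)) (M : ℕ) (x : Fˣ) :
    ordq v M (vmk M x) = ((ord v x : ℤ) : ZMod M) := rfl

theorem ordq_phiq (v : HeightOneSpectrum (𝓞 F)) (M : ℕ) (g : G) (z : Vq F M) :
    ordq (galPrime (τ g) v) M (phiq (phiV τ) M g z) = ordq v M z := by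
  obtain ⟨x, rfl⟩ := vmk_surjective M z
  rw [phiq_vmk, ordq_vmk, ordq_vmk, ord_galU]

/-- A prime of degree one, unramified, `≡ 1 (mod M)`. -/
structure IsDeg1 (M : ℕ) (v : HeightOneSpectrum (𝓞 F)) (r : ℕ) : Prop where
  prime : r.Prime
  norm : Ideal.absNorm v.asIdeal = r
  dvd : M ∣ r - 1
  ord_r : ∀ h : (r : F) ≠ 0, ord v (Units.mk0 (r : F) h) = 1

theorem exists_logAt {M r : ℕ} {v : HeightOneSpectrum (𝓞 F)} (hv : IsDeg1 M v r) (x : Fˣ) :
    ∃ j, LogAt v r x j := by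
  refine exists_congr_gen_pow v hv.prime hv.norm ?_
  have hr : (r : F) ≠ 0 := Nat.cast_ne_zero.2 hv.prime.ne_zero
  have h : ((x * Units.mk0 (r : F) hr ^ (-ord v x) : Fˣ) : F) = (x : F) * (r : F) ^ (-ord v x) := by
    rw [Units.val_mul, Units.val_zpow_eq_zpow_val, Units.val_mk0]
  rw [← h, valuation_eq_exp, ord_mul, ord_zpow, hv.ord_r hr, mul_one, add_neg_cancel, neg_zero,
    WithZero.exp_zero]

theorem logAt_unique {M r : ℕ} {v : HeightOneSpectrum (𝓞 F)} (hv : IsDeg1 M v r) {x : Fˣ}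
    {i j : ℕ} (hi : LogAt v r x i) (hj : LogAt v r x j) : (i : ZMod M) = j := by
  have hrv : (r : 𝓞 F) ∈ v.asIdeal := hv.norm ▸ Ideal.absNorm_mem v.asIdeal
  have hwr := (val_natCast_lt_one_iff v r).2 hrv
  have h := congr_trans (congr_symm hi) hj
  rw [← Nat.cast_pow, ← Nat.cast_pow] at h
  have h1 := modEq_of_congr hv.prime hwr h
  rw [← ZMod.natCast_eq_natCast_iff, Nat.cast_pow, Nat.cast_pow] at h1
  haveI : Fact r.Prime := ⟨hv.prime⟩
  have h2 : i ≡ j [MOD r - 1] := by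
    rw [← gen_spec hv.prime]
    refine (IsOfFinOrder.pow_eq_pow_iff_modEq ?_).1 h1
    rw [← orderOf_pos_iff, gen_spec hv.prime]
    have := hv.prime.two_le
    omega
  exact (ZMod.natCast_eq_natCast_iff _ _ _).2 (h2.of_dvd hv.dvd)

/-- The discrete logarithm modulo `M`. -/
def dlog (M : ℕ) (v : HeightOneSpectrum (𝓞 F)) (r : ℕ) (x : Fˣ) : ZMod M :=
  if h : ∃ j, LogAt v r x j then (h.choose : ZMod M) else 0

theorem dlog_eq {M r : ℕ} {v : HeightOneSpectrum (𝓞 F)} (hv : IsDeg1 M v r) {x : Fˣ} {j : ℕ}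
    (hj : LogAt v r x j) : dlog M v r x = j := by
  rw [dlog, dif_pos ⟨j, hj⟩]
  exact logAt_unique hv (Exists.choose_spec (p := fun j => LogAt v r x j) ⟨j, hj⟩) hj

theorem dlog_mul {M r : ℕ} {v : HeightOneSpectrum (𝓞 F)} (hv : IsDeg1 M v r) (x y : Fˣ) :
    dlog M v r (x * y) = dlog M v r x + dlog M v r y := by
  obtain ⟨i, hi⟩ := exists_logAt hv x
  obtain ⟨j, hj⟩ := exists_logAt hv y
  have hr : (r : F) ≠ 0 := Nat.cast_ne_zero.2 hv.prime.ne_zero
  have hg : v.valuation F ((gen r : F) ^ j) ≤ 1 := by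
    rw [map_pow]; exact pow_le_one' (val_natCast_le_one _ _) j
  have hx1 : v.valuation F ((x : F) * (r : F) ^ (-ord v x)) ≤ 1 := by
    rw [show (x : F) * (r : F) ^ (-ord v x) =
      ((x : F) * (r : F) ^ (-ord v x) - (gen r : F) ^ i) + (gen r : F) ^ i by ring]
    exact (v.valuation F).map_add_le (le_of_lt hi)
      (by rw [map_pow]; exact pow_le_one' (val_natCast_le_one _ _) i)
  have hij : LogAt v r (x * y) (i + j) := by
    rw [LogAt, ord_mul, neg_add, zpow_add₀ hr, Units.val_mul, pow_add,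
      show (x : F) * (y : F) * ((r : F) ^ (-ord v x) * (r : F) ^ (-ord v y)) =
        ((x : F) * (r : F) ^ (-ord v x)) * ((y : F) * (r : F) ^ (-ord v y)) by ring]
    exact congr_mul hx1 hg hi hj
  rw [dlog_eq hv hij, dlog_eq hv hi, dlog_eq hv hj, Nat.cast_add]

/-- The discrete logarithm as a functional on `Fˣ / M`. -/
def dlogq {M r : ℕ} {v : HeightOneSpectrum (𝓞 F)} (hv : IsDeg1 M v r) : Vq F M →+ ZMod M :=
  QuotientAddGroup.lift _
    (AddMonoidHom.mk' (fun x => dlog M v r (Additive.toMul x))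
      fun x y => by rw [toMul_add, dlog_mul hv]) fun x hx => by
    obtain ⟨y, rfl⟩ := hx
    rw [AddMonoidHom.mem_ker, nsmulAddMonoidHom_apply, map_nsmul, nsmul_eq_mul, ZMod.natCast_self,
      zero_mul]

theorem dlogq_vmk {M r : ℕ} {v : HeightOneSpectrum (𝓞 F)} (hv : IsDeg1 M v r) (x : Fˣ) :
    dlogq hv (vmk M x) = dlog M v r x := rfl

theorem absNorm_galPrime (g : F ≃ₐ[ℚ] F) (v : HeightOneSpectrum (𝓞 F)) :
    Ideal.absNorm (galPrime g v).asIdeal = Ideal.absNorm v.asIdeal := by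
  simp only [Ideal.absNorm_apply, Submodule.cardQuot_apply]
  exact Nat.card_congr (Ideal.quotientEquiv v.asIdeal (galPrime g v).asIdeal
    (MulSemiringAction.toRingEquiv (F ≃ₐ[ℚ] F) (𝓞 F) g) rfl).toEquiv.symm

theorem IsDeg1.gal [IsGalois ℚ F] {M r : ℕ} {v : HeightOneSpectrum (𝓞 F)} (hv : IsDeg1 M v r)
    (g : F ≃ₐ[ℚ] F) : IsDeg1 M (galPrime g v) r := by
  refine ⟨hv.prime, (absNorm_galPrime g v).trans hv.norm, hv.dvd, fun h => ?_⟩
  rw [show Units.mk0 (r : F) h = galU g (Units.mk0 (r : F) h) from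
    Units.ext (map_natCast g r).symm, ord_galU, hv.ord_r]

theorem logAt_gal [IsGalois ℚ F] (g : F ≃ₐ[ℚ] F) {r : ℕ} (v : HeightOneSpectrum (𝓞 F)) (x : Fˣ)
    (j : ℕ) : LogAt (galPrime g v) r (galU g x) j ↔ LogAt v r x j := by
  rw [LogAt, LogAt, ord_galU, galU_val,
    show g (x : F) * (r : F) ^ (-ord v x) - (gen r : F) ^ j =
      g ((x : F) * (r : F) ^ (-ord v x) - (gen r : F) ^ j) by
      rw [map_sub, map_mul, map_zpow₀, map_natCast, map_pow, map_natCast],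
    FA.LocalCFT.valuation_galPrime]

theorem dlogq_gal [IsGalois ℚ F] {M r : ℕ} {v : HeightOneSpectrum (𝓞 F)} (hv : IsDeg1 M v r)
    (g : G) (z : Vq F M) :
    dlogq (hv.gal (τ g)) (phiq (phiV τ) M g z) = dlogq hv z := by
  obtain ⟨x, rfl⟩ := vmk_surjective M z
  obtain ⟨j, hj⟩ := exists_logAt hv x
  rw [phiq_vmk, dlogq_vmk, dlogq_vmk, dlog_eq hv hj,
    dlog_eq (hv.gal (τ g)) ((logAt_gal (τ g) v x j).2 hj)]

/-- **The relation at a prime of `T`** in the group ring. -/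
theorem spread_ord_add_spread_dlog {Ω : Type*} [Field Ω] [CharZero Ω] [IsAlgClosed Ω]
    [Algebra.IsAlgebraic ℚ Ω] [IsGalois ℚ F] {ι : F →+* Ω} {p ℓ k : ℕ} [NeZero (ℓ ^ k)]
    (hι : IsBase p ι) (c : Ctx p ℓ k) {T : Finset ℕ} (hT : ∀ q ∈ T, IsAdm p (ℓ ^ k) q) {r : ℕ}
    (hrT : r ∈ T) {v : HeightOneSpectrum (𝓞 F)} (hv : IsDeg1 (ℓ ^ k) v r) {x y : Fˣ}
    (hx : IsKappa Ω p (ℓ ^ k) T (ι x)) (hy : IsKappa Ω p (ℓ ^ k) (T.erase r) (ι y)) :
    spread (phiV τ) (ordq v (ℓ ^ k)) (vmk (ℓ ^ k) x) =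
      -spread (phiV τ) (dlogq hv) (vmk (ℓ ^ k) y) := by
  refine MonoidAlgebra.ext (Finsupp.ext fun g => ?_)
  rw [MonoidAlgebra.coeff_neg, Finsupp.neg_apply, coeff_spread, coeff_spread]
  have hv' := hv.gal (τ g)
  obtain ⟨j, hj⟩ := exists_logAt hv' y
  have h := IsKappa.dvd_ord_add_log hι c hT hrT (galPrime (τ g) v)
    (hv'.norm ▸ Ideal.absNorm_mem _) hx hy hj
  have h1 : dlogq hv (phiq (phiV τ) _ g⁻¹ (vmk (ℓ ^ k) y)) = (j : ZMod (ℓ ^ k)) := by
    rw [← dlogq_gal τ hv g, show phiq (phiV τ) _ g (phiq (phiV τ) _ g⁻¹ (vmk (ℓ ^ k) y)) =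
        phiq (phiV τ) _ (g * g⁻¹) (vmk (ℓ ^ k) y) by rw [map_mul]; rfl,
      mul_inv_cancel, map_one]
    exact dlog_eq hv' hj
  have h2 : ordq v (ℓ ^ k) (phiq (phiV τ) _ g⁻¹ (vmk (ℓ ^ k) x)) =
      ((ord (galPrime (τ g) v) x : ℤ) : ZMod (ℓ ^ k)) := by
    rw [← ordq_phiq τ v _ g, show phiq (phiV τ) _ g (phiq (phiV τ) _ g⁻¹ (vmk (ℓ ^ k) x)) =
        phiq (phiV τ) _ (g * g⁻¹) (vmk (ℓ ^ k) x) by rw [map_mul]; rfl,
      mul_inv_cancel, map_one]
    rfl
  rw [h1, h2]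
  rw [← ZMod.intCast_zmod_eq_zero_iff_dvd, Int.cast_add, Int.cast_natCast] at h
  exact eq_neg_of_add_eq_zero_left h

/-- **The class relation** of a principal divisor, modulo `m`. -/
theorem sum_ord_cls {m : ℕ} (x : Fˣ) (S : Finset (HeightOneSpectrum (𝓞 F)))
    (h : ∀ v ∉ S, (m : ℤ) ∣ ord v x) :
    ∑ v ∈ S, ord v x • mkq (X := Additive (ClassGroup (𝓞 F))) m (Additive.ofMul (primeCls v)) =
      0 := by
  have h1 : ordHom x ∈ (cls (F := F)).ker := by
    rw [ker_cls]; exact ⟨x, rfl⟩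
  have h2 : (Multiplicative.toAdd (ordHom x)).sum
      (fun v n => n • Additive.ofMul (primeCls v)) = (0 : Additive (ClassGroup (𝓞 F))) :=
    congrArg Additive.ofMul h1
  rw [Finsupp.sum_of_support_subset _ (Finset.subset_union_right (s₁ := S))
    (fun v n => n • Additive.ofMul (primeCls v)) (fun i _ => zero_smul ℤ _)] at h2
  have h3 := congrArg (mkq (X := Additive (ClassGroup (𝓞 F))) m) h2
  rw [map_sum, map_zero] at h3
  rw [← h3]
  refine Finset.sum_subset_zero_on_sdiff Finset.subset_union_left (fun v hv => ?_) fun v _ => ?_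
  · obtain ⟨c, hc⟩ := h v (Finset.mem_sdiff.1 hv).2
    rw [toAdd_ordHom, hc, map_zsmul, mul_comm, mul_zsmul, natCast_zsmul, nsmul_modq_eq_zero,
      zsmul_zero]
  · rw [toAdd_ordHom, map_zsmul]

end FA.Kolyvagin
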