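import Fermat.Agent.Kolyvagin.Base
import Fermat.Agent.Kolyvagin.Divisors

/-!
# Kolyvagin's bound

`card_component_mul_le`: for a primitive idempotent `e` of `(ℤ/ℓ^k)[G]`, `G = Gal(F/ℚ)`, if the
`e`-part of the cyclotomic `p`-unit `h = 2 - ζ_p - ζ_p⁻¹` modulo `ℓ^k` has index at most `ℓ^n`
with `n + k₀ ≤ k`, then the `e`-part of the class group modulo `ℓ^k₀` has at most as many elements
as that index.
-/

set_option autoImplicit false
set_option linter.unusedSectionVars false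
set_option linter.style.haveILetI false

noncomputable section

open scoped Classical Pointwise
open NumberField IsDedekindDomain FA.ArtinRec FA.AmbClass
open MonoidAlgebra (single)

namespace FA.Kolyvagin

variable {F : Type*} [Field F] [NumberField F]

theorem eq_of_natCast_mem {K : Type*} [Field K] [NumberField K] {v : HeightOneSpectrum (𝓞 K)}
    {a b : ℕ} (ha : a.Prime) (hb : b.Prime) (h1 : (a : 𝓞 K) ∈ v.asIdeal)
    (h2 : (b : 𝓞 K) ∈ v.asIdeal) : a = b := by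
  by_contra hne
  exact ((val_natCast_lt_one_iff v a).2 h1).ne
    (val_natCast_eq_one_of_coprime ((Nat.coprime_primes ha hb).2 hne)
      ((val_natCast_lt_one_iff v b).2 h2))

/-- A natural number `n ≠ 1` lies in a prime. -/
theorem exists_natCast_mem {n : ℕ} (hn : n ≠ 1) :
    ∃ w : HeightOneSpectrum (𝓞 F), (n : 𝓞 F) ∈ w.asIdeal := by
  obtain ⟨P, hP, hle⟩ := Ideal.exists_le_maximal (Ideal.span {(n : 𝓞 F)}) (fun htop => by
    have h1 := congrArg Ideal.absNorm htop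
    rw [Ideal.absNorm_span_singleton, Ideal.absNorm_top,
      show (n : 𝓞 F) = algebraMap ℤ (𝓞 F) n by simp, Algebra.norm_algebraMap,
      RingOfIntegers.rank, Int.natAbs_pow, Int.natAbs_natCast] at h1
    exact hn ((pow_eq_one_iff.1 h1).resolve_right Module.finrank_pos.ne'))
  exact ⟨⟨P, hP.isPrime, Ring.ne_bot_of_isMaximal_of_not_isField hP
    (RingOfIntegers.not_isField F)⟩, (Ideal.span_singleton_le_iff_mem _).1 hle⟩

/-- Primes over the same prime number are conjugate. -/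
theorem exists_galPrime_eq [IsGalois ℚ F] {q : ℕ} (hq : q.Prime)
    {v w : HeightOneSpectrum (𝓞 F)} (hv : (q : 𝓞 F) ∈ v.asIdeal) (hw : (q : 𝓞 F) ∈ w.asIdeal) :
    ∃ σ : F ≃ₐ[ℚ] F, galPrime σ v = w := by
  have hprime : Prime (q : 𝓞 ℚ) := by
    refine (MulEquiv.prime_iff Rat.ringOfIntegersEquiv.toMulEquiv).1 ?_
    show Prime (Rat.ringOfIntegersEquiv (q : 𝓞 ℚ))
    rw [map_natCast]
    exact Nat.prime_iff_prime_int.1 hq
  have hspan : ∀ u : HeightOneSpectrum (𝓞 F), (q : 𝓞 F) ∈ u.asIdeal →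
      (belowP ℚ u).asIdeal = Ideal.span {(q : 𝓞 ℚ)} := by
    intro u hu
    haveI : (Ideal.span {(q : 𝓞 ℚ)}).IsPrime :=
      (Ideal.span_singleton_prime hprime.ne_zero).2 hprime
    refine (((inferInstance : (Ideal.span {(q : 𝓞 ℚ)}).IsPrime).isMaximal
      (by simpa using hprime.ne_zero)).eq_of_le (belowP ℚ u).isPrime.ne_top
      ((Ideal.span_singleton_le_iff_mem _).2 ?_)).symm
    show algebraMap (𝓞 ℚ) (𝓞 F) (q : 𝓞 ℚ) ∈ u.asIdeal
    rwa [map_natCast]
  obtain ⟨σ, hσ⟩ := Algebra.IsInvariant.exists_smul_of_under_eq (𝓞 ℚ) (𝓞 F) (F ≃ₐ[ℚ] F)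
    v.asIdeal w.asIdeal ((hspan v hv).trans (hspan w hw).symm)
  exact ⟨σ, HeightOneSpectrum.ext hσ.symm⟩

/-- The stabiliser of an unramified prime of degree one is trivial. -/
theorem eq_one_of_galPrime_eq [IsGalois ℚ F] {M r : ℕ} {v : HeightOneSpectrum (𝓞 F)}
    (hv : IsDeg1 M v r) {σ : F ≃ₐ[ℚ] F} (hσ : galPrime σ v = v) : σ = 1 := by
  have hr0 : (r : F) ≠ 0 := Nat.cast_ne_zero.2 hv.prime.ne_zero
  have he : eIdx ℚ v = 1 := by
    have hr1 : (r : 𝓞 ℚ) ≠ 0 := Nat.cast_ne_zero.2 hv.prime.ne_zero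
    have h1 := ord_baseU (L := F) v (intU (r : 𝓞 ℚ) hr1)
    rw [show baseU (L := F) (intU (r : 𝓞 ℚ) hr1) = Units.mk0 (r : F) hr0 from Units.ext (by
      rw [baseU_val, intU_val, Units.val_mk0]
      simp), hv.ord_r hr0] at h1
    rcases Int.eq_one_or_neg_one_of_mul_eq_one' h1.symm with ⟨h, -⟩ | ⟨h, -⟩
    · exact_mod_cast h
    · omega
  have hI : v.asIdeal.inertia (F ≃ₐ[ℚ] F) = ⊥ :=
    Subgroup.eq_bot_of_card_eq _ (by rw [← eIdx_eq_card_inertia ℚ v, he])
  have hmem : σ ∈ v.asIdeal.inertia (F ≃ₐ[ℚ] F) := by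
    intro x
    show σ • x - x ∈ v.asIdeal
    by_cases hx : x ∈ v.asIdeal
    · refine sub_mem ?_ hx
      have h : σ • x ∈ (galPrime σ v).asIdeal := Ideal.smul_mem_pointwise_smul_iff.2 hx
      rwa [hσ] at h
    have hx1 : v.valuation F (x : F) = 1 := le_antisymm (v.valuation_le_one x)
      (not_lt.1 fun h => hx ((v.valuation_lt_one_iff_mem x).1 h))
    obtain ⟨j, hj⟩ := exists_congr_gen_pow v hv.prime hv.norm hx1
    have h2 : v.valuation F (σ (x : F) - (gen r : F) ^ j) < 1 := by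
      have h := FA.LocalCFT.valuation_galPrime v σ ((x : F) - (gen r : F) ^ j)
      rw [hσ, map_sub, map_pow, map_natCast] at h
      rwa [h]
    exact (v.valuation_lt_one_iff_mem (K := F) _).1 (congr_trans h2 (congr_symm hj))
  rwa [hI, Subgroup.mem_bot] at hmem

section engine

variable [IsGalois ℚ F] [IsTotallyReal F] {G : Type*} [CommGroup G] [Fintype G]
  (τ : G →* (F ≃ₐ[ℚ] F)) {ℓ k : ℕ} [Fact ℓ.Prime]

local notation "R" => MonoidAlgebra (ZMod (ℓ ^ k)) G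

instance : NeZero (ℓ ^ k) := ⟨pow_ne_zero _ (Fact.out : ℓ.Prime).ne_zero⟩

/-- `a ↦ (a e) z`. -/
def orbHom {m : ℕ} {X : Type*} [AddCommGroup X] (φ : G →* AddMonoid.End X) (hm : m ∣ ℓ ^ k) (e : R)
    (z : Modq X m) : R →+ Modq X m :=
  AddMonoidHom.mk' (fun a => act φ hm (a * e) z) fun a b => by rw [add_mul, act_add]

theorem orbHom_apply {m : ℕ} {X : Type*} [AddCommGroup X] (φ : G →* AddMonoid.End X)
    (hm : m ∣ ℓ ^ k) (e : R) (z : Modq X m) (a : R) :
    orbHom φ hm e z a = act φ hm (a * e) z := rfl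

/-- The multiples of `ℓ ^ i` in the component of `e`. -/
def levelHom (e : R) (i : ℕ) : R →+ R := AddMonoidHom.mulLeft (((ℓ ^ i : ℕ) : R) * e)

theorem levelHom_apply (e : R) (i : ℕ) (a : R) :
    levelHom e i a = ((ℓ ^ i : ℕ) : R) * e * a := rfl

variable (hG : ¬ ℓ ∣ Fintype.card G) (hk : 0 < k)
include hG hk

theorem unit_natCast {n : ℕ} (hn : ¬ ℓ ∣ n) : IsUnit (n : R) := by
  have h : IsUnit (n : ZMod (ℓ ^ k)) := (ZMod.isUnit_iff_coprime _ _).2
    ((((Fact.out : ℓ.Prime).coprime_iff_not_dvd.2 hn).pow_left k).symm)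
  simpa using h.map (algebraMap (ZMod (ℓ ^ k)) R)

theorem dvd_of_natCast_mul_eq_zero {e : R} (he : IsPrim e) {n s : ℕ} (hs : s ≤ k)
    (h : ((n : ℕ) : R) * ((ℓ ^ (k - s) : ℕ) : R) * e = 0) : ℓ ^ s ∣ n := by
  rcases eq_or_ne n 0 with rfl | hn
  · exact dvd_zero _
  obtain ⟨a, n', hn', rfl⟩ :=
    Nat.exists_eq_pow_mul_and_not_dvd hn ℓ (Fact.out : ℓ.Prime).ne_one
  by_contra hns
  have has : a < s := not_le.1 fun hle => hns (dvd_mul_of_dvd_left (pow_dvd_pow ℓ hle) _)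
  have h2 : (n' : R) * (((ℓ ^ (a + (k - s)) : ℕ) : R) * e) = 0 := by
    rw [← h, pow_add, Nat.cast_mul, Nat.cast_mul]
    ring
  exact he.pow_mul_ne_zero hG hk (show a + (k - s) < k by omega)
    ((unit_natCast hG hk hn').mul_right_eq_zero.1 h2)

/-- The index of the level `s` is at least `ℓ ^ s`. -/
theorem pow_mul_card_level_le {e : R} (he : IsPrim e) {s : ℕ} (hs : s ≤ k) :
    ℓ ^ s * Nat.card (levelHom e s).range ≤ Nat.card (levelHom e 0).range := by
  let f : Fin (ℓ ^ s) × (levelHom e s).range → (levelHom e 0).range := fun x =>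
    ⟨((x.1 : ℕ) : R) * e + (x.2 : R), by
      obtain ⟨a, ha⟩ := x.2.2
      refine ⟨((x.1 : ℕ) : R) + ((ℓ ^ s : ℕ) : R) * a, ?_⟩
      rw [← ha, levelHom_apply, levelHom_apply, pow_zero, Nat.cast_one]
      ring⟩
  have hkill : ∀ z ∈ (levelHom e s).range, ((ℓ ^ (k - s) : ℕ) : R) * z = 0 := by
    rintro z ⟨a, rfl⟩
    rw [levelHom_apply, ← mul_assoc, ← mul_assoc, ← Nat.cast_mul, ← pow_add,
      Nat.sub_add_cancel hs, pow_k_eq_zero, zero_mul, zero_mul]
  have hinj : Function.Injective f := by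
    rintro ⟨i, z⟩ ⟨j, w⟩ h
    have h' : ((i : ℕ) : R) * e + (z : R) = ((j : ℕ) : R) * e + (w : R) := congrArg Subtype.val h
    have h2 : ((i : ℕ) : R) * ((ℓ ^ (k - s) : ℕ) : R) * e =
        ((j : ℕ) : R) * ((ℓ ^ (k - s) : ℕ) : R) * e := by
      linear_combination ((ℓ ^ (k - s) : ℕ) : R) * h' - hkill _ z.2 + hkill _ w.2
    have hij : (i : ℕ) = j := by
      wlog hle : (j : ℕ) ≤ i generalizing i j z w
      · exact (this j w i z h.symm h'.symm h2.symm (le_of_not_ge hle)).symm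
      have h3 := dvd_of_natCast_mul_eq_zero hG hk he hs (n := (i : ℕ) - j) (by
        rw [Nat.cast_sub hle, sub_mul, sub_mul, h2, sub_self])
      have h4 : (i : ℕ) - j = 0 := Nat.eq_zero_of_dvd_of_lt h3 (lt_of_le_of_lt (Nat.sub_le _ _) i.2)
      omega
    obtain rfl : i = j := Fin.ext hij
    exact Prod.ext rfl (Subtype.ext (add_left_cancel h'))
  have hcard := Nat.card_le_card_of_injective f hinj
  rwa [Nat.card_prod, Nat.card_fin] at hcard

/-- The normal form in a component of `Fˣ / M`. -/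
theorem exists_normal_form (hl2 : ℓ ≠ 2) {e : R} (he : IsPrim e) {z : Vq F (ℓ ^ k)}
    (hz : act (phiV τ) dvd_rfl e z = z) (hz0 : z ≠ 0) :
    ∃ s, s < k ∧ ∃ η, act (phiV τ) dvd_rfl e η = η ∧ z = ℓ ^ s • η ∧
      ∀ a : R, a * e = a → act (phiV τ) dvd_rfl a η = 0 → a = 0 := by
  set P : ℕ → Prop := fun i => ∃ η, act (phiV τ) dvd_rfl e η = η ∧ z = ℓ ^ i • η
  have h0 : P 0 := ⟨z, hz, by rw [pow_zero, one_smul]⟩
  have hk' : ¬ P k := fun ⟨η, _, h⟩ => hz0 (by rw [h, nsmul_modq_eq_zero])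
  obtain ⟨s, hs, hsP, hns⟩ : ∃ s, s < k ∧ P s ∧ ¬ P (s + 1) := by
    by_contra! hcon
    have hall : ∀ j, j ≤ k → P j := by
      intro j
      induction j with
      | zero => exact fun _ => h0
      | succ j ih => exact fun hj => hcon j (by omega) (ih (by omega))
    exact hk' (hall k le_rfl)
  obtain ⟨η, hη, hzη⟩ := hsP
  refine ⟨s, hs, η, hη, hzη, fun a ha haη => ?_⟩
  by_contra ha0
  obtain ⟨i, hi, w, y, hwy, -, rfl⟩ := exists_eq_pow_mul_unit hG hk he ha ha0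
  have h1 : ℓ ^ i • η = 0 := by
    have h := congrArg (act (phiV τ) dvd_rfl y) haη
    rwa [map_zero, ← act_mul, show y * (((ℓ ^ i : ℕ) : R) * w) = ((ℓ ^ i : ℕ) : R) * e by
      rw [← hwy]; ring, act_mul, hη, act_natCast] at h
  obtain ⟨y', hy'⟩ := exists_eq_nsmul_of_nsmul_eq_zero (Fact.out : ℓ.Prime) hl2 hi.le h1
  refine hns ⟨act (phiV τ) dvd_rfl e (ℓ ^ (k - i - 1) • y'), ?_, ?_⟩
  · rw [← act_mul, he.idem]
  · rw [hzη, ← map_nsmul, ← mul_nsmul', ← pow_add,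
      show s + 1 + (k - i - 1) = s + (k - i) by omega, pow_add, mul_nsmul', ← hy', map_nsmul, hη]

theorem orbHom_eq_zero_iff {e : R} (he : IsPrim e) {z : Vq F (ℓ ^ k)} {s : ℕ} {η : Vq F (ℓ ^ k)}
    (hze : act (phiV τ) dvd_rfl e z = ℓ ^ s • η)
    (hann : ∀ a : R, a * e = a → act (phiV τ) dvd_rfl a η = 0 → a = 0) (a : R) :
    orbHom (phiV τ) dvd_rfl e z a = 0 ↔ ((ℓ ^ s : ℕ) : R) * e * a = 0 := by
  rw [orbHom_apply, act_mul, hze,
    ← act_natCast (φ := phiV τ) (hm := dvd_rfl), ← act_mul]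
  constructor
  · intro h
    have hη' : ((ℓ ^ s : ℕ) : R) * e * a * e = ((ℓ ^ s : ℕ) : R) * e * a := by
      linear_combination ((ℓ ^ s : ℕ) : R) * a * he.idem
    refine hann _ hη' ?_
    rw [show ((ℓ ^ s : ℕ) : R) * e * a = e * (a * ((ℓ ^ s : ℕ) : R)) by ring, act_mul, h,
      map_zero]
  · intro h
    have h2 : act (phiV τ) dvd_rfl e (ℓ ^ s • η) = ℓ ^ s • η := by
      rw [← hze, ← act_mul, he.idem]
    rw [act_mul, act_natCast, ← h2, ← act_natCast (φ := phiV τ) (hm := dvd_rfl), ← act_mul,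
      ← act_mul, show a * e * ((ℓ ^ s : ℕ) : R) = ((ℓ ^ s : ℕ) : R) * e * a by ring, h,
      act_zero]

theorem card_range_orbHom {e : R} (he : IsPrim e) {z : Vq F (ℓ ^ k)} {s : ℕ} {η : Vq F (ℓ ^ k)}
    (hze : act (phiV τ) dvd_rfl e z = ℓ ^ s • η)
    (hann : ∀ a : R, a * e = a → act (phiV τ) dvd_rfl a η = 0 → a = 0) :
    Nat.card (orbHom (phiV τ) dvd_rfl e z).range = Nat.card (levelHom e s).range := by
  have hker : (orbHom (phiV τ) dvd_rfl e z).ker = (levelHom e s).ker := by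
    ext a
    rw [AddMonoidHom.mem_ker, AddMonoidHom.mem_ker, orbHom_eq_zero_iff τ hG hk he hze hann,
      levelHom_apply]
  have h1 := AddSubgroup.index_ker (orbHom (phiV τ) dvd_rfl e z)
  have h2 := AddSubgroup.index_ker (levelHom e s)
  rw [hker] at h1
  exact h1.symm.trans h2

variable {Ω : Type*} [Field Ω] [CharZero Ω] [IsAlgClosed Ω] [Algebra.IsAlgebraic ℚ Ω]
  {p : ℕ} {ι : F →+* Ω}

/-- The class of a prime modulo `m`. -/
def aCls (m : ℕ) (v : HeightOneSpectrum (𝓞 F)) : Aq F m := mkq m (Additive.ofMul (primeCls v))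

omit hG hk in
theorem phiq_aCls (m : ℕ) (g : G) (v : HeightOneSpectrum (𝓞 F)) :
    phiq (phiA τ) m g (aCls m v) = aCls m (galPrime (τ g) v) := by
  rw [aCls, phiq_mkq]
  exact congrArg (mkq m) (congrArg Additive.ofMul (galCl_primeCls (τ g) v))

omit hG hk in
/-- The group ring element of the orders acts on a class as the part of the divisor. -/
theorem act_spread_ord {m : ℕ} (hm : m ∣ ℓ ^ k) (v : HeightOneSpectrum (𝓞 F)) (x : Fˣ) :
    act (phiA τ) hm (spread (phiV τ) (ordq v (ℓ ^ k)) (vmk (ℓ ^ k) x)) (aCls m v) =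
      ∑ g : G, ord (galPrime (τ g) v) x • aCls m (galPrime (τ g) v) := by
  show act (phiA τ) hm (∑ g : G, single g _) (aCls m v) = _
  rw [act_sum]
  refine Finset.sum_congr rfl fun g _ => ?_
  rw [act_single, phiq_aCls, ← ordq_phiq τ v _ g,
    show phiq (phiV τ) _ g (phiq (phiV τ) _ g⁻¹ (vmk (ℓ ^ k) x)) =
      phiq (phiV τ) _ (g * g⁻¹) (vmk (ℓ ^ k) x) by rw [map_mul]; rfl,
    mul_inv_cancel, map_one]
  show (((ord (galPrime (τ g) v) x : ℤ) : ZMod (ℓ ^ k))).val • _ = _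
  rw [← natCast_zsmul, ZMod.val_intCast]
  conv_rhs => rw [← Int.emod_add_mul_ediv (ord (galPrime (τ g) v) x) ((ℓ ^ k : ℕ) : ℤ)]
  rw [add_zsmul, mul_comm ((ℓ ^ k : ℕ) : ℤ), mul_zsmul, natCast_zsmul,
    nsmul_modq_eq_zero_of_dvd hm, zsmul_zero, add_zero]

/-- The subgroup generated by the classes of the primes `vs r`, `r ∈ T`, in the component. -/
def spanCls {m : ℕ} (hm : m ∣ ℓ ^ k) (e : R) (T : Finset ℕ) (vs : ℕ → HeightOneSpectrum (𝓞 F)) :
    AddSubgroup (Aq F m) :=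
  ⨆ r ∈ T, (orbHom (phiA τ) hm e (aCls m (vs r))).range

omit hG hk in
theorem mem_spanCls {m : ℕ} (hm : m ∣ ℓ ^ k) (e : R) {T : Finset ℕ}
    (vs : ℕ → HeightOneSpectrum (𝓞 F)) {r : ℕ} (hr : r ∈ T) (a : R) :
    act (phiA τ) hm (a * e) (aCls m (vs r)) ∈ spanCls τ hm e T vs :=
  le_iSup₂ (f := fun r (_ : r ∈ T) => (orbHom (phiA τ) hm e (aCls m (vs r))).range) r hr ⟨a, rfl⟩

omit hG hk in
theorem act_mem_spanCls {m : ℕ} (hm : m ∣ ℓ ^ k) (e : R) (T : Finset ℕ)
    (vs : ℕ → HeightOneSpectrum (𝓞 F)) (b : R) {x : Aq F m} (hx : x ∈ spanCls τ hm e T vs) :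
    act (phiA τ) hm b x ∈ spanCls τ hm e T vs := by
  have hle : spanCls τ hm e T vs ≤
      (spanCls τ hm e T vs).comap (act (phiA τ) hm b : Aq F m →+ Aq F m) := by
    refine iSup₂_le fun r hr => ?_
    rintro _ ⟨a, rfl⟩
    show act (phiA τ) hm b (act (phiA τ) hm (a * e) _) ∈ spanCls τ hm e T vs
    rw [← act_mul, ← mul_assoc]
    exact mem_spanCls τ hm e vs hr _
  exact hle hx

/-- The state of the induction. -/
def IsStep (p : ℕ) (ι : F →+* Ω) {m : ℕ} (hm : m ∣ ℓ ^ k) (e : R) (s₀ : ℕ) (cs : List (Aq F m)) :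
    Prop :=
  ∃ T : Finset ℕ, (∀ q ∈ T, IsAdm p (ℓ ^ k) q) ∧ ∃ vs : ℕ → HeightOneSpectrum (𝓞 F),
    (∀ r ∈ T, IsDeg1 (ℓ ^ k) (vs r) r) ∧ ∃ x : Fˣ, IsKappa Ω p (ℓ ^ k) T (ι x) ∧
      ∃ (s : ℕ) (η : Vq F (ℓ ^ k)), s ≤ s₀ ∧ act (phiV τ) dvd_rfl e η = η ∧
        act (phiV τ) dvd_rfl e (vmk (ℓ ^ k) x) = ℓ ^ s • η ∧
        (∀ a : R, a * e = a → act (phiV τ) dvd_rfl a η = 0 → a = 0) ∧
        (∀ c ∈ cs, c ∈ spanCls τ hm e T vs) ∧
        Nat.card (spanCls τ hm e T vs) * Nat.card (levelHom e s₀).range ≤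
          Nat.card (levelHom e s).range

/-- **One step of Kolyvagin's descent.** -/
theorem isStep_cons (hτ : Function.Bijective τ) (hι : IsBase p ι) (c : Ctx p ℓ k) (hp2 : p ≠ 2)
    {m : ℕ} (hm : m ∣ ℓ ^ k) {e : R} (he : IsPrim e) {s₀ : ℕ} (hms : m ∣ ℓ ^ (k - s₀))
    (hs₀k : s₀ < k) {cs : List (Aq F m)} {cl : Aq F m} (hcl : act (phiA τ) hm e cl = cl)
    (h : IsStep τ p ι hm e s₀ cs) : IsStep τ p ι hm e s₀ (cl :: cs) := by
  obtain ⟨T, hT, vs, hvs, x, hx, s, η, hs, hη, hxη, hann, hcs, hcard⟩ := h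
  have hdeg := finrank_mul_two hι c.hp hp2
  have hcardG : Module.finrank ℚ F = Fintype.card G := by
    rw [← IsGalois.card_aut_eq_finrank, ← Nat.card_congr (Equiv.ofBijective τ hτ),
      Nat.card_eq_fintype_card]
  obtain ⟨w, hw⟩ : ∃ w : HeightOneSpectrum (𝓞 F),
      ¬ (ℓ : ℤ) ∣ ord w (Units.mk0 (ℓ : F) (Nat.cast_ne_zero.2 c.hl.ne_zero)) := by
    by_contra! hall
    refine hG (hcardG ▸ ?_)
    have hl0 : (ℓ : 𝓞 F) ≠ 0 := Nat.cast_ne_zero.2 c.hl.ne_zero
    obtain ⟨w, hw⟩ := exists_natCast_mem (F := F) c.hl.ne_one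
    have hpos : 0 < ord w (intU (ℓ : 𝓞 F) hl0) := by
      have := (le_ord_intU_iff w hl0 1).2 (by rw [pow_one]; exact hw)
      omega
    have heq : eIdx ℚ w ∣ Module.finrank ℚ F := by
      rw [eIdx_eq_card_inertia ℚ w, ← IsGalois.card_aut_eq_finrank]
      exact Subgroup.card_subgroup_dvd_card _
    have hl1 : (ℓ : 𝓞 ℚ) ≠ 0 := Nat.cast_ne_zero.2 c.hl.ne_zero
    have h1 := ord_baseU (L := F) w (intU (ℓ : 𝓞 ℚ) hl1)
    have h2 := hall w
    rw [show Units.mk0 (ℓ : F) (Nat.cast_ne_zero.2 c.hl.ne_zero) =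
      baseU (L := F) (intU (ℓ : 𝓞 ℚ) hl1) from Units.ext (by
        rw [baseU_val, intU_val, Units.val_mk0]; simp), h1] at h2
    -- the order of `ℓ` in `𝓞 ℚ` is `1`
    have hprime : Prime (ℓ : 𝓞 ℚ) := by
      refine (MulEquiv.prime_iff Rat.ringOfIntegersEquiv.toMulEquiv).1 ?_
      show Prime (Rat.ringOfIntegersEquiv (ℓ : 𝓞 ℚ))
      rw [map_natCast]
      exact Nat.prime_iff_prime_int.1 c.hl
    have hspan : (belowP ℚ w).asIdeal = Ideal.span {(ℓ : 𝓞 ℚ)} := by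
      haveI : (Ideal.span {(ℓ : 𝓞 ℚ)}).IsPrime :=
        (Ideal.span_singleton_prime hprime.ne_zero).2 hprime
      refine (((inferInstance : (Ideal.span {(ℓ : 𝓞 ℚ)}).IsPrime).isMaximal
        (by simpa using hprime.ne_zero)).eq_of_le (belowP ℚ w).isPrime.ne_top
        ((Ideal.span_singleton_le_iff_mem _).2 ?_)).symm
      show algebraMap (𝓞 ℚ) (𝓞 F) (ℓ : 𝓞 ℚ) ∈ w.asIdeal
      rwa [map_natCast]
    rw [ord_intU, ← hspan, multiplicity_self, Nat.cast_one, mul_one] at h2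
    exact (Int.natCast_dvd_natCast.1 h2).trans heq
  -- Chebotarev
  obtain ⟨y, hy⟩ := vmk_surjective (ℓ ^ k) η
  obtain ⟨cl', hcl'⟩ := mkq_surjective m cl
  set b : G → Fˣ := fun g => galU (τ g⁻¹) y
  set ψ : G → ZMod (ℓ ^ k) := fun g => e.coeff g
  have hb : ∀ g, vmk (ℓ ^ k) (b g) = act (phiV τ) dvd_rfl (single g⁻¹ (1 : ZMod (ℓ ^ k)) : R) η :=
    fun g => by rw [act_of, ← hy]; rfl
  have hψ : ∀ a : G → ℕ, (∃ z : F, ∏ g, (b g : F) ^ a g = z ^ ℓ ^ k) →
      ∑ g, (a g : ZMod (ℓ ^ k)) * ψ g = 0 := by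
    intro a ⟨z, hz⟩
    set α : R := ∑ g, single g⁻¹ (a g : ZMod (ℓ ^ k))
    have hz0 : z ≠ 0 := fun h0 => by
      rw [h0, zero_pow (pow_ne_zero _ c.hl.ne_zero)] at hz
      exact Finset.prod_ne_zero_iff.2 (fun g _ => pow_ne_zero _ (Units.ne_zero (b g))) hz
    have h1 : vmk (ℓ ^ k) (∏ g, b g ^ a g) = act (phiV τ) dvd_rfl α η := by
      rw [act_sum]
      show mkq _ (Additive.ofMul (∏ g, b g ^ a g)) = _
      rw [ofMul_prod, map_sum]
      refine Finset.sum_congr rfl fun g _ => ?_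
      show vmk (ℓ ^ k) (b g ^ a g) = _
      rw [vmk_pow, hb, ← act_natCast (φ := phiV τ) (hm := dvd_rfl), ← act_mul]
      congr 2
      rw [← nsmul_eq_mul]
      refine MonoidAlgebra.ext (Finsupp.ext fun g' => ?_)
      rw [MonoidAlgebra.coeff_smul_apply, MonoidAlgebra.coeff_single, MonoidAlgebra.coeff_single,
        Finsupp.single_apply, Finsupp.single_apply, nsmul_eq_mul]
      split_ifs <;> simp
    have h2 : vmk (ℓ ^ k) (∏ g, b g ^ a g) = 0 :=
      vmk_eq_zero_iff.2 ⟨Units.mk0 z hz0, Units.ext (by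
        rw [Units.val_pow_eq_pow_val, Units.val_mk0, ← hz, Units.coe_prod]
        simp only [Units.val_pow_eq_pow_val])⟩
    have h3 : α * e = 0 := hann _ (by rw [mul_assoc, he.idem]) (by rw [act_mul, hη, ← h1, h2])
    have h4 := congrArg (fun t : R => t.coeff 1) h3
    simp only [α, Finset.sum_mul, MonoidAlgebra.coeff_sum, Finsupp.finsetSum_apply,
      MonoidAlgebra.coeff_zero, Finsupp.coe_zero, Pi.zero_apply] at h4
    rw [← h4]
    refine Finset.sum_congr rfl fun g _ => ?_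
    rw [MonoidAlgebra.coeff_single_mul_eq_mul_coeff g fun m' _ => by
      rw [inv_mul_eq_one, eq_comm]]
  set N₀ := p * ℓ * ∏ q ∈ T, q
  have hN₀ : N₀ ≠ 0 := mul_ne_zero (mul_ne_zero c.hp.ne_zero c.hl.ne_zero)
    (Finset.prod_ne_zero_iff.2 fun q hq => (hT q hq).prime.ne_zero)
  have hbadfin : {v : HeightOneSpectrum (𝓞 F) | (N₀ : 𝓞 F) ∈ v.asIdeal}.Finite :=
    (FA.Chebotarev.finite_dvd (K := F) hN₀).subset fun v hv =>
      FA.Chebotarev.absNorm_dvd_of_mem hv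
  obtain ⟨v, hvbad, r, hr, hN, hMr, ⟨c', hc'⟩, u, hu⟩ :=
    exists_prime_class_log c.hl c.hl2 hk w hw (Additive.toMul cl') b ψ hψ hbadfin
  have hrv : (r : 𝓞 F) ∈ v.asIdeal := hN ▸ Ideal.absNorm_mem v.asIdeal
  have hrN : ¬ r ∣ N₀ := fun hd => hvbad (Ideal.mem_of_dvd _ (Nat.cast_dvd_cast hd) hrv)
  have hrp : r ≠ p := fun h' => hrN (h' ▸ dvd_mul_of_dvd_left (dvd_mul_right p ℓ) _)
  have hrT : r ∉ T := fun h' => hrN (dvd_mul_of_dvd_right (Finset.dvd_prod_of_mem id h') _)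
  have hadm : IsAdm p (ℓ ^ k) r :=
    ⟨hr, hMr, sign_of_absNorm_prime hι c.hp hp2 hr hrp v hN⟩
  have hv : IsDeg1 (ℓ ^ k) v r :=
    ⟨hr, hN, hMr, fun h0 => ord_natCast_eq_one hι c.hp hr hrp v hrv⟩
  set T' := insert r T with hT'
  have hT'a : ∀ q ∈ T', IsAdm p (ℓ ^ k) q := fun q hq =>
    (Finset.mem_insert.1 hq).elim (fun h' => h' ▸ hadm) (hT q)
  set vs' : ℕ → HeightOneSpectrum (𝓞 F) := Function.update vs r v
  have hvs' : ∀ q ∈ T', IsDeg1 (ℓ ^ k) (vs' q) q := fun q hq => by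
    rcases Finset.mem_insert.1 hq with rfl | hq
    · simpa [vs'] using hv
    · have hne : q ≠ r := fun h' => hrT (h' ▸ hq)
      simpa [vs', hne] using hvs q hq
  obtain ⟨x', hx'⟩ := exists_isKappa_base hι c hT'a
  -- the logarithms of `η`
  have hΦ : spread (phiV τ) (dlogq hv) η = ((u : ZMod (ℓ ^ k)).val : R) * e := by
    refine MonoidAlgebra.ext (Finsupp.ext fun g => ?_)
    obtain ⟨-, j, hj, hju⟩ := hu g
    rw [coeff_spread, coeff_natCast_mul, ZMod.natCast_zmod_val, ← hy, phiq_vmk, dlogq_vmk,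
      show galU (τ g⁻¹) y = b g from rfl, dlog_eq hv hj, hju]
  set D : Vq F (ℓ ^ k) →+ R := spread (phiV τ) (ordq v (ℓ ^ k))
  have hD : D (vmk (ℓ ^ k) x') = -spread (phiV τ) (dlogq hv) (vmk (ℓ ^ k) x) :=
    spread_ord_add_spread_dlog τ hι c hT'a (Finset.mem_insert_self _ _) hv hx'
      (by rw [hT', Finset.erase_insert hrT]; exact hx)
  set un : R := ((u : ZMod (ℓ ^ k)).val : R)
  have hun : IsUnit un := unit_natCast hG hk fun hd => by
    have h1 : ((u : ZMod (ℓ ^ k)).val).Coprime (ℓ ^ k) := (ZMod.isUnit_iff_coprime _ _).1 (by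
      rw [ZMod.natCast_zmod_val]; exact u.isUnit)
    exact c.hl.ne_one (Nat.eq_one_of_dvd_coprimes h1 hd (dvd_pow_self ℓ hk.ne'))
  set z' := act (phiV τ) dvd_rfl e (vmk (ℓ ^ k) x')
  have hDz' : D z' = -(((ℓ ^ s : ℕ) : R) * (un * e)) := by
    rw [show D z' = e * D (vmk (ℓ ^ k) x') from spread_act _ _ _, hD, mul_neg,
      ← spread_act (φ := phiV τ), hxη, map_nsmul, hΦ, nsmul_eq_mul]
  have hsk : s < k := lt_of_le_of_lt hs hs₀k
  have hz'0 : z' ≠ 0 := fun h0 => by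
    rw [h0, map_zero, eq_comm, neg_eq_zero, mul_left_comm] at hDz'
    exact he.pow_mul_ne_zero hG hk hsk (hun.mul_right_eq_zero.1 hDz')
  obtain ⟨s', hs'k, η', hη', hz'η', hann'⟩ := exists_normal_form τ hG hk c.hl2 he
    (show act (phiV τ) dvd_rfl e z' = z' by rw [← act_mul, he.idem]) hz'0
  have hDη' : ((ℓ ^ s' : ℕ) : R) * D η' = -(((ℓ ^ s : ℕ) : R) * (un * e)) := by
    rw [← hDz', hz'η', map_nsmul, nsmul_eq_mul]
  have hs's : s' ≤ s := by
    by_contra hlt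
    have h1 := congrArg (fun t : R => ((ℓ ^ (k - s') : ℕ) : R) * t) hDη'
    simp only [← mul_assoc, ← Nat.cast_mul, ← pow_add, mul_neg,
      Nat.sub_add_cancel hs'k.le, pow_k_eq_zero, zero_mul] at h1
    rw [eq_comm, neg_eq_zero, mul_comm _ un, mul_assoc] at h1
    exact he.pow_mul_ne_zero hG hk (show k - s' + s < k by omega) (hun.mul_right_eq_zero.1 h1)
  set δ : R := D η' + ((ℓ ^ (s - s') : ℕ) : R) * (un * e)
  obtain ⟨δ', hδ'⟩ := exists_eq_of_pow_mul_eq_zero (x := δ) hs'k.le (by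
    rw [mul_add, hDη', ← mul_assoc _ _ (un * e), ← Nat.cast_mul, ← pow_add,
      Nat.add_sub_cancel' hs's, neg_add_cancel])
  have hm' : m ∣ ℓ ^ (k - s') := hms.trans (pow_dvd_pow ℓ (by omega))
  -- the relation
  obtain ⟨h₀, P, -, -, hP, hPuniq⟩ := exists_prime_over_p hι c.hp hp2
  obtain ⟨y', hy'⟩ := vmk_surjective (ℓ ^ k) η'
  set conj : Finset (HeightOneSpectrum (𝓞 F)) :=
    (T' ×ˢ (Finset.univ : Finset G)).image fun a => galPrime (τ a.2) (vs' a.1)
  have hsupp : ∀ w' ∉ insert P conj, (m : ℤ) ∣ ord w' y' := by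
    intro w' hw'
    rw [Finset.mem_insert, not_or] at hw'
    have hgood : ∀ q ∈ insert p T', (q : 𝓞 F) ∉ w'.asIdeal := by
      intro q hq hmem
      rcases Finset.mem_insert.1 hq with rfl | hq
      · exact hw'.1 (hPuniq w' hmem)
      · obtain ⟨σ, hσ⟩ := exists_galPrime_eq (hT'a q hq).prime
          (show (q : 𝓞 F) ∈ (vs' q).asIdeal by
            have h := Ideal.absNorm_mem (vs' q).asIdeal
            rwa [(hvs' q hq).norm] at h) hmem
        obtain ⟨g, rfl⟩ := hτ.2 σ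
        exact hw'.2 (Finset.mem_image.2 ⟨(q, g), Finset.mem_product.2 ⟨hq, Finset.mem_univ g⟩, hσ⟩)
    have hzero : ∀ g : G, ordq w' (ℓ ^ k) (phiq (phiV τ) _ g (vmk (ℓ ^ k) x')) = 0 := fun g => by
      rw [← galPrime_one (K := ℚ) w', show (1 : F ≃ₐ[ℚ] F) = τ g * τ g⁻¹ by
        rw [← map_mul, mul_inv_cancel, map_one], galPrime_mul, ordq_phiq, ordq_vmk,
        ZMod.intCast_zmod_eq_zero_iff_dvd]
      refine IsKappa.dvd_ord hι c hT'a hx' _ fun q hq hmem => hgood q hq ?_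
      have h1 := (Ideal.smul_mem_pointwise_smul_iff (a := τ g)).2 hmem
      have h2 : τ g • (q : 𝓞 F) = q :=
        map_natCast (MulSemiringAction.toRingHom (F ≃ₐ[ℚ] F) (𝓞 F) (τ g)) q
      have h3 : galPrime (τ g) (galPrime (τ g⁻¹) w') = w' := by
        rw [← galPrime_mul, ← map_mul, mul_inv_cancel, map_one, galPrime_one]
      rw [h2] at h1
      rwa [show τ g • (galPrime (τ g⁻¹) w').asIdeal = w'.asIdeal from
        congrArg HeightOneSpectrum.asIdeal h3] at h1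
    have hz'w : ordq w' (ℓ ^ k) z' = 0 := by
      show ordq w' (ℓ ^ k) (act (phiV τ) dvd_rfl e (vmk (ℓ ^ k) x')) = 0
      rw [← e.sum_coeff_single, Finsupp.sum, act_sum, map_sum]
      refine Finset.sum_eq_zero fun g _ => ?_
      rw [act_single, map_nsmul, hzero, smul_zero]
    rw [hz'η', map_nsmul, nsmul_eq_mul, ← hy', ordq_vmk] at hz'w
    obtain ⟨d, hd⟩ := zmod_exists_eq_mul_of_pow_mul_eq_zero hs'k.le hz'w
    have h1 : ((ord w' y' : ℤ) : ZMod m) = 0 := by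
      have h2 := congrArg (ZMod.castHom hm (ZMod m)) hd
      rwa [map_intCast, map_mul, map_natCast,
        (ZMod.natCast_eq_zero_iff (ℓ ^ (k - s')) m).2 hm', zero_mul] at h2
    exact (ZMod.intCast_zmod_eq_zero_iff_dvd _ _).1 h1
  have hPconj : P ∉ conj := fun hmem => by
    obtain ⟨⟨q, g⟩, hqg, hP'⟩ := Finset.mem_image.1 hmem
    have hq := (Finset.mem_product.1 hqg).1
    have hp' : (p : 𝓞 F) ∈ P.asIdeal := by
      obtain ⟨Pp, hPp⟩ := exists_natCast_mem (F := F) c.hp.ne_one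
      rw [← hPuniq Pp hPp]
      exact hPp
    have hqP : (q : 𝓞 F) ∈ P.asIdeal := by
      have h := Ideal.absNorm_mem (galPrime (τ g) (vs' q)).asIdeal
      rwa [((hvs' q hq).gal (τ g)).norm, show galPrime (τ g) (vs' q) = P from hP'] at h
    exact (hT'a q hq).ne_p c.hp (eq_of_natCast_mem (hT'a q hq).prime c.hp hqP hp')
  have hPzero : aCls m P = 0 := by
    have h1 : primeCls P = 1 := by
      rw [primeCls, ClassGroup.mk0_eq_one_iff]
      exact ⟨⟨h₀, hP⟩⟩
    rw [aCls, h1]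
    exact map_zero (mkq m)
  have hrel : ∑ q ∈ T', act (phiA τ) hm
      (spread (phiV τ) (ordq (vs' q) (ℓ ^ k)) η') (aCls m (vs' q)) = 0 := by
    have hinj : Set.InjOn (fun a : ℕ × G => galPrime (τ a.2) (vs' a.1))
        ↑(T' ×ˢ (Finset.univ : Finset G)) := by
      rintro ⟨q, g⟩ hq ⟨q', g'⟩ hq' heq
      have hq1 := hvs' q (Finset.mem_product.1 hq).1
      have hq2 := hvs' q' (Finset.mem_product.1 hq').1
      have heq' : galPrime (τ g) (vs' q) = galPrime (τ g') (vs' q') := heq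
      obtain rfl : q = q' := by
        rw [← (hq1.gal (τ g)).norm, ← (hq2.gal (τ g')).norm, heq']
      have h1 : galPrime (τ (g'⁻¹ * g)) (vs' q) = vs' q := by
        rw [map_mul, galPrime_mul, heq', ← galPrime_mul, ← map_mul, inv_mul_cancel, map_one,
          galPrime_one]
      have h2 : g'⁻¹ * g = 1 := hτ.1 (by rw [eq_one_of_galPrime_eq hq1 h1, map_one])
      rw [inv_mul_eq_one.1 h2]
    have h1 := sum_ord_cls (m := m) y' (insert P conj) hsupp
    rw [Finset.sum_insert hPconj] at h1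
    have h2 : mkq m (Additive.ofMul (primeCls P)) = (0 : Aq F m) := hPzero
    rw [h2, zsmul_zero, zero_add, Finset.sum_image hinj, Finset.sum_product] at h1
    rw [← h1]
    refine Finset.sum_congr rfl fun q _ => ?_
    rw [← hy', act_spread_ord τ hm (vs' q) y']
    rfl
  set B := spanCls τ hm e T vs
  have hDe : ∀ q, spread (phiV τ) (ordq (vs' q) (ℓ ^ k)) η' =
      spread (phiV τ) (ordq (vs' q) (ℓ ^ k)) η' * e := fun q => by
    conv_lhs => rw [← hη', spread_act, mul_comm]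
  have hvs'r : vs' r = v := Function.update_self r v vs
  have hvs'T : ∀ q ∈ T, vs' q = vs q := fun q hq =>
    Function.update_of_ne (fun h' : q = r => hrT (h' ▸ hq)) _ _
  have hDv : act (phiA τ) hm (D η') (aCls m v) ∈ B := by
    rw [hT', Finset.sum_insert hrT, hvs'r, add_eq_zero_iff_eq_neg] at hrel
    rw [hrel]
    refine neg_mem (sum_mem fun q hq => ?_)
    rw [hDe, hvs'T q hq]
    exact mem_spanCls τ hm e vs hq _
  have hclv : act (phiA τ) hm e (aCls m v) = cl := by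
    have h1 : aCls m v = mkq m cl' := by
      show mkq m (Additive.ofMul (primeCls v)) = _
      rw [show primeCls v = Additive.toMul cl' * c' ^ ℓ ^ k from hc', ofMul_mul, ofMul_pow,
        map_add, map_nsmul, nsmul_modq_eq_zero_of_dvd hm, add_zero, ofMul_toMul]
    rw [h1, hcl', hcl]
  have hshift : act (phiA τ) hm (((ℓ ^ (s - s') : ℕ) : R) * e) (aCls m v) ∈ B := by
    obtain ⟨ui, hui⟩ := hun.exists_left_inv
    have h1 : act (phiA τ) hm δ (aCls m v) = 0 := by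
      rw [hδ', act_mul, act_natCast, nsmul_modq_eq_zero_of_dvd hm']
    have h2 : act (phiA τ) hm (((ℓ ^ (s - s') : ℕ) : R) * (un * e)) (aCls m v) ∈ B := by
      rw [show δ = D η' + ((ℓ ^ (s - s') : ℕ) : R) * (un * e) from rfl, act_add] at h1
      rw [eq_neg_of_add_eq_zero_right h1]
      exact neg_mem hDv
    have h3 := act_mem_spanCls τ hm e T vs ui h2
    rwa [← act_mul, show ui * (((ℓ ^ (s - s') : ℕ) : R) * (un * e)) =
      ((ℓ ^ (s - s') : ℕ) : R) * e by linear_combination ((ℓ ^ (s - s') : ℕ) : R) * e * hui] at h3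
  set φv : R →+ Aq F m := orbHom (phiA τ) hm e (aCls m v)
  have hsup : spanCls τ hm e T' vs' = B ⊔ φv.range := by
    rw [spanCls, hT', Finset.iSup_insert, hvs'r, sup_comm]
    congr 1
    exact iSup_congr fun q => iSup_congr fun hq => by rw [hvs'T q hq]
  refine ⟨T', hT'a, vs', hvs', x', hx', s', η', hs's.trans hs, hη', hz'η', hann', ?_, ?_⟩
  · intro d hd
    rw [hsup]
    rcases List.mem_cons.1 hd with rfl | hd
    · exact AddSubgroup.mem_sup_right ⟨1, by rw [orbHom_apply, one_mul, hclv]⟩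
    · exact AddSubgroup.mem_sup_left (hcs d hd)
  · rw [hsup]
    set q := QuotientAddGroup.mk' B
    set ψ' : R →+ Aq F m ⧸ B := q.comp φv
    set Z : AddSubgroup R := (levelHom e s).range
    have hZ : Z ≤ (levelHom e s').range := by
      rintro _ ⟨a, rfl⟩
      refine ⟨((ℓ ^ (s - s') : ℕ) : R) * a, ?_⟩
      rw [levelHom_apply, levelHom_apply, show ((ℓ ^ s : ℕ) : R) =
        ((ℓ ^ (s - s') : ℕ) : R) * ((ℓ ^ s' : ℕ) : R) by
        rw [← Nat.cast_mul, ← pow_add, Nat.sub_add_cancel hs's]]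
      ring
    have hkill : ∀ a, levelHom e s' a ∈ Z → ψ' a = 0 := by
      rintro a ⟨d, hd⟩
      rw [levelHom_apply, levelHom_apply] at hd
      have h1 : ((ℓ ^ s' : ℕ) : R) * (e * a - ((ℓ ^ (s - s') : ℕ) : R) * (e * d)) = 0 := by
        have h2 : ((ℓ ^ s' : ℕ) : R) * ((ℓ ^ (s - s') : ℕ) : R) = ((ℓ ^ s : ℕ) : R) := by
          rw [← Nat.cast_mul, ← pow_add, Nat.add_sub_cancel' hs's]
        linear_combination -hd - (e * d) * h2
      obtain ⟨z, hz⟩ := exists_eq_of_pow_mul_eq_zero hs'k.le h1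
      refine (QuotientAddGroup.eq_zero_iff _).2 ?_
      show act (phiA τ) hm (a * e) (aCls m v) ∈ B
      rw [show a * e = ((ℓ ^ (k - s') : ℕ) : R) * z + d * (((ℓ ^ (s - s') : ℕ) : R) * e) by
          linear_combination hz,
        act_add, act_mul, act_natCast, nsmul_modq_eq_zero_of_dvd hm', zero_add, act_mul]
      exact act_mem_spanCls τ hm e T vs d hshift
    have hψ'le := card_range_mul_le (levelHom e s') ψ' Z hZ hkill
    have hsplit : Nat.card ↥(B ⊔ φv.range) = Nat.card B * Nat.card ψ'.range := by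
      set S := B ⊔ φv.range
      have h1 := AddSubgroup.card_eq_card_quotient_mul_card_addSubgroup (q.comp S.subtype).ker
      rw [Nat.card_congr (QuotientAddGroup.quotientKerEquivRange (q.comp S.subtype)).toEquiv] at h1
      have hr1 : (q.comp S.subtype).range = ψ'.range := by
        rw [AddMonoidHom.range_comp, AddSubgroup.range_subtype, AddMonoidHom.range_comp,
          AddSubgroup.map_sup, show B.map q = ⊥ from (AddSubgroup.eq_bot_iff_forall _).2 (by
            rintro _ ⟨b', hb', rfl⟩; exact (QuotientAddGroup.eq_zero_iff b').2 hb'), bot_sup_eq]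
      have hr2 : Nat.card (q.comp S.subtype).ker = Nat.card B :=
        Nat.card_congr
          { toFun := fun t => ⟨(t.1 : Aq F m), (QuotientAddGroup.eq_zero_iff _).1 t.2⟩
            invFun := fun t => ⟨⟨t.1, AddSubgroup.mem_sup_left t.2⟩,
              (QuotientAddGroup.eq_zero_iff _).2 t.2⟩
            left_inv := fun t => rfl
            right_inv := fun t => rfl }
      rw [h1, hr1, hr2, mul_comm]
    rw [hsplit]
    refine Nat.le_of_mul_le_mul_right ?_ (Nat.card_pos (α := Z))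
    calc Nat.card B * Nat.card ψ'.range * Nat.card (levelHom e s₀).range * Nat.card Z
        = (Nat.card B * Nat.card (levelHom e s₀).range) * (Nat.card ψ'.range * Nat.card Z) := by
          ring
      _ ≤ Nat.card Z * Nat.card (levelHom e s').range := Nat.mul_le_mul hcard hψ'le
      _ = Nat.card (levelHom e s').range * Nat.card Z := mul_comm _ _

/-- **Kolyvagin's bound** for a component. -/
theorem card_component_mul_le (hτ : Function.Bijective τ) (hι : IsBase p ι) (c : Ctx p ℓ k)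
    (hp2 : p ≠ 2) {k₀ n : ℕ} (hk₀ : k₀ ≤ k) {e : R} (he : IsPrim e) (hn : n + k₀ ≤ k) (hnk : n < k)
    {h₀ : Fˣ} (hh₀ : ι h₀ = hFun Ω p 1)
    (hidx : Nat.card (levelHom e 0).range ≤
      ℓ ^ n * Nat.card (orbHom (phiV τ) dvd_rfl e (vmk (ℓ ^ k) h₀)).range) :
    Nat.card (act (phiA τ) (pow_dvd_pow ℓ hk₀) e :
        Aq F (ℓ ^ k₀) →+ Aq F (ℓ ^ k₀)).range *
      Nat.card (orbHom (phiV τ) dvd_rfl e (vmk (ℓ ^ k) h₀)).range ≤
      Nat.card (levelHom e 0).range := by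
  set z := act (phiV τ) dvd_rfl e (vmk (ℓ ^ k) h₀)
  have hzne : z ≠ 0 := by
    intro h0
    have h1 : Nat.card (orbHom (phiV τ) dvd_rfl e (vmk (ℓ ^ k) h₀)).range = 1 := by
      rw [AddSubgroup.card_eq_one, AddSubgroup.eq_bot_iff_forall]
      rintro _ ⟨a, rfl⟩
      rw [orbHom_apply, act_mul, show act (phiV τ) dvd_rfl e (vmk (ℓ ^ k) h₀) = 0 from h0,
        map_zero]
    rw [h1, mul_one] at hidx
    have h2 := (pow_mul_card_level_le hG hk he (le_refl k)).trans hidx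
    have hpos : 0 < Nat.card (levelHom e k).range := Nat.card_pos
    exact absurd ((Nat.le_mul_of_pos_right _ hpos).trans h2)
      (not_le.2 (Nat.pow_lt_pow_right c.hl.one_lt hnk))
  obtain ⟨s, hsk, η, hη, hzη, hann⟩ := exists_normal_form τ hG hk c.hl2 he
    (show act (phiV τ) dvd_rfl e z = z by rw [← act_mul, he.idem]) hzne
  have hcard0 := card_range_orbHom τ hG hk he hzη hann
  have hsn : s ≤ n := by
    by_contra hlt
    have h2 := pow_mul_card_level_le hG hk he hsk.le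
    rw [hcard0] at hidx
    exact absurd (Nat.le_of_mul_le_mul_right (h2.trans hidx) Nat.card_pos)
      (not_le.2 (Nat.pow_lt_pow_right c.hl.one_lt (by omega)))
  have hbase : IsStep τ p ι (pow_dvd_pow ℓ hk₀) e s ([] : List (Aq F (ℓ ^ k₀))) := by
    obtain ⟨h₁, P, -⟩ := exists_prime_over_p hι c.hp hp2
    refine ⟨∅, by simp, fun _ => P, by simp, h₀, ⟨(hι _).2 ⟨h₀, rfl⟩, ∅, subset_rfl, by simp, 1,
      one_mem _, by rw [dT_empty, one_pow, mul_one, hh₀]⟩, s, η, le_rfl, hη, hzη, hann,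
      by simp, ?_⟩
    rw [spanCls]
    simp
  have hall : ∀ cs : List (Aq F (ℓ ^ k₀)),
      (∀ d ∈ cs, act (phiA τ) (pow_dvd_pow ℓ hk₀) e d = d) →
        IsStep τ p ι (pow_dvd_pow ℓ hk₀) e s cs := by
    intro cs
    induction cs with
    | nil => exact fun _ => hbase
    | cons d cs ih =>
      exact fun hd => isStep_cons τ hG hk hτ hι c hp2 (pow_dvd_pow ℓ hk₀) he
        (pow_dvd_pow ℓ (by omega)) (by omega)
        (hd d List.mem_cons_self) (ih fun d' hd' => hd d' (List.mem_cons_of_mem _ hd'))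
  haveI : Finite (Additive (ClassGroup (𝓞 F))) :=
    Finite.of_equiv _ Additive.ofMul
  set W := (act (phiA τ) (pow_dvd_pow ℓ hk₀) e : Aq F (ℓ ^ k₀) →+ Aq F (ℓ ^ k₀)).range
  haveI : Fintype W := Fintype.ofFinite W
  obtain ⟨T, -, vs, -, x, -, s', η', -, -, -, -, hmem, hle⟩ :=
    hall ((Finset.univ : Finset W).toList.map Subtype.val) (by
      intro d hd
      obtain ⟨⟨d', a, ha⟩, -, rfl⟩ := List.mem_map.1 hd
      show act (phiA τ) _ e d' = d'
      rw [← ha]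
      show act (phiA τ) _ e (act (phiA τ) _ e a) = act (phiA τ) _ e a
      rw [← act_mul, he.idem])
  rw [hcard0]
  refine le_trans (Nat.mul_le_mul_right _ (AddSubgroup.card_le_of_le fun d hd => ?_))
    (hle.trans (AddSubgroup.card_le_of_le ?_))
  · exact hmem d (List.mem_map.2 ⟨⟨d, hd⟩, by simp, rfl⟩)
  · rintro _ ⟨a, rfl⟩
    exact ⟨((ℓ ^ s' : ℕ) : R) * a, by
      rw [levelHom_apply, levelHom_apply, pow_zero, Nat.cast_one]; ring⟩

end engine

end FA.Kolyvagin
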