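import Fermat.Agent.Kolyvagin.GroupRing

/-!
# The group ring acting on a group modulo `m`

An action `φ` of `G` on an abelian group `X` gives an action `act φ hm` of `(ℤ/M)[G]` on
`X / m X` for `m ∣ M`; a functional `f` on `X / M X` spreads out to the equivariant map
`x ↦ ∑ f (g⁻¹ x) g` into the group ring.
-/

set_option autoImplicit false
set_option linter.unusedSectionVars false
set_option linter.style.haveILetI false

noncomputable section

open scoped Classical
open MonoidAlgebra (single)

namespace FA.Kolyvagin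

/-- `X` modulo `m`. -/
abbrev Modq (X : Type*) [AddCommGroup X] (m : ℕ) := X ⧸ (nsmulAddMonoidHom (α := X) m).range

variable {X : Type*} [AddCommGroup X] {G : Type*} [CommGroup G] [Fintype G]

/-- The projection. -/
abbrev mkq (m : ℕ) : X →+ Modq X m := QuotientAddGroup.mk' _

theorem mkq_surjective (m : ℕ) : Function.Surjective (mkq (X := X) m) :=
  QuotientAddGroup.mk'_surjective _

theorem mkq_eq_zero_iff {m : ℕ} {x : X} : mkq m x = 0 ↔ ∃ y, m • y = x :=
  (QuotientAddGroup.eq_zero_iff x).trans Iff.rfl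

theorem nsmul_modq_eq_zero (m : ℕ) (x : Modq X m) : m • x = 0 := by
  obtain ⟨y, rfl⟩ := mkq_surjective m x
  rw [← map_nsmul, mkq_eq_zero_iff]
  exact ⟨y, rfl⟩

theorem nsmul_modq_eq_zero_of_dvd {m n : ℕ} (h : m ∣ n) (x : Modq X m) : n • x = 0 := by
  obtain ⟨c, rfl⟩ := h
  exact ((mul_nsmul x m c).trans (congrArg (c • ·) (nsmul_modq_eq_zero m x))).trans (nsmul_zero c)

variable (φ : G →* AddMonoid.End X)

/-- The induced action. -/
def phiq (m : ℕ) : G →* AddMonoid.End (Modq X m) where
  toFun g := QuotientAddGroup.map _ _ (φ g : X →+ X) fun x hx => by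
    obtain ⟨y, rfl⟩ := hx
    exact ⟨(φ g) y, (map_nsmul (φ g : X →+ X) m y).symm⟩
  map_one' := AddMonoidHom.ext fun x => by
    obtain ⟨y, rfl⟩ := mkq_surjective m x
    show mkq m ((φ 1) y) = mkq m y
    rw [map_one]
    rfl
  map_mul' g h := AddMonoidHom.ext fun x => by
    obtain ⟨y, rfl⟩ := mkq_surjective m x
    show mkq m ((φ (g * h)) y) = mkq m ((φ g) ((φ h) y))
    rw [map_mul]
    rfl

theorem phiq_mkq (m : ℕ) (g : G) (x : X) : phiq φ m g (mkq m x) = mkq m ((φ g) x) := rfl

/-- The scalars. -/
def scalarHom {m M : ℕ} (hm : m ∣ M) : ZMod M →+* AddMonoid.End (Modq X m) :=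
  @Module.toAddMonoidEnd (ZMod M) (Modq X m) _ _
    (AddCommGroup.zmodModule fun x => nsmul_modq_eq_zero_of_dvd hm x)

/-- **The action of the group ring.** -/
def act {m M : ℕ} (hm : m ∣ M) : MonoidAlgebra (ZMod M) G →+* AddMonoid.End (Modq X m) :=
  MonoidAlgebra.liftNCRingHom (scalarHom hm) (phiq φ m) fun c g => by
    letI : Module (ZMod M) (Modq X m) :=
      AddCommGroup.zmodModule fun x => nsmul_modq_eq_zero_of_dvd hm x
    exact AddMonoidHom.ext fun x => (ZMod.map_smul (phiq φ m g : Modq X m →+ Modq X m) c x).symm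

variable {φ} {m M : ℕ} {hm : m ∣ M}

theorem act_natCast (n : ℕ) (x : Modq X m) : act φ hm (n : MonoidAlgebra (ZMod M) G) x = n • x := by
  rw [map_natCast]
  exact AddMonoid.End.natCast_apply n x

theorem act_mul (a b : MonoidAlgebra (ZMod M) G) (x : Modq X m) :
    act φ hm (a * b) x = act φ hm a (act φ hm b x) := by
  rw [map_mul]
  rfl

theorem act_add (a b : MonoidAlgebra (ZMod M) G) (x : Modq X m) :
    act φ hm (a + b) x = act φ hm a x + act φ hm b x := by
  rw [map_add]
  rfl

theorem act_one (x : Modq X m) : act φ hm (1 : MonoidAlgebra (ZMod M) G) x = x := by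
  rw [map_one]
  rfl

theorem act_zero (x : Modq X m) : act φ hm (0 : MonoidAlgebra (ZMod M) G) x = 0 := by
  rw [map_zero]
  rfl

theorem act_sum {ι : Type*} (s : Finset ι) (a : ι → MonoidAlgebra (ZMod M) G) (x : Modq X m) :
    act φ hm (∑ i ∈ s, a i) x = ∑ i ∈ s, act φ hm (a i) x := by
  induction s using Finset.induction with
  | empty => rw [Finset.sum_empty, Finset.sum_empty, act_zero]
  | insert i s hi ih => rw [Finset.sum_insert hi, Finset.sum_insert hi, act_add, ih]

theorem act_of (g : G) (x : Modq X m) :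
    act φ hm (single g (1 : ZMod M)) x = phiq φ m g x := by
  rw [act, MonoidAlgebra.liftNCRingHom_single, map_one, one_mul]

theorem single_eq_natCast_mul [NeZero M] (g : G) (c : ZMod M) :
    single g c = ((c.val : ℕ) : MonoidAlgebra (ZMod M) G) * single g (1 : ZMod M) := by
  refine MonoidAlgebra.ext (Finsupp.ext fun h => ?_)
  rw [← nsmul_eq_mul, MonoidAlgebra.coeff_smul_apply, MonoidAlgebra.coeff_single,
    MonoidAlgebra.coeff_single, Finsupp.single_apply, Finsupp.single_apply, nsmul_eq_mul,
    ZMod.natCast_zmod_val]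
  split_ifs <;> simp

theorem act_single [NeZero M] (g : G) (c : ZMod M) (x : Modq X m) :
    act φ hm (single g c) x = c.val • phiq φ m g x := by
  rw [single_eq_natCast_mul, act_mul, act_of, act_natCast]

/-- A subgroup stable under `G` is stable under the group ring. -/
theorem act_mem [NeZero M] {W : AddSubgroup (Modq X m)} (hW : ∀ g, ∀ x ∈ W, phiq φ m g x ∈ W)
    (a : MonoidAlgebra (ZMod M) G) {x : Modq X m} (hx : x ∈ W) : act φ hm a x ∈ W := by
  rw [← a.sum_coeff_single, Finsupp.sum, act_sum]
  exact sum_mem fun g _ => by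
    rw [act_single]
    exact AddSubgroup.nsmul_mem _ (hW g x hx) _

/-- An additive map compatible with `G` is compatible with the group ring. -/
theorem map_act [NeZero M] {Y : Type*} [AddCommGroup Y] (f : Modq X m →+ Y)
    (T : G → Y → Y) (hT : ∀ g x, f (phiq φ m g x) = T g (f x))
    (a : MonoidAlgebra (ZMod M) G) (x : Modq X m) :
    f (act φ hm a x) = a.coeff.sum fun g c => c.val • T g (f x) := by
  conv_lhs => rw [← a.sum_coeff_single]
  rw [Finsupp.sum, act_sum, map_sum]
  exact Finset.sum_congr rfl fun g _ => by rw [act_single, map_nsmul, hT]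

section spread

variable [NeZero M]

variable (φ) in
/-- A functional spread out over the group. -/
def spread (f : Modq X M →+ ZMod M) : Modq X M →+ MonoidAlgebra (ZMod M) G where
  toFun x := ∑ g : G, single g (f (phiq φ M g⁻¹ x))
  map_zero' := Finset.sum_eq_zero fun g _ => by simp
  map_add' x y := by
    rw [← Finset.sum_add_distrib]
    exact Finset.sum_congr rfl fun g _ => by rw [map_add, map_add, MonoidAlgebra.single_add]

theorem coeff_spread (f : Modq X M →+ ZMod M) (x : Modq X M) (g : G) :
    (spread φ f x).coeff g = f (phiq φ M g⁻¹ x) := by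
  show (∑ h : G, single h (f (phiq φ M h⁻¹ x))).coeff g = _
  rw [MonoidAlgebra.coeff_sum, Finsupp.finsetSum_apply]
  simp [Finsupp.single_apply]

theorem spread_phiq (f : Modq X M →+ ZMod M) (h : G) (x : Modq X M) :
    spread φ f (phiq φ M h x) = single h (1 : ZMod M) * spread φ f x := by
  show ∑ g : G, _ = single h (1 : ZMod M) * ∑ g : G, _
  rw [Finset.mul_sum]
  refine Fintype.sum_equiv (Equiv.mulLeft h⁻¹) _ _ fun g => ?_
  rw [Equiv.coe_mulLeft, MonoidAlgebra.single_mul_single, one_mul, mul_inv_cancel_left,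
    show phiq φ M g⁻¹ (phiq φ M h x) = phiq φ M (g⁻¹ * h) x by rw [map_mul]; rfl,
    show (h⁻¹ * g)⁻¹ = g⁻¹ * h by group]

/-- **The spread is linear over the group ring.** -/
theorem spread_act (f : Modq X M →+ ZMod M) (a : MonoidAlgebra (ZMod M) G) (x : Modq X M) :
    spread φ f (act φ dvd_rfl a x) = a * spread φ f x := by
  rw [map_act (spread φ f) (fun g y => single g (1 : ZMod M) * y) (spread_phiq f) a x]
  conv_rhs => rw [← a.sum_coeff_single, Finsupp.sum, Finset.sum_mul]
  refine Finset.sum_congr rfl fun g _ => ?_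
  simp only []
  rw [nsmul_eq_mul, ← mul_assoc, ← single_eq_natCast_mul]

end spread

end FA.Kolyvagin
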