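import Fermat.Agent.Kolyvagin.Local

/-!
# The base field `ℚ(ζ_p)⁺`

For a Galois number field `F` embedded in `Ω` with image `ℚ(ζ_p + ζ_p⁻¹)`, `p` odd: the group is
commutative, `2 [F : ℚ] = p - 1`, the element `h = 2 - ζ_p - ζ_p⁻¹` generates the only prime over
`p`, and a prime of prime norm `r ≠ p` has `r ≡ ± 1 (mod p)`.
-/

set_option autoImplicit false
set_option linter.unusedSectionVars false
set_option linter.style.haveILetI false

noncomputable section

open scoped Classical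
open NumberField IsDedekindDomain IntermediateField FA.ArtinRec

namespace FA.Kolyvagin

variable {Ω : Type*} [Field Ω] [CharZero Ω] [IsAlgClosed Ω] [Algebra.IsAlgebraic ℚ Ω] {p : ℕ}
variable {F : Type*} [Field F] [NumberField F] [IsGalois ℚ F] {ι : F →+* Ω} (hι : IsBase p ι)
  (hp : p.Prime) (hp2 : p ≠ 2)
include hι hp hp2

/-- `ℚ(ζ_p)` over `F`. -/
theorem exists_cyclotomic_over :
    ∃ (L : IntermediateField ℚ Ω) (_ : NumberField L) (_ : IsGalois ℚ L)
      (_ : IsCyclotomicExtension {p} ℚ L) (j : F →+* L) (z : L),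
      IsPrimitiveRoot z p ∧ (z : Ω) = zr Ω p ∧ (∀ x, (j x : Ω) = ι x) ∧
      (∀ τ : L ≃ₐ[ℚ] L, τ z = z → τ = 1) := by
  have hS : ∀ q ∈ insert p (∅ : Finset ℕ), q.Prime := by simp [hp]
  haveI : NeZero p := ⟨hp.ne_zero⟩
  haveI := isGalois_rat (Ω := Ω)
  have hprod : ∏ q ∈ insert p (∅ : Finset ℕ), q = p := by simp
  haveI hcyc : IsCyclotomicExtension {p} ℚ (fullField Ω p ∅) := by
    have h := fullField_isCyclotomic (Ω := Ω) hS
    rwa [hprod] at h
  haveI : NumberField (fullField Ω p ∅) := IsCyclotomicExtension.numberField {p} ℚ _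
  haveI : IsGalois ℚ (fullField Ω p ∅) := IsCyclotomicExtension.isGalois {p} ℚ _
  have hz : zr Ω p ∈ fullField Ω p ∅ := zr_mem_fullField (Finset.mem_insert_self _ _)
  refine ⟨fullField Ω p ∅, inferInstance, inferInstance, hcyc,
    ι.codRestrict _ fun y => plusField_le_fullField ∅ ((hι _).2 ⟨y, rfl⟩), ⟨_, hz⟩,
    IsPrimitiveRoot.coe_submonoidClass_iff.1 (zr_spec Ω hp.ne_zero), rfl, fun _ => rfl,
    fun τ hτ => AlgEquiv.ext fun y => Subtype.ext ?_⟩
  show ((τ y : fullField Ω p ∅) : Ω) = (y : Ω)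
  have hlift : ∀ a : fullField Ω p ∅, τ.liftNormal Ω (a : Ω) = (τ a : fullField Ω p ∅) :=
    fun a => τ.liftNormal_commutes Ω a
  rw [← hlift y]
  refine (mem_adjoin_iff_fixed.1 y.2) _ ?_
  rintro _ ⟨q, hq, rfl⟩
  obtain rfl : q = p := by simpa using hq
  exact (hlift ⟨_, hz⟩).trans (congrArg Subtype.val hτ)

theorem zr_ne_inv : zr Ω p ≠ (zr Ω p)⁻¹ := fun h => by
  have h2 : zr Ω p ^ 2 = 1 := by
    rw [sq]
    nth_rw 2 [h]
    exact mul_inv_cancel₀ (zr_ne_zero Ω p)
  have hd := (zr_spec Ω hp.ne_zero).dvd_of_pow_eq_one 2 h2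
  exact hp2 ((Nat.prime_dvd_prime_iff_eq hp Nat.prime_two).1 hd)

theorem gal_comm (σ τ : F ≃ₐ[ℚ] F) : σ * τ = τ * σ := by
  obtain ⟨L, _, _, _, j, z, hz, -, -, -⟩ := exists_cyclotomic_over hι hp hp2
  letI : Algebra F L := j.toAlgebra
  haveI : IsScalarTower ℚ F L := IsScalarTower.of_algebraMap_eq' (Subsingleton.elim _ _)
  haveI : NeZero p := ⟨hp.ne_zero⟩
  obtain ⟨σ', rfl⟩ := AlgEquiv.restrictNormalHom_surjective (F := ℚ) (K₁ := F) L σ
  obtain ⟨τ', rfl⟩ := AlgEquiv.restrictNormalHom_surjective (F := ℚ) (K₁ := F) L τ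
  rw [← map_mul, ← map_mul]
  congr 1
  refine (IsCyclotomicExtension.Rat.galEquivZMod p L).injective ?_
  rw [map_mul, map_mul, mul_comm]

/-- **The degree.** -/
theorem finrank_mul_two : Module.finrank ℚ F * 2 = p - 1 := by
  obtain ⟨L, _, _, hcyc, j, z, hz, hzΩ, hj, huniq⟩ := exists_cyclotomic_over hι hp hp2
  letI : Algebra F L := j.toAlgebra
  haveI : IsScalarTower ℚ F L := IsScalarTower.of_algebraMap_eq' (Subsingleton.elim _ _)
  haveI : IsGalois F L := IsGalois.tower_top_of_isGalois ℚ F L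
  haveI : NeZero p := ⟨hp.ne_zero⟩
  haveI := isGalois_rat (Ω := Ω)
  have h := Module.finrank_mul_finrank ℚ F L
  have hL : Module.finrank ℚ L = p - 1 := by
    rw [IsCyclotomicExtension.finrank (n := p) L (Polynomial.cyclotomic.irreducible_rat hp.pos),
      Nat.totient_prime hp]
  have h2 : Module.finrank F L = 2 := by
    rw [← IsGalois.card_aut_eq_finrank]
    obtain ⟨σ, hσ⟩ := exists_aut (Ω := Ω) (S := {p}) (by simp [hp]) (fun _ => p - 1)
      (by
        intro q hq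
        obtain rfl := Finset.mem_singleton.1 hq
        exact fun hd => absurd (Nat.le_of_dvd (by have := hp.two_le; omega) hd)
          (by have := hp.two_le; omega))
    have hσz : σ (zr Ω p) = (zr Ω p)⁻¹ := by
      rw [hσ p (Finset.mem_singleton_self p)]
      refine eq_inv_of_mul_eq_one_left ?_
      rw [← pow_succ, Nat.sub_add_cancel hp.one_le, zr_pow_self]
    have hσc : σ (cp Ω p) = cp Ω p := by rw [cp, map_add, map_inv₀, hσz, inv_inv, add_comm]
    set s := σ.restrictNormal L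
    have hs : ∀ a : L, ((s a : L) : Ω) = σ (a : Ω) := fun a =>
      AlgEquiv.restrictNormal_commutes σ L a
    let sF : L ≃ₐ[F] L := AlgEquiv.ofRingEquiv (f := s.toRingEquiv) fun y => Subtype.ext (by
      show ((s (j y) : L) : Ω) = (j y : Ω)
      rw [hs, hj, map_iota hι hσc])
    have hval : ∀ τ : L ≃ₐ[F] L, τ z = z ∨ τ z = z⁻¹ := by
      intro τ
      set τQ : L ≃ₐ[ℚ] L := τ.restrictScalars ℚ
      set c : F := (( hι (cp Ω p)).1 (cp_mem_plusField ∅)).choose
      have hc : ι c = cp Ω p := ((hι (cp Ω p)).1 (cp_mem_plusField ∅)).choose_spec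
      have hjc : j c = z + z⁻¹ := Subtype.ext (by
        rw [hj, hc, cp, ← hzΩ]
        rfl)
      have hfix : τ (z + z⁻¹) = z + z⁻¹ := by rw [← hjc]; exact τ.commutes c
      have hz0 : z ≠ 0 := hz.ne_zero hp.ne_zero
      have hτ0 : τ z ≠ 0 := (map_ne_zero τ).2 hz0
      rw [map_add, map_inv₀] at hfix
      field_simp at hfix
      have h0 : (τ z - z) * (τ z * z - 1) = 0 := by linear_combination hfix
      rcases mul_eq_zero.1 h0 with h | h
      · exact Or.inl (sub_eq_zero.1 h)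
      · exact Or.inr (eq_inv_of_mul_eq_one_left (sub_eq_zero.1 h))
    have hext : ∀ τ τ' : L ≃ₐ[F] L, τ z = τ' z → τ = τ' := fun τ τ' h => by
      have h1 := huniq ((τ'⁻¹ * τ).restrictScalars ℚ) (by
        show τ'.symm (τ z) = z
        rw [h, AlgEquiv.symm_apply_apply])
      refine AlgEquiv.ext fun y => ?_
      have h2 : τ'.symm (τ y) = y := AlgEquiv.congr_fun h1 y
      exact (AlgEquiv.symm_apply_eq τ').1 h2
    have hne : sF ≠ 1 := fun h => zr_ne_inv hι hp hp2 (by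
      rw [← hσz, ← hzΩ, ← hs]
      exact congrArg Subtype.val (show z = s z from (AlgEquiv.congr_fun h z).symm))
    rw [Nat.card_eq_fintype_card]
    refine le_antisymm ?_ (Fintype.one_lt_card_iff.2 ⟨sF, 1, hne⟩)
    refine (Finset.card_le_card_of_injOn (fun τ : L ≃ₐ[F] L => τ z) (s := Finset.univ)
      (t := {z, z⁻¹}) (fun τ _ => ?_) (fun τ _ τ' _ h => hext τ τ' h)).trans Finset.card_le_two
    rcases hval τ with h | h <;> simp [h]
  rw [← hL, ← h, h2]

/-- **The prime over `p`.** -/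
theorem exists_prime_over_p :
    ∃ (h : 𝓞 F) (P : HeightOneSpectrum (𝓞 F)), h ≠ 0 ∧ ι (h : F) = hFun Ω p 1 ∧
      P.asIdeal = Ideal.span {h} ∧
      ∀ v : HeightOneSpectrum (𝓞 F), (p : 𝓞 F) ∈ v.asIdeal → v = P := by
  have hd := finrank_mul_two hι hp hp2
  obtain ⟨L, _, _, hcyc, j, z, hz, hzΩ, hj, -⟩ := exists_cyclotomic_over hι hp hp2
  letI : Algebra F L := j.toAlgebra
  haveI : IsScalarTower ℚ F L := IsScalarTower.of_algebraMap_eq' (Subsingleton.elim _ _)
  haveI : IsGalois F L := IsGalois.tower_top_of_isGalois ℚ F L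
  haveI : Fact p.Prime := ⟨hp⟩
  obtain ⟨y, hy⟩ := (hι (hFun Ω p 1)).1 (hFun_mem (one_mem _))
  have hjy : j y = (z - 1) * (z⁻¹ - 1) := Subtype.ext (by
    rw [hj, hy, hFun_eq, ← hzΩ]
    show _ = ((z : Ω) - 1) * ((z : Ω)⁻¹ - 1)
    ring)
  have hyint : IsIntegral ℤ y := by
    have hi : IsIntegral ℤ z := hz.isIntegral hp.pos
    have hi' : IsIntegral ℤ z⁻¹ := hz.inv.isIntegral hp.pos
    refine (isIntegral_algHom_iff (j.toIntAlgHom) j.injective).1 ?_
    show IsIntegral ℤ (j y)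
    rw [hjy]
    exact (hi.sub isIntegral_one).mul (hi'.sub isIntegral_one)
  set h : 𝓞 F := ⟨y, hyint⟩
  have hy0 : y ≠ 0 := fun e => by
    rw [e, map_zero] at hy
    exact hFun_ne_zero (Ω := Ω) hp (m := 1) hp.not_dvd_one (one_pow 1) hy.symm
  have hh0 : h ≠ 0 := fun e => hy0 (congrArg (fun t : 𝓞 F => (t : F)) e)
  have hirr : Irreducible (Polynomial.cyclotomic p ℚ) :=
    Polynomial.cyclotomic.irreducible_rat hp.pos
  have hnorm : Algebra.norm ℚ y ^ 2 = (p : ℚ) ^ 2 := by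
    have h1 : Algebra.norm ℚ (Algebra.norm F (j y)) = Algebra.norm ℚ (j y) := Algebra.norm_norm
    have h2 : Module.finrank F L = 2 := by
      have h3 := Module.finrank_mul_finrank ℚ F L
      rw [IsCyclotomicExtension.finrank (n := p) L hirr, Nat.totient_prime hp, ← hd] at h3
      exact Nat.eq_of_mul_eq_mul_left Module.finrank_pos h3
    rw [show j y = algebraMap F L y from rfl, Algebra.norm_algebraMap, h2, map_pow] at h1
    rw [h1, show algebraMap F L y = j y from rfl, hjy, map_mul,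
      hz.norm_sub_one_of_prime_ne_two' hirr hp2, hz.inv.norm_sub_one_of_prime_ne_two' hirr hp2,
      sq]
  have habs : Ideal.absNorm (Ideal.span {h}) = p := by
    rw [Ideal.absNorm_span_singleton]
    have h1 : ((Algebra.norm ℤ h : ℤ) : ℚ) ^ 2 = (((p : ℤ) : ℚ)) ^ 2 := by
      rw [Algebra.coe_norm_int, Int.cast_natCast]
      exact hnorm
    have h2 : (Algebra.norm ℤ h) ^ 2 = (p : ℤ) ^ 2 := by exact_mod_cast h1
    exact_mod_cast (Int.natAbs_eq_iff_sq_eq).2 h2
  haveI hprime : (Ideal.span {h}).IsPrime :=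
    Ideal.isPrime_of_irreducible_absNorm (by rw [habs]; exact hp)
  let P : HeightOneSpectrum (𝓞 F) := ⟨Ideal.span {h}, hprime, by simpa using hh0⟩
  refine ⟨h, P, hh0, hy, rfl, fun v hv => ?_⟩
  obtain ⟨Q, hQ⟩ := exists_belowP F L v
  subst hQ
  set w := Q.valuation L
  have hwp : w (p : L) < 1 := by
    rw [val_natCast_lt_one_iff]
    have : algebraMap (𝓞 F) (𝓞 L) (p : 𝓞 F) ∈ Q.asIdeal := hv
    rwa [map_natCast] at this
  have hle : ∀ μ ∈ primitiveRoots p L, w (1 - μ) ≤ 1 := fun μ hμ =>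
    val_one_sub_le_one w (val_eq_one_of_pow_eq_one w hp.ne_zero
      ((mem_primitiveRoots hp.pos).1 hμ).pow_eq_one).le
  have hz1 : w (1 - z) < 1 := by
    by_contra hge
    have hone : w (1 - z) = 1 :=
      le_antisymm (hle z ((mem_primitiveRoots hp.pos).2 hz)) (not_lt.1 hge)
    have hprod : ∏ μ ∈ primitiveRoots p L, (1 - μ) = (p : L) := by
      have h' := congrArg (Polynomial.eval 1)
        (Polynomial.cyclotomic_eq_prod_X_sub_primitiveRoots hz)
      rw [Polynomial.eval_one_cyclotomic_prime, Polynomial.eval_prod] at h'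
      simpa using h'.symm
    refine hwp.ne ?_
    rw [← hprod, map_prod]
    refine Finset.prod_eq_one fun μ hμ => le_antisymm (hle μ hμ) ?_
    have hμ' := (mem_primitiveRoots hp.pos).1 hμ
    haveI : NeZero p := ⟨hp.ne_zero⟩
    obtain ⟨i, -, hi⟩ := hμ'.eq_pow_of_pow_eq_one hz.pow_eq_one
    calc (1 : _) = w (1 - z) := hone.symm
      _ = w (1 - μ) * w (∑ l ∈ Finset.range i, μ ^ l) := by
          rw [← map_mul, mul_neg_geom_sum, hi]
      _ ≤ w (1 - μ) := mul_le_of_le_one_right' (w.map_sum_le fun l _ => by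
          rw [map_pow, val_eq_one_of_pow_eq_one w hp.ne_zero hμ'.pow_eq_one, one_pow])
  have hmem : h ∈ (belowP F Q).asIdeal := by
    show algebraMap (𝓞 F) (𝓞 L) h ∈ Q.asIdeal
    rw [← Q.valuation_lt_one_iff_mem (K := L)]
    show w (j y) < 1
    rw [hjy, map_mul, Valuation.map_sub_swap, Valuation.map_sub_swap w z⁻¹]
    exact (mul_le_of_le_one_right' (val_one_sub_le_one w (val_eq_one_of_pow_eq_one w hp.ne_zero
      hz.inv.pow_eq_one).le)).trans_lt hz1
  exact HeightOneSpectrum.ext (P.isMaximal.eq_of_le (belowP F Q).isPrime.ne_top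
    ((Ideal.span_singleton_le_iff_mem _).2 hmem)).symm

/-- **Degree one primes.** -/
theorem sign_of_absNorm_prime {r : ℕ} (hr : r.Prime) (hrp : r ≠ p) (v : HeightOneSpectrum (𝓞 F))
    (hN : Ideal.absNorm v.asIdeal = r) : (r : ZMod p) = 1 ∨ (r : ZMod p) = -1 := by
  obtain ⟨L, _, _, hcyc, j, z, hz, hzΩ, hj, -⟩ := exists_cyclotomic_over hι hp hp2
  letI : Algebra F L := j.toAlgebra
  haveI : Fact p.Prime := ⟨hp⟩
  haveI : Fact r.Prime := ⟨hr⟩
  obtain ⟨Q, hQ⟩ := exists_belowP F L v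
  subst hQ
  obtain ⟨y, hy⟩ := (hι (cp Ω p)).1 (cp_mem_plusField ∅)
  have hjy : j y = z + z⁻¹ := Subtype.ext (by
    rw [hj, hy, cp, ← hzΩ]
    rfl)
  have hi : IsIntegral ℤ z := hz.isIntegral hp.pos
  have hi' : IsIntegral ℤ z⁻¹ := hz.inv.isIntegral hp.pos
  have hyint : IsIntegral ℤ y := by
    refine (isIntegral_algHom_iff (j.toIntAlgHom) j.injective).1 ?_
    show IsIntegral ℤ (j y)
    rw [hjy]
    exact hi.add hi'
  set c : 𝓞 F := ⟨y, hyint⟩
  set v := belowP F Q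
  haveI := v.isMaximal
  haveI := Q.isMaximal
  letI : Field (𝓞 F ⧸ v.asIdeal) := Ideal.Quotient.field _
  haveI : Finite (𝓞 F ⧸ v.asIdeal) := Ideal.finiteQuotientOfFreeOfNeBot _ v.ne_bot
  haveI := Fintype.ofFinite (𝓞 F ⧸ v.asIdeal)
  have hcr : c ^ r - c ∈ v.asIdeal := by
    rw [← Ideal.Quotient.eq, map_pow]
    have h := FiniteField.pow_card (Ideal.Quotient.mk v.asIdeal c)
    rwa [← Nat.card_eq_fintype_card, show Nat.card (𝓞 F ⧸ v.asIdeal) = r by
      rw [← hN, Ideal.absNorm_apply, Submodule.cardQuot_apply]] at h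
  have hrQ : (r : 𝓞 L) ∈ Q.asIdeal := by
    have h : algebraMap (𝓞 F) (𝓞 L) (r : 𝓞 F) ∈ Q.asIdeal :=
      (hN ▸ Ideal.absNorm_mem v.asIdeal : (r : 𝓞 F) ∈ v.asIdeal)
    rwa [map_natCast] at h
  set π := Ideal.Quotient.mk Q.asIdeal
  haveI : Nontrivial (𝓞 L ⧸ Q.asIdeal) := Ideal.Quotient.nontrivial_iff.2 Q.isPrime.ne_top
  haveI : CharP (𝓞 L ⧸ Q.asIdeal) r := (CharP.charP_iff_prime_eq_zero hr).2
    ((map_natCast π r).symm.trans (Ideal.Quotient.eq_zero_iff_mem.2 hrQ))
  haveI : NeZero p := ⟨hp.ne_zero⟩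
  set zi : 𝓞 L := hz.toInteger
  set zi' : 𝓞 L := hz.inv.toInteger
  have hcL : algebraMap (𝓞 F) (𝓞 L) c = zi + zi' := RingOfIntegers.ext hjy
  have hzz : zi * zi' = 1 := RingOfIntegers.ext (mul_inv_cancel₀ (hz.ne_zero hp.ne_zero))
  have hprodQ : (zi ^ r - zi) * (zi ^ r - zi') ∈ Q.asIdeal := by
    have h1 : π (algebraMap (𝓞 F) (𝓞 L) c) ^ r = π (algebraMap (𝓞 F) (𝓞 L) c) := by
      rw [← map_pow, ← map_pow, Ideal.Quotient.eq, ← map_sub]
      exact hcr
    rw [hcL, map_add, add_pow_char] at h1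
    rw [← Ideal.Quotient.eq_zero_iff_mem, map_mul, map_sub, map_sub, map_pow]
    have h2 : π zi * π zi' = 1 := by rw [← map_mul, hzz, map_one]
    have h3 : π zi ^ r * π zi' ^ r = 1 := by rw [← mul_pow, h2, one_pow]
    linear_combination (π zi ^ r) * h1 + h2 - h3
  have hwp : Q.valuation L (p : L) = 1 :=
    val_natCast_eq_one_of_coprime ((Nat.coprime_primes hp hr).2 hrp.symm)
      ((val_natCast_lt_one_iff Q r).2 hrQ)
  have hexp : ∀ a b : ℕ, zi ^ a - zi ^ b ∈ Q.asIdeal → (a : ZMod p) = b := by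
    intro a b hab
    wlog hle : b ≤ a generalizing a b
    · exact (this b a (by rw [← neg_sub]; exact neg_mem hab) (le_of_not_ge hle)).symm
    by_contra hne
    have hnd : ¬ p ∣ a - b := fun hd => hne (((ZMod.natCast_eq_natCast_iff _ _ _).2
      ((Nat.modEq_iff_dvd' hle).2 hd).symm))
    have h1 := (Q.valuation_lt_one_iff_mem (K := L) _).2 hab
    have h2 : Q.valuation L (z ^ a - z ^ b) = 1 := by
      rw [show z ^ a - z ^ b = z ^ b * (z ^ (a - b) - 1) by
          rw [mul_sub, ← pow_add, Nat.add_sub_cancel' hle, mul_one],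
        map_mul, map_pow, val_eq_one_of_pow_eq_one _ hp.ne_zero hz.pow_eq_one, one_pow, one_mul,
        Valuation.map_sub_swap]
      exact val_one_sub_eq_one _ hp hwp
        (hz.pow_of_coprime _ (hp.coprime_iff_not_dvd.2 hnd).symm)
    exact h1.ne h2
  rcases Q.isPrime.mem_or_mem hprodQ with h | h
  · left
    have h' := hexp r 1 (by rwa [pow_one])
    simpa using h'
  · right
    have hzi' : zi' = zi ^ (p - 1) := by
      refine RingOfIntegers.ext ?_
      show z⁻¹ = z ^ (p - 1)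
      refine (eq_inv_of_mul_eq_one_left ?_).symm
      rw [← pow_succ, Nat.sub_add_cancel hp.one_le, hz.pow_eq_one]
    have h' := hexp r (p - 1) (by rwa [hzi'] at h)
    rw [h', Nat.cast_sub hp.one_le, ZMod.natCast_self, Nat.cast_one, zero_sub]

end FA.Kolyvagin
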