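import Fermat.Agent.Kolyvagin.Roots

/-!
# Kolyvagin's derivative classes of cyclotomic units

For a finite set `T` of admissible primes (`q ≡ ± 1 (mod p)`, `q ≡ 1 (mod M)`) the derivative
`dT T 1` is the product over `j ∈ ∏_{q ∈ T} [0, q - 1)` of `h (∏ ζ_q ^ (g_q ^ j_q)) ^ (∏ j_q)`,
where `h w = (ζ_p w - 1) (ζ_p⁻¹ w - 1)` and `g_q` generates `(ℤ/q)ˣ`.

* `exists_derivative_gal`: modulo `M`-th powers the derivative is fixed by every automorphism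
  fixing `ζ_p + ζ_p⁻¹`;
* `exists_isKappa`, `IsKappa.exists_pow_mul`: it is a class `κ_T` of `ℚ(ζ_p)⁺` times an `M`-th
  power, and `κ_T` is unique modulo `M`-th powers.
-/

set_option autoImplicit false
set_option linter.unusedSectionVars false
set_option linter.style.haveILetI false

noncomputable section

open scoped Classical
open Finset IntermediateField

namespace FA.Kolyvagin

/-- A chosen generator modulo a prime. -/
def gen (q : ℕ) : ℕ :=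
  if h : ∃ g : ℕ, orderOf (g : ZMod q) = q - 1 then h.choose else 1

theorem gen_spec {q : ℕ} (hq : q.Prime) : orderOf (gen q : ZMod q) = q - 1 := by
  haveI : Fact q.Prime := ⟨hq⟩
  have h : ∃ g : ℕ, orderOf (g : ZMod q) = q - 1 := by
    obtain ⟨g, hg⟩ := IsCyclic.exists_generator (α := (ZMod q)ˣ)
    refine ⟨(g : ZMod q).val, ?_⟩
    rw [ZMod.natCast_zmod_val, orderOf_units, orderOf_eq_card_of_forall_mem_zpowers hg,
      Nat.card_eq_fintype_card, ZMod.card_units]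
  rw [gen, dif_pos h]
  exact h.choose_spec

theorem not_dvd_gen {q : ℕ} (hq : q.Prime) : ¬ q ∣ gen q := by
  intro h
  haveI : Fact q.Prime := ⟨hq⟩
  have h1 := gen_spec hq
  rw [(ZMod.natCast_eq_zero_iff _ _).2 h, orderOf_zero] at h1
  have := hq.two_le
  omega

theorem not_dvd_gen_pow {q : ℕ} (hq : q.Prime) (i : ℕ) : ¬ q ∣ gen q ^ i :=
  fun h => not_dvd_gen hq (hq.dvd_of_dvd_pow h)

theorem gen_pow_modEq_one {q : ℕ} (hq : q.Prime) : gen q ^ (q - 1) ≡ 1 [MOD q] := by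
  rw [← ZMod.natCast_eq_natCast_iff, Nat.cast_pow, ← gen_spec hq, pow_orderOf_eq_one,
    Nat.cast_one]

theorem gen_pow_inj {q : ℕ} (hq : q.Prime) {i j : ℕ} (hi : i < q - 1) (hj : j < q - 1)
    (h : gen q ^ i ≡ gen q ^ j [MOD q]) : i = j := by
  rw [← ZMod.natCast_eq_natCast_iff, Nat.cast_pow, Nat.cast_pow] at h
  exact pow_injOn_Iio_orderOf (by rwa [Set.mem_Iio, gen_spec hq])
    (by rwa [Set.mem_Iio, gen_spec hq]) h

theorem exists_gen_pow_modEq {q a : ℕ} (hq : q.Prime) (ha : ¬ q ∣ a) :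
    ∃ i, i < q - 1 ∧ gen q ^ i ≡ a [MOD q] := by
  haveI : Fact q.Prime := ⟨hq⟩
  have h0 : (a : ZMod q) ≠ 0 := fun h => ha ((ZMod.natCast_eq_zero_iff _ _).1 h)
  have hn : (a : ZMod q) ^ (q - 1) = 1 := ZMod.pow_card_sub_one_eq_one h0
  haveI : NeZero (q - 1) := ⟨by have := hq.two_le; omega⟩
  have hprim : IsPrimitiveRoot (gen q : ZMod q) (q - 1) := by
    have h := IsPrimitiveRoot.orderOf (gen q : ZMod q)
    rwa [gen_spec hq] at h
  obtain ⟨i, hi, h⟩ := hprim.eq_pow_of_pow_eq_one hn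
  exact ⟨i, hi, by rw [← ZMod.natCast_eq_natCast_iff, Nat.cast_pow, h]⟩

/-- An admissible prime. -/
structure IsAdm (p M q : ℕ) : Prop where
  prime : q.Prime
  dvd : M ∣ q - 1
  sign : (q : ZMod p) = 1 ∨ (q : ZMod p) = -1

/-- The standing hypotheses. -/
structure Ctx (p ℓ k : ℕ) : Prop where
  hp : p.Prime
  hl : ℓ.Prime
  hl2 : ℓ ≠ 2
  hk : 0 < k

theorem IsAdm.ne_p {p M q : ℕ} (h : IsAdm p M q) (hp : p.Prime) : q ≠ p := by
  rintro rfl
  haveI : Fact q.Prime := ⟨hp⟩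
  rcases h.sign with h' | h' <;> simp at h'

theorem Ctx.dvd_pow_self {p ℓ k : ℕ} (c : Ctx p ℓ k) : ℓ ∣ ℓ ^ k :=
  _root_.dvd_pow_self ℓ c.hk.ne'

theorem IsAdm.ne_l {p ℓ k q : ℕ} (c : Ctx p ℓ k) (h : IsAdm p (ℓ ^ k) q) : q ≠ ℓ := by
  rintro rfl
  have h1 := Nat.le_of_dvd (by have := h.prime.two_le; omega)
    (c.dvd_pow_self.trans h.dvd)
  have := h.prime.two_le
  omega

variable {Ω : Type*} [Field Ω] [CharZero Ω] [IsAlgClosed Ω] [Algebra.IsAlgebraic ℚ Ω] {p : ℕ}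

variable (Ω p) in
/-- The norm to the plus field of `ζ_p w - 1`. -/
def hFun (w : Ω) : Ω := w ^ 2 - cp Ω p * w + 1

theorem hFun_eq (w : Ω) :
    hFun Ω p w = (1 - zr Ω p * w) * (1 - (zr Ω p)⁻¹ * w) := by
  have h : zr Ω p * (zr Ω p)⁻¹ = 1 := mul_inv_cancel₀ (zr_ne_zero Ω p)
  rw [hFun, cp]
  linear_combination (-w ^ 2) * h

theorem zr_mul_ne_one (hp : p.Prime) {u : Ω} {m : ℕ} (hm : ¬ p ∣ m) (hu : u ^ m = 1)
    {x : Ω} (hx : IsPrimitiveRoot x p) : x * u ≠ 1 := fun h => hm <| hx.dvd_of_pow_eq_one m <| by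
  rw [show x = u⁻¹ from eq_inv_of_mul_eq_one_left h, inv_pow, hu, inv_one]

theorem hFun_ne_zero (hp : p.Prime) {u : Ω} {m : ℕ} (hm : ¬ p ∣ m) (hu : u ^ m = 1) :
    hFun Ω p u ≠ 0 := by
  rw [hFun_eq]
  exact mul_ne_zero
    (sub_ne_zero.2 fun h => zr_mul_ne_one hp hm hu (zr_spec Ω hp.ne_zero) h.symm)
    (sub_ne_zero.2 fun h => zr_mul_ne_one hp hm hu (zr_spec Ω hp.ne_zero).inv h.symm)

theorem map_hFun {σ : Ω →+* Ω} (hσ : σ (cp Ω p) = cp Ω p) (w : Ω) :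
    σ (hFun Ω p w) = hFun Ω p (σ w) := by
  simp only [hFun, map_add, map_sub, map_mul, map_pow, map_one, hσ]

theorem zr_pow_sign {q : ℕ} (hs : (q : ZMod p) = 1 ∨ (q : ZMod p) = -1) :
    zr Ω p ^ q = zr Ω p ∨ zr Ω p ^ q = (zr Ω p)⁻¹ := by
  rcases hs with h | h
  · left
    have h' : ((q : ℕ) : ZMod p) = ((1 : ℕ) : ZMod p) := by rw [h, Nat.cast_one]
    rw [zr_pow_congr Ω ((ZMod.natCast_eq_natCast_iff _ _ _).1 h'), pow_one]
  · right
    refine eq_inv_of_mul_eq_one_left ?_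
    have h' : ((q + 1 : ℕ) : ZMod p) = ((0 : ℕ) : ZMod p) := by
      rw [Nat.cast_add, h, Nat.cast_one, Nat.cast_zero, neg_add_cancel]
    rw [← pow_succ, zr_pow_congr Ω ((ZMod.natCast_eq_natCast_iff _ _ _).1 h'), pow_zero]

/-- **The norm relation**. -/
theorem prod_hFun_mul {q : ℕ} (hq : q.Prime) (hs : (q : ZMod p) = 1 ∨ (q : ZMod p) = -1)
    (x : Ω) :
    (∏ i ∈ range (q - 1), hFun Ω p (x * zr Ω q ^ gen q ^ i)) * hFun Ω p x =
      hFun Ω p (x ^ q) := by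
  have hprim := zr_spec Ω hq.ne_zero
  set Z := Polynomial.nthRootsFinset q (1 : Ω)
  have h1 : (1 : Ω) ∈ Z := (Polynomial.mem_nthRootsFinset hq.pos _).2 (one_pow _)
  have himg : (range (q - 1)).image (fun i => zr Ω q ^ gen q ^ i) = Z.erase 1 := by
    refine Finset.eq_of_subset_of_card_le ?_ ?_
    · intro y hy
      obtain ⟨i, -, rfl⟩ := Finset.mem_image.1 hy
      refine Finset.mem_erase.2 ⟨fun h => not_dvd_gen_pow hq i (hprim.dvd_of_pow_eq_one _ h), ?_⟩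
      rw [Polynomial.mem_nthRootsFinset hq.pos, pow_right_comm, zr_pow_self, one_pow]
    · rw [Finset.card_erase_of_mem h1, hprim.card_nthRootsFinset, Finset.card_image_of_injOn,
        Finset.card_range]
      intro i hi j hj h
      refine gen_pow_inj hq (Finset.mem_range.1 hi) (Finset.mem_range.1 hj) ?_
      have h' := (hprim.isOfFinOrder hq.ne_zero).pow_eq_pow_iff_modEq.1
        (show zr Ω q ^ gen q ^ i = zr Ω q ^ gen q ^ j from h)
      rwa [← hprim.eq_orderOf] at h'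
  have hinj : Set.InjOn (fun i => zr Ω q ^ gen q ^ i) ↑(range (q - 1)) := by
    intro i hi j hj h
    refine gen_pow_inj hq (Finset.mem_range.1 hi) (Finset.mem_range.1 hj) ?_
    have h' := (hprim.isOfFinOrder hq.ne_zero).pow_eq_pow_iff_modEq.1
      (show zr Ω q ^ gen q ^ i = zr Ω q ^ gen q ^ j from h)
    rwa [← hprim.eq_orderOf] at h'
  rw [← Finset.prod_image (f := fun η => hFun Ω p (x * η)) hinj, himg]
  conv_lhs => arg 2; rw [← mul_one x]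
  rw [Finset.prod_erase_mul Z (fun η => hFun Ω p (x * η)) h1]
  have hone : ∀ y : Ω, ∏ η ∈ Z, (1 - y * η) = 1 - y ^ q := fun y => by
    have := hprim.pow_sub_pow_eq_prod_sub_mul 1 y hq.pos
    rw [one_pow] at this
    rw [this]
    exact Finset.prod_congr rfl fun η _ => by rw [mul_comm η y]
  simp only [hFun_eq, ← mul_assoc]
  rw [Finset.prod_mul_distrib, hone, hone, mul_pow, mul_pow, inv_pow]
  rcases zr_pow_sign (Ω := Ω) hs with h | h
  · rw [h]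
  · rw [h, inv_inv]; ring

variable (Ω) in
/-- The exponent vector, extended by zero. -/
def getJ (T : Finset ℕ) (j : ∀ q ∈ T, ℕ) (q : ℕ) : ℕ := if h : q ∈ T then j q h else 0

variable (Ω) in
/-- The root at an exponent vector. -/
def pt (T : Finset ℕ) (j : ∀ q ∈ T, ℕ) : Ω := ∏ q ∈ T, zr Ω q ^ gen q ^ getJ T j q

/-- The weight of an exponent vector. -/
def wt (T : Finset ℕ) (j : ∀ q ∈ T, ℕ) : ℕ := ∏ q ∈ T, getJ T j q

variable (Ω p) in
/-- **The derivative.** -/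
def dT (T : Finset ℕ) (w : Ω) : Ω :=
  ∏ j ∈ T.pi (fun q => range (q - 1)), hFun Ω p (w * pt Ω T j) ^ wt T j

theorem pt_pow_prod (T : Finset ℕ) (j : ∀ q ∈ T, ℕ) : pt Ω T j ^ (∏ q ∈ T, q) = 1 := by
  rw [pt, ← Finset.prod_pow]
  refine Finset.prod_eq_one fun q hq => ?_
  obtain ⟨c, hc⟩ := Finset.dvd_prod_of_mem (fun s : ℕ => s) hq
  rw [hc, ← pow_mul, mul_left_comm, pow_mul, zr_pow_self, one_pow]

theorem not_dvd_prod (hp : p.Prime) {T : Finset ℕ} (hT : ∀ q ∈ T, q.Prime) (hpT : p ∉ T) :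
    ¬ p ∣ ∏ q ∈ T, q := by
  rw [hp.prime.dvd_finsetProd_iff]
  rintro ⟨q, hq, h⟩
  exact hpT (((Nat.prime_dvd_prime_iff_eq hp (hT q hq)).1 h) ▸ hq)

theorem dT_ne_zero (hp : p.Prime) {T : Finset ℕ} (hT : ∀ q ∈ T, q.Prime) (hpT : p ∉ T)
    {w : Ω} {m : ℕ} (hm : ¬ p ∣ m) (hw : w ^ m = 1) : dT Ω p T w ≠ 0 := by
  refine Finset.prod_ne_zero_iff.2 fun j _ => pow_ne_zero _ ?_
  refine hFun_ne_zero hp (m := m * ∏ q ∈ T, q) ?_ ?_
  · rw [hp.dvd_mul, not_or]; exact ⟨hm, not_dvd_prod hp hT hpT⟩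
  · rw [mul_pow, pow_mul, hw, one_pow, one_mul, mul_comm m, pow_mul, pt_pow_prod, one_pow]

theorem hFun_mem {S : Finset ℕ} {w : Ω} (hw : w ∈ plusField Ω p S) :
    hFun Ω p w ∈ plusField Ω p S :=
  add_mem (sub_mem (pow_mem hw 2) (mul_mem (cp_mem_plusField S) hw)) (one_mem _)

theorem dT_mem {T S : Finset ℕ} (hTS : T ⊆ S) {w : Ω} (hw : w ∈ plusField Ω p S) :
    dT Ω p T w ∈ plusField Ω p S :=
  prod_mem fun j _ => pow_mem (hFun_mem (mul_mem hw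
    (prod_mem fun q hq => pow_mem (zr_mem_plusField (hTS hq)) _))) _

theorem dT_empty (w : Ω) : dT Ω p ∅ w = hFun Ω p w := by
  simp [dT, pt, wt]

theorem dT_insert {T : Finset ℕ} {q : ℕ} (hq : q ∉ T) (w : Ω) :
    dT Ω p (insert q T) w =
      ∏ i ∈ range (q - 1), dT Ω p T (w * zr Ω q ^ gen q ^ i) ^ i := by
  rw [dT, Finset.pi_insert hq, Finset.prod_biUnion]
  · refine Finset.prod_congr rfl fun i _ => ?_
    rw [Finset.prod_image ((Finset.Pi.cons_injective hq).injOn), dT, ← Finset.prod_pow]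
    refine Finset.prod_congr rfl fun j hj => ?_
    have hget : ∀ s ∈ T, getJ (insert q T) (Finset.Pi.cons T q i j) s = getJ T j s := by
      intro s hs
      rw [getJ, getJ, dif_pos (Finset.mem_insert_of_mem hs), dif_pos hs,
        Finset.Pi.cons_ne (by rintro rfl; exact hq hs)]
    have hgetq : getJ (insert q T) (Finset.Pi.cons T q i j) q = i := by
      rw [getJ, dif_pos (Finset.mem_insert_self q T), Finset.Pi.cons_same]
    rw [pt, pt, wt, wt, Finset.prod_insert hq, Finset.prod_insert hq, hgetq,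
      Finset.prod_congr rfl (fun s hs => by rw [hget s hs]),
      Finset.prod_congr rfl (g := fun s => getJ T j s) hget, mul_comm i, pow_mul, mul_assoc]
  · intro i _ i' _ hne
    refine Finset.disjoint_left.2 fun x hx hx' => hne ?_
    obtain ⟨a, -, rfl⟩ := Finset.mem_image.1 hx
    obtain ⟨b, -, hb⟩ := Finset.mem_image.1 hx'
    have h := congrFun (congrFun hb q) (Finset.mem_insert_self q T)
    rw [Finset.Pi.cons_same, Finset.Pi.cons_same] at h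
    exact h.symm

theorem map_dT {σ : Ω →+* Ω} (hσ : σ (cp Ω p) = cp Ω p) {T : Finset ℕ}
    (hfix : ∀ q ∈ T, σ (zr Ω q) = zr Ω q) (w : Ω) :
    σ (dT Ω p T w) = dT Ω p T (σ w) := by
  rw [dT, dT, map_prod]
  refine Finset.prod_congr rfl fun j _ => ?_
  rw [map_pow, map_hFun hσ, map_mul]
  refine congrArg (fun y => hFun Ω p (σ w * y) ^ wt T j) ?_
  rw [pt, map_prod]
  exact Finset.prod_congr rfl fun q hq => by rw [map_pow, hfix q hq]

/-- The norm of a slice. -/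
theorem prod_dT_mul {T : Finset ℕ} {q : ℕ} (hq : q.Prime)
    (hs : (q : ZMod p) = 1 ∨ (q : ZMod p) = -1) {φ : Ω →+* Ω} (hφc : φ (cp Ω p) = cp Ω p)
    (hφ : ∀ s ∈ T, φ (zr Ω s) = zr Ω s ^ q) :
    (∏ i ∈ range (q - 1), dT Ω p T (zr Ω q ^ gen q ^ i)) * dT Ω p T 1 = φ (dT Ω p T 1) := by
  simp only [dT, map_prod, one_mul]
  rw [Finset.prod_comm, ← Finset.prod_mul_distrib]
  refine Finset.prod_congr rfl fun j _ => ?_
  rw [Finset.prod_pow, ← mul_pow, map_pow, map_hFun hφc]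
  congr 1
  rw [Finset.prod_congr rfl fun i _ => by rw [mul_comm (zr Ω q ^ gen q ^ i)],
    prod_hFun_mul hq hs]
  congr 1
  rw [pt, map_prod, ← Finset.prod_pow]
  exact Finset.prod_congr rfl fun s hs => by rw [map_pow, hφ s hs, ← pow_mul, ← pow_mul, mul_comm]

theorem prod_shift {A : Type*} [CommMonoid A] (a : ℕ → A) {n : ℕ} (h : a n = a 0) :
    (∏ i ∈ range n, a (i + 1) ^ i) * ∏ i ∈ range n, a i =
      (∏ i ∈ range n, a i ^ i) * a 0 ^ n := by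
  have h1 : ∏ i ∈ range n, a (i + 1) = ∏ i ∈ range n, a i := by
    cases n with
    | zero => rfl
    | succ m =>
      rw [Finset.prod_range_succ, h]
      exact (Finset.prod_range_succ' a m).symm
  rw [← h1, ← Finset.prod_mul_distrib,
    Finset.prod_congr rfl fun i _ => (pow_succ (a (i + 1)) i).symm]
  have h2 := Finset.prod_range_succ' (fun i => a i ^ i) n
  rw [pow_zero, mul_one, Finset.prod_range_succ, h] at h2
  exact h2.symm

/-- **The derivative relation** at a prime of `T`. -/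
theorem derivative_relation {T : Finset ℕ} {q : ℕ} (hqT : q ∉ T) (hq : q.Prime)
    (hs : (q : ZMod p) = 1 ∨ (q : ZMod p) = -1) {σ φ : Ω →+* Ω}
    (hσc : σ (cp Ω p) = cp Ω p) (hσ : ∀ s ∈ T, σ (zr Ω s) = zr Ω s)
    (hσq : σ (zr Ω q) = zr Ω q ^ gen q)
    (hφc : φ (cp Ω p) = cp Ω p) (hφ : ∀ s ∈ T, φ (zr Ω s) = zr Ω s ^ q) :
    σ (dT Ω p (insert q T) 1) * φ (dT Ω p T 1) =
      dT Ω p (insert q T) 1 * dT Ω p T (zr Ω q) ^ (q - 1) * dT Ω p T 1 := by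
  set a : ℕ → Ω := fun i => dT Ω p T (zr Ω q ^ gen q ^ i)
  have hn : a (q - 1) = a 0 := by
    show dT Ω p T _ = dT Ω p T _
    rw [zr_pow_congr Ω (gen_pow_modEq_one hq), pow_zero]
  have hd : dT Ω p (insert q T) 1 = ∏ i ∈ range (q - 1), a i ^ i := by
    rw [dT_insert hqT]; simp only [one_mul, a]
  have hσd : σ (dT Ω p (insert q T) 1) = ∏ i ∈ range (q - 1), a (i + 1) ^ i := by
    rw [hd, map_prod]
    refine Finset.prod_congr rfl fun i _ => ?_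
    show σ (dT Ω p T _ ^ i) = dT Ω p T _ ^ i
    rw [map_pow, map_dT hσc hσ, map_pow, hσq, ← pow_mul, ← pow_succ']
  rw [← prod_dT_mul hq hs hφc hφ, ← mul_assoc, hσd, prod_shift a hn, hd]
  simp only [a, pow_zero, pow_one]

variable (Ω p) in
/-- The derivative is invariant modulo `M`-th powers under `σ`. -/
def InvMod (M : ℕ) (T S : Finset ℕ) (σ : Ω →+* Ω) : Prop :=
  ∃ δ ∈ plusField Ω p S, σ (dT Ω p T 1) = dT Ω p T 1 * δ ^ M

/-- The automorphisms needed: `σ_q` and the Frobenius of `q`. -/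
theorem exists_sigma_phi (hp : p.Prime) {T : Finset ℕ} {q : ℕ} (hqT : q ∉ T) (hqp : q ≠ p)
    (hT : ∀ s ∈ T, s.Prime) (hpT : p ∉ T) (hq : q.Prime) :
    ∃ σ φ : Ω ≃ₐ[ℚ] Ω, σ (cp Ω p) = cp Ω p ∧ σ (zr Ω p) = zr Ω p ∧
      (∀ s ∈ T, σ (zr Ω s) = zr Ω s) ∧ σ (zr Ω q) = zr Ω q ^ gen q ∧
      φ (cp Ω p) = cp Ω p ∧ (∀ s ∈ T, φ (zr Ω s) = zr Ω s ^ q) := by
  have hS : ∀ s ∈ insert p (insert q T), s.Prime := by
    intro s hs
    rcases Finset.mem_insert.1 hs with rfl | hs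
    · exact hp
    rcases Finset.mem_insert.1 hs with rfl | hs
    · exact hq
    · exact hT s hs
  obtain ⟨σ, hσ⟩ := exists_aut (Ω := Ω) hS (fun s => if s = q then gen q else 1) fun s hs => by
    split_ifs with h
    · subst h; exact not_dvd_gen hq
    · exact (hS s hs).not_dvd_one
  obtain ⟨φ, hφ⟩ := exists_aut (Ω := Ω) hS (fun s => if s ∈ T then q else 1) fun s hs => by
    split_ifs with h
    · exact fun hd => hqT (((Nat.prime_dvd_prime_iff_eq (hS s hs) hq).1 hd) ▸ h)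
    · exact (hS s hs).not_dvd_one
  have h1 : σ (zr Ω p) = zr Ω p := by
    rw [hσ p (Finset.mem_insert_self _ _), if_neg (Ne.symm hqp), pow_one]
  have h2 : φ (zr Ω p) = zr Ω p := by
    rw [hφ p (Finset.mem_insert_self _ _), if_neg hpT, pow_one]
  refine ⟨σ, φ, by rw [cp, map_add, map_inv₀, h1], h1, fun s hs => ?_, ?_,
    by rw [cp, map_add, map_inv₀, h2], fun s hs => ?_⟩
  · rw [hσ s (by simp [hs]), if_neg (fun (h : s = q) => hqT (h ▸ hs)), pow_one]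
  · rw [hσ q (by simp), if_pos rfl]
  · rw [hφ s (by simp [hs]), if_pos hs]

theorem prime_of_adm {M : ℕ} {S : Finset ℕ} (hS : ∀ q ∈ S, IsAdm p M q) :
    ∀ q ∈ S, q.Prime := fun q hq => (hS q hq).prime

theorem p_notMem {M : ℕ} (hp : p.Prime) {S : Finset ℕ} (hS : ∀ q ∈ S, IsAdm p M q) : p ∉ S :=
  fun h => (hS p h).ne_p hp rfl

/-- **Invariance of the derivative modulo `M`-th powers.** -/
theorem exists_derivative_gal {M : ℕ} (hp : p.Prime) (T : Finset ℕ) :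
    ∀ S : Finset ℕ, T ⊆ S → (∀ q ∈ S, IsAdm p M q) →
      ∀ σ : Ω ≃ₐ[ℚ] Ω, σ (cp Ω p) = cp Ω p → InvMod Ω p M T S (σ : Ω →+* Ω) := by
  induction T using Finset.strongInduction with
  | _ T IHT =>
  intro S hTS hS
  have hcomp : ∀ σ τ : Ω ≃ₐ[ℚ] Ω, σ (cp Ω p) = cp Ω p → InvMod Ω p M T S (σ : Ω →+* Ω) →
      InvMod Ω p M T S (τ : Ω →+* Ω) → InvMod Ω p M T S ((σ * τ : Ω ≃ₐ[ℚ] Ω) : Ω →+* Ω) := by
    rintro σ τ hc ⟨δ, hδ, h⟩ ⟨ε, hε, h'⟩
    refine ⟨δ * σ ε, mul_mem hδ (map_mem_plusField σ hc (prime_of_adm hS) hε), ?_⟩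
    show σ (τ (dT Ω p T 1)) = _
    rw [show τ (dT Ω p T 1) = _ from h', map_mul, map_pow, show σ (dT Ω p T 1) = _ from h,
      mul_pow, mul_assoc]
  suffices key : ∀ (U : Finset ℕ) (σ : Ω ≃ₐ[ℚ] Ω), σ (cp Ω p) = cp Ω p →
      (T.filter fun q => σ (zr Ω q) ≠ zr Ω q) = U → InvMod Ω p M T S (σ : Ω →+* Ω) from
    fun σ hσ => key _ σ hσ rfl
  intro U
  induction U using Finset.strongInduction with
  | _ U IHU =>
  intro σ hσ hU
  rcases U.eq_empty_or_nonempty with rfl | ⟨q, hq⟩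
  · refine ⟨1, one_mem _, ?_⟩
    rw [one_pow, mul_one, map_dT (σ := (σ : Ω →+* Ω)) hσ (fun q hq => ?_), map_one]
    by_contra h
    exact Finset.notMem_empty q (hU ▸ Finset.mem_filter.2 ⟨hq, h⟩)
  have hqf : q ∈ T.filter fun q => σ (zr Ω q) ≠ zr Ω q := hU.symm ▸ hq
  obtain ⟨hqT, hmove⟩ := Finset.mem_filter.1 hqf
  have hqa := hS q (hTS hqT)
  set T' := T.erase q with hT'
  have hins : insert q T' = T := Finset.insert_erase hqT
  have hT'S : T' ⊆ S := (Finset.erase_subset _ _).trans hTS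
  obtain ⟨τ, φ, hτc, -, hτT, hτq, hφc, hφT⟩ := exists_sigma_phi (Ω := Ω) hp
    (Finset.notMem_erase q T) (hqa.ne_p hp) (fun s hs => (hS s (hT'S hs)).prime)
    (fun h => p_notMem hp hS (hT'S h)) hqa.prime
  -- the generator at `q`
  have hAτ : InvMod Ω p M T S (τ : Ω →+* Ω) := by
    obtain ⟨δ, hδ, hδe⟩ := IHT T' (Finset.erase_ssubset hqT) S hT'S hS φ hφc
    obtain ⟨e, he⟩ := hqa.dvd
    have hrel := derivative_relation (σ := (τ : Ω →+* Ω)) (φ := (φ : Ω →+* Ω))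
      (Finset.notMem_erase q T) hqa.prime hqa.sign hτc hτT hτq hφc hφT
    rw [hins, hδe] at hrel
    refine ⟨dT Ω p T' (zr Ω q) ^ e / δ,
      div_mem (pow_mem (dT_mem hT'S (zr_mem_plusField (hTS hqT))) _) hδ, ?_⟩
    have hpT' : p ∉ T' := fun h => p_notMem hp hS (hT'S h)
    have hd0 : dT Ω p T' (1 : Ω) ≠ 0 :=
      dT_ne_zero hp (fun s hs => (hS s (hT'S hs)).prime) hpT' (m := 1) hp.not_dvd_one (one_pow 1)
    have hδ0 : δ ^ M ≠ 0 := fun h => by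
      rw [h, mul_zero] at hδe
      exact hd0 (φ.injective (hδe.trans (map_zero φ).symm))
    rw [div_pow, ← pow_mul, mul_comm e M, ← he, mul_div_assoc', eq_div_iff hδ0]
    refine mul_right_cancel₀ hd0 ?_
    rw [← hrel]
    ring
  obtain ⟨a, ha, hna⟩ := exists_map_zr (σ : Ω →+* Ω) hqa.prime
  obtain ⟨i, -, hi⟩ := exists_gen_pow_modEq hqa.prime hna
  have hτi : ∀ i : ℕ, (τ ^ i) (cp Ω p) = cp Ω p ∧ (∀ s ∈ T', (τ ^ i) (zr Ω s) = zr Ω s) ∧
      (τ ^ i) (zr Ω q) = zr Ω q ^ gen q ^ i ∧ InvMod Ω p M T S ((τ ^ i : Ω ≃ₐ[ℚ] Ω) : Ω →+* Ω) := by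
    intro i
    induction i with
    | zero =>
      exact ⟨rfl, fun _ _ => rfl, by rw [pow_zero, pow_zero, pow_one]; rfl,
        ⟨1, one_mem _, by rw [one_pow, mul_one]; rfl⟩⟩
    | succ i ih =>
      obtain ⟨h1, h2, h3, h4⟩ := ih
      rw [pow_succ']
      refine ⟨by rw [AlgEquiv.mul_apply, h1, hτc], fun s hs => ?_, ?_, hcomp _ _ hτc hAτ h4⟩
      · rw [AlgEquiv.mul_apply, h2 s hs, hτT s hs]
      · rw [AlgEquiv.mul_apply, h3, map_pow, hτq, ← pow_mul, ← pow_succ']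
  set σ' := (τ ^ i)⁻¹ * σ
  have hσ'c : σ' (cp Ω p) = cp Ω p := by
    show (τ ^ i).symm (σ (cp Ω p)) = _
    rw [hσ, AlgEquiv.symm_apply_eq, (hτi i).1]
  have hlt : (T.filter fun s => σ' (zr Ω s) ≠ zr Ω s) ⊂ U := by
    rw [Finset.ssubset_iff_of_subset]
    · refine ⟨q, hq, fun h => (Finset.mem_filter.1 h).2 ?_⟩
      show (τ ^ i).symm (σ (zr Ω q)) = _
      rw [AlgEquiv.symm_apply_eq, (hτi i).2.2.1, show σ (zr Ω q) = zr Ω q ^ a from ha,
        zr_pow_congr Ω hi]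
    · intro s hs
      obtain ⟨hsT, hsm⟩ := Finset.mem_filter.1 hs
      rw [← hU, Finset.mem_filter]
      refine ⟨hsT, fun h => hsm ?_⟩
      show (τ ^ i).symm (σ (zr Ω s)) = _
      have hsq : s ≠ q := fun e => hmove (e ▸ h)
      rw [h, AlgEquiv.symm_apply_eq, (hτi i).2.1 s (Finset.mem_erase.2 ⟨hsq, hsT⟩)]
  have := hcomp _ _ (hτi i).1 (hτi i).2.2.2 (IHU _ hlt σ' hσ'c rfl)
  rwa [mul_inv_cancel_left] at this

variable {ℓ k : ℕ}

/-- `M`-th roots in the plus field are unique. -/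
theorem eq_of_pow_eq_pow (c : Ctx p ℓ k) {S : Finset ℕ} (hS : ∀ q ∈ S, IsAdm p (ℓ ^ k) q)
    {x y : Ω} (hx : x ∈ plusField Ω p S) (hy : y ∈ plusField Ω p S)
    (h : x ^ ℓ ^ k = y ^ ℓ ^ k) : x = y := by
  rcases eq_or_ne y 0 with rfl | hy0
  · rw [zero_pow (pow_ne_zero _ c.hl.ne_zero)] at h
    exact eq_zero_of_pow_eq_zero h
  have := eq_one_of_pow_eq_one c.hp (prime_of_adm hS) (p_notMem c.hp hS) c.hl c.hl2
    (fun hl => (hS ℓ hl).ne_l c rfl) (div_mem hx hy) (k := k)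
    (by rw [div_pow, h, div_self (pow_ne_zero _ hy0)])
  exact (div_eq_one_iff_eq hy0).1 this

variable (Ω p) in
/-- **The Kolyvagin class**: `x ∈ ℚ(ζ_p)⁺` is the derivative up to an `M`-th power. -/
def IsKappa (M : ℕ) (T : Finset ℕ) (x : Ω) : Prop :=
  x ∈ plusField Ω p ∅ ∧ ∃ S : Finset ℕ, T ⊆ S ∧ (∀ q ∈ S, IsAdm p M q) ∧
    ∃ γ ∈ plusField Ω p S, dT Ω p T 1 = x * γ ^ M

theorem IsKappa.ne_zero {M : ℕ} (hp : p.Prime) {T : Finset ℕ} {x : Ω}
    (h : IsKappa Ω p M T x) : x ≠ 0 := by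
  rintro rfl
  obtain ⟨-, S, hTS, hS, γ, -, he⟩ := h
  rw [zero_mul] at he
  exact dT_ne_zero hp (fun s hs => (hS s (hTS hs)).prime)
    (fun h => p_notMem hp hS (hTS h)) (m := 1) hp.not_dvd_one (one_pow 1) he

/-- **Uniqueness** of the class. -/
theorem IsKappa.exists_pow_mul (c : Ctx p ℓ k) {T : Finset ℕ} {x y : Ω}
    (hx : IsKappa Ω p (ℓ ^ k) T x) (hy : IsKappa Ω p (ℓ ^ k) T y) :
    ∃ w ∈ plusField Ω p ∅, y = x * w ^ ℓ ^ k := by
  have hx0 := hx.ne_zero c.hp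
  have hy0 := hy.ne_zero c.hp
  obtain ⟨hxm, S, hTS, hS, γ, hγ, he⟩ := hx
  obtain ⟨hym, S', -, hS', γ', hγ', he'⟩ := hy
  set U := S ∪ S'
  have hU : ∀ q ∈ U, IsAdm p (ℓ ^ k) q := fun q hq =>
    (Finset.mem_union.1 hq).elim (hS q) (hS' q)
  rcases eq_or_ne γ' 0 with rfl | hγ'0
  · exfalso
    rw [zero_pow (pow_ne_zero _ c.hl.ne_zero), mul_zero] at he'
    exact dT_ne_zero c.hp (fun s hs => (hS s (hTS hs)).prime)
      (fun h => p_notMem c.hp hS (hTS h)) (m := 1) c.hp.not_dvd_one (one_pow 1) he'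
  have hw : γ / γ' ∈ plusField Ω p U :=
    div_mem (plusField_mono Finset.subset_union_left hγ)
      (plusField_mono Finset.subset_union_right hγ')
  have hwM : (γ / γ') ^ ℓ ^ k = y / x := by
    rw [div_pow, div_eq_div_iff (pow_ne_zero _ hγ'0) hx0]
    rw [he] at he'
    linear_combination he'
  refine ⟨γ / γ', mem_base_iff.2 fun σ hσ => ?_,
    by rw [hwM, mul_div_cancel₀ _ hx0]⟩
  refine eq_of_pow_eq_pow c hU (map_mem_plusField σ hσ (prime_of_adm hU) hw) hw ?_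
  rw [← map_pow, hwM, map_div₀, mem_base_iff.1 hym σ hσ, mem_base_iff.1 hxm σ hσ]

/-- **Existence of the Kolyvagin class.** -/
theorem exists_isKappa (c : Ctx p ℓ k) {T : Finset ℕ} (hT : ∀ q ∈ T, IsAdm p (ℓ ^ k) q) :
    ∃ x : Ω, IsKappa Ω p (ℓ ^ k) T x := by
  haveI := isGalois_rat (Ω := Ω)
  have hP : ∀ q ∈ insert p T, q.Prime := fun q hq =>
    (Finset.mem_insert.1 hq).elim (fun h => h ▸ c.hp) (prime_of_adm hT q)
  haveI : NeZero (∏ q ∈ insert p T, q) :=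
    ⟨(Finset.prod_pos fun q hq => (hP q hq).pos).ne'⟩
  haveI := fullField_isCyclotomic (Ω := Ω) hP
  haveI : FiniteDimensional ℚ (fullField Ω p T) :=
    IsCyclotomicExtension.finiteDimensional {∏ q ∈ insert p T, q} ℚ _
  haveI : IsGalois ℚ (fullField Ω p T) :=
    IsCyclotomicExtension.isGalois {∏ q ∈ insert p T, q} ℚ _
  set L := fullField Ω p T
  set d := dT Ω p T (1 : Ω)
  have hd0 : d ≠ 0 := dT_ne_zero c.hp (prime_of_adm hT) (p_notMem c.hp hT) (m := 1)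
    c.hp.not_dvd_one (one_pow 1)
  have hdP : d ∈ plusField Ω p T := dT_mem subset_rfl (one_mem _)
  choose δ hδ hδe using fun σ : {σ : Ω ≃ₐ[ℚ] Ω // σ (cp Ω p) = cp Ω p} =>
    exists_derivative_gal (M := ℓ ^ k) c.hp T T subset_rfl hT σ.1 σ.2
  have hcp : cp Ω p ∈ L := plusField_le_fullField T (cp_mem_plusField T)
  let H : Finset (L ≃ₐ[ℚ] L) := Finset.univ.filter fun τ => τ ⟨cp Ω p, hcp⟩ = ⟨cp Ω p, hcp⟩
  let ext : (L ≃ₐ[ℚ] L) → (Ω ≃ₐ[ℚ] Ω) := fun τ => τ.liftNormal Ω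
  have hext : ∀ (τ : L ≃ₐ[ℚ] L) (y : L), ext τ (y : Ω) = (τ y : L) :=
    fun τ y => τ.liftNormal_commutes Ω y
  have hH : ∀ τ ∈ H, ext τ (cp Ω p) = cp Ω p := fun τ hτ =>
    (hext τ ⟨cp Ω p, hcp⟩).trans (congrArg Subtype.val (Finset.mem_filter.1 hτ).2)
  let f : (L ≃ₐ[ℚ] L) → Ω := fun τ => if h : τ ∈ H then δ ⟨ext τ, hH τ h⟩ else 0
  have hf : ∀ τ ∈ H, f τ ∈ plusField Ω p T ∧ ext τ d = d * f τ ^ ℓ ^ k := fun τ hτ => by
    simp only [f, dif_pos hτ]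
    exact ⟨hδ _, hδe ⟨ext τ, hH τ hτ⟩⟩
  have hf0 : ∀ τ ∈ H, f τ ≠ 0 := fun τ hτ h => by
    have h' := (hf τ hτ).2
    rw [h, zero_pow (pow_ne_zero _ c.hl.ne_zero), mul_zero] at h'
    exact hd0 ((ext τ).injective (h'.trans (map_zero _).symm))
  -- some Poincaré series does not vanish
  obtain ⟨x, hx⟩ : ∃ x : L, ∑ τ ∈ H, f τ * ((τ x : L) : Ω) ≠ 0 := by
    by_contra! h0
    have hli : LinearIndependent Ω fun τ : L ≃ₐ[ℚ] L =>
        (((L.val : L →+* Ω).comp (τ : L →+* L)).toMonoidHom : L → Ω) :=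
      (linearIndependent_monoidHom L Ω).comp
        (fun τ : L ≃ₐ[ℚ] L => ((L.val : L →+* Ω).comp (τ : L →+* L)).toMonoidHom)
        fun τ τ' h => AlgEquiv.ext fun y => Subtype.ext (DFunLike.congr_fun h y)
    have h1 : (1 : L ≃ₐ[ℚ] L) ∈ H := Finset.mem_filter.2 ⟨Finset.mem_univ _, rfl⟩
    refine hf0 1 h1 (linearIndependent_iff'.1 hli H f ?_ 1 h1)
    funext y
    simpa [Finset.sum_apply] using h0 y
  set b := ∑ τ ∈ H, f τ * ((τ x : L) : Ω) with hb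
  have hbL : b ∈ L := sum_mem fun τ hτ =>
    mul_mem (plusField_le_fullField T (hf τ hτ).1) (τ x).2
  have hkey : ∀ σ : Ω ≃ₐ[ℚ] Ω, ∀ hσ : σ (cp Ω p) = cp Ω p, δ ⟨σ, hσ⟩ * σ b = b := by
    intro σ hσ
    set σL := σ.restrictNormal L
    have hσL : ∀ y : L, ((σL y : L) : Ω) = σ (y : Ω) := fun y =>
      AlgEquiv.restrictNormal_commutes σ L y
    have hmul : ∀ τ ∈ H, σL * τ ∈ H := fun τ hτ => Finset.mem_filter.2 ⟨Finset.mem_univ _, by
      rw [AlgEquiv.mul_apply, (Finset.mem_filter.1 hτ).2]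
      exact Subtype.ext (by rw [hσL]; exact hσ)⟩
    have hcoc : ∀ τ ∈ H, δ ⟨σ, hσ⟩ * σ (f τ) = f (σL * τ) := by
      intro τ hτ
      refine eq_of_pow_eq_pow c hT (mul_mem (hδ _) (map_mem_plusField σ hσ (prime_of_adm hT)
        (hf τ hτ).1)) (hf _ (hmul τ hτ)).1 (mul_left_cancel₀ hd0 ?_)
      rw [mul_pow, ← mul_assoc, ← (hf _ (hmul τ hτ)).2]
      have hd : d ∈ L := plusField_le_fullField T hdP
      have e1 : d * δ ⟨σ, hσ⟩ ^ ℓ ^ k = σ d := (hδe ⟨σ, hσ⟩).symm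
      rw [e1, ← map_pow, ← map_mul, ← (hf τ hτ).2, hext τ ⟨d, hd⟩, hext (σL * τ) ⟨d, hd⟩,
        AlgEquiv.mul_apply, hσL]
    rw [hb, map_sum, Finset.mul_sum]
    refine Finset.sum_bij (fun τ _ => σL * τ) hmul (fun _ _ _ _ h => mul_left_cancel h)
      (fun τ hτ => ⟨σL⁻¹ * τ, Finset.mem_filter.2 ⟨Finset.mem_univ _, ?_⟩, mul_inv_cancel_left _ _⟩)
      fun τ hτ => ?_
    · rw [AlgEquiv.mul_apply, (Finset.mem_filter.1 hτ).2]
      exact σL.injective ((σL.apply_symm_apply _).trans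
        (Subtype.ext (by rw [hσL]; exact hσ.symm)))
    · rw [map_mul, ← mul_assoc, hcoc τ hτ, AlgEquiv.mul_apply, hσL]
  refine ⟨d * b ^ ℓ ^ k, mem_base_iff.2 fun σ hσ => ?_, T, subset_rfl, hT, b⁻¹, ?_, ?_⟩
  · rw [map_mul, map_pow, show σ d = _ from hδe ⟨σ, hσ⟩, mul_assoc, ← mul_pow, hkey σ hσ]
  · refine inv_mem (mem_plusField_iff.2 fun σ hσ hfix => ?_)
    have h1 : σ d = d := mem_plusField_iff.1 hdP σ hσ hfix
    have h2 : δ ⟨σ, hσ⟩ = 1 := eq_of_pow_eq_pow c hT (hδ _) (one_mem _) <| by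
      refine mul_left_cancel₀ hd0 ?_
      rw [one_pow, mul_one]
      exact ((hδe ⟨σ, hσ⟩).symm.trans h1)
    simpa [h2] using hkey σ hσ
  · rw [inv_pow, mul_assoc, mul_inv_cancel₀ (pow_ne_zero _ hx), mul_one]

end FA.Kolyvagin
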