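import Fermat.Agent.Kolyvagin.Bound

/-!
# The equality of Gras from the bound

`gras_of_index`: if the classes modulo `ℓ ^ v` are at least `ℓ ^ v` and the Galois module generated
by `h = 2 - ζ_p - ζ_p⁻¹` in the `p`-units modulo `ℓ ^ k`, `2 v < k`, has index at most `ℓ ^ v`, then
in each primitive component the order of the classes is the index of the cyclotomic `p`-units.
-/

set_option autoImplicit false
set_option linter.unusedSectionVars false
set_option linter.style.haveILetI false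

noncomputable section

open scoped Classical Pointwise
open NumberField IsDedekindDomain FA.ArtinRec FA.AmbClass
open MonoidAlgebra (single)

namespace FA.Kolyvagin

/-- The elements that are units outside `p`. -/
def pUnits (F : Type*) [Field F] [NumberField F] (p : ℕ) : Subgroup Fˣ where
  carrier := {x | ∀ v : HeightOneSpectrum (𝓞 F), (p : 𝓞 F) ∉ v.asIdeal → ord v x = 0}
  one_mem' v _ := ord_one v
  mul_mem' {x y} hx hy v hv := by rw [ord_mul, hx v hv, hy v hv, add_zero]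
  inv_mem' {x} hx v hv := by rw [ord_inv, hx v hv, neg_zero]

/-- The `p`-units modulo `M`. -/
def pUnitsMod (F : Type*) [Field F] [NumberField F] (p M : ℕ) : AddSubgroup (Vq F M) :=
  (Subgroup.toAddSubgroup (pUnits F p)).map (mkq M)

variable {F : Type*} [Field F] [NumberField F]

theorem mem_pUnitsMod_iff {p M : ℕ} {z : Vq F M} :
    z ∈ pUnitsMod F p M ↔ ∃ x ∈ pUnits F p, vmk M x = z :=
  ⟨fun ⟨y, hy, h⟩ => ⟨Additive.toMul y, hy, h⟩, fun ⟨x, hx, h⟩ => ⟨Additive.ofMul x, hx, h⟩⟩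

theorem vmk_zpow (M : ℕ) (x : Fˣ) (n : ℤ) : vmk M (x ^ n) = n • vmk M x :=
  map_zsmul (mkq M) n (Additive.ofMul x)

theorem vmk_one (M : ℕ) : vmk M (1 : Fˣ) = 0 := map_zero (mkq M)

theorem vmk_prod (M : ℕ) {ι : Type*} (s : Finset ι) (f : ι → Fˣ) :
    vmk M (∏ i ∈ s, f i) = ∑ i ∈ s, vmk M (f i) := by
  rw [vmk, ofMul_prod, map_sum]
  rfl

/-- Over a totally real field the units of finite order are `M`-th powers, `M` odd. -/
theorem vmk_torsion [IsTotallyReal F] {M : ℕ} (hM : Odd M) {ζ : (𝓞 F)ˣ}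
    (hζ : ζ ∈ Units.torsion F) : vmk M (intUnits ζ) = 0 := by
  obtain ⟨n, hn, hpow⟩ := isOfFinOrder_iff_pow_eq_one.1 ((CommGroup.mem_torsion ζ).1 hζ)
  obtain ⟨a, m, hm, rfl⟩ := Nat.exists_eq_pow_mul_and_not_dvd hn.ne' 2 (by norm_num)
  have h1 : ∀ (j : ℕ) (y : F), y ^ (2 ^ j) = 1 → y = 1 ∨ y = -1 := by
    intro j
    induction j with
    | zero => intro y hy; exact Or.inl (by simpa using hy)
    | succ j ih =>
      intro y hy
      rw [pow_succ', pow_mul] at hy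
      rcases ih _ hy with h | h
      · exact (sq_eq_one_iff.1 h).imp id id
      · exfalso
        obtain ⟨φ⟩ : Nonempty (F →+* ℂ) := inferInstance
        have hreal : ComplexEmbedding.IsReal φ :=
          InfinitePlace.isReal_mk_iff.1 (IsTotallyReal.isReal _)
        have h2 := congrArg (fun t => (φ t).re) h
        have him : (φ y).im = 0 := Complex.conj_eq_iff_im.1 (RingHom.congr_fun hreal y)
        simp only [map_pow, map_mul, map_neg, map_one, Complex.neg_re, Complex.one_re, sq,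
          Complex.mul_re, him, mul_zero, sub_zero] at h2
        nlinarith [mul_self_nonneg (φ y).re]
  have hy : ((intUnits ζ : Fˣ) : F) ^ 2 ^ a = 1 := eq_one_of_odd_pow_eq_one
    (Nat.odd_iff.2 (by omega) : Odd m) (by
      rw [← pow_mul, ← Units.val_pow_eq_pow_val, ← map_pow, hpow, map_one, Units.val_one])
  refine vmk_eq_zero_iff.2 ⟨intUnits ζ, Units.ext ?_⟩
  rw [Units.val_pow_eq_pow_val]
  rcases h1 a _ hy with h | h <;> rw [h]
  · exact one_pow _
  · exact hM.neg_one_pow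

section base

variable [IsGalois ℚ F] [IsTotallyReal F] {Ω : Type*} [Field Ω] [CharZero Ω] [IsAlgClosed Ω]
  [Algebra.IsAlgebraic ℚ Ω] {ι : F →+* Ω} {p : ℕ}

/-- The generator of the prime over `p`. -/
theorem exists_ord_gen (hι : IsBase p ι) (hp : p.Prime) (hp2 : p ≠ 2) {h₀ : Fˣ}
    (hh₀ : ι h₀ = hFun Ω p 1) :
    ∃ P : HeightOneSpectrum (𝓞 F), (p : 𝓞 F) ∈ P.asIdeal ∧ ord P h₀ = 1 ∧
      ∀ v, v ≠ P → ord v h₀ = 0 ∧ (p : 𝓞 F) ∉ v.asIdeal := by
  obtain ⟨h, P, hh, hιh, hP, hPuniq⟩ := exists_prime_over_p hι hp hp2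
  obtain rfl : h₀ = intU h hh := Units.ext (ι.injective (hh₀.trans hιh.symm))
  obtain ⟨w, hw⟩ := exists_natCast_mem (F := F) hp.ne_one
  refine ⟨P, hPuniq w hw ▸ hw, ?_, fun v hv => ⟨(ord_intU_eq_zero_iff v hh).2 fun hm => hv ?_,
    fun h' => hv (hPuniq v h')⟩⟩
  · rw [ord_intU, ← hP, multiplicity_self, Nat.cast_one]
  · refine HeightOneSpectrum.ext (P.isMaximal.eq_of_le v.isPrime.ne_top ?_).symm
    rw [hP, Ideal.span_singleton_le_iff_mem]
    exact hm

theorem mem_pUnits_gen (hι : IsBase p ι) (hp : p.Prime) (hp2 : p ≠ 2) {h₀ : Fˣ}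
    (hh₀ : ι h₀ = hFun Ω p 1) : h₀ ∈ pUnits F p := by
  obtain ⟨P, hpP, -, hne⟩ := exists_ord_gen hι hp hp2 hh₀
  intro v hv
  exact (hne v fun h => hv (h ▸ hpP)).1

theorem rank_add_one_eq : Units.rank F + 1 = Module.finrank ℚ F := by
  have h := InfinitePlace.card_add_two_mul_card_eq_rank F
  have h0 := IsTotallyReal.nrComplexPlaces_eq_zero F
  have hpos := Fintype.card_pos (α := InfinitePlace F)
  have h1 := InfinitePlace.card_eq_nrRealPlaces_add_nrComplexPlaces F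
  rw [Units.rank]
  omega

/-- **The `p`-units modulo `M` are free of rank `[F : ℚ]`.** -/
theorem card_pUnitsMod (hι : IsBase p ι) (hp : p.Prime) (hp2 : p ≠ 2) {h₀ : Fˣ}
    (hh₀ : ι h₀ = hFun Ω p 1) {M : ℕ} (hM : Odd M) :
    Nat.card (pUnitsMod F p M) = M ^ Module.finrank ℚ F := by
  obtain ⟨P, hpP, hP1, hne⟩ := exists_ord_gen hι hp hp2 hh₀
  haveI : NeZero M := ⟨by rintro rfl; simp at hM⟩
  let Θ : ℤ × (Fin (Units.rank F) → ℤ) →+ Vq F M := AddMonoidHom.mk'
    (fun ae => ae.1 • vmk M h₀ + ∑ i, ae.2 i • vmk M (intUnits (Units.fundSystem F i)))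
    fun x y => by
      simp only [Prod.fst_add, Prod.snd_add, Pi.add_apply, add_zsmul, Finset.sum_add_distrib]
      abel
  have hΘ : ∀ a e, Θ (a, e) =
      vmk M (h₀ ^ a * intUnits (∏ i, Units.fundSystem F i ^ e i)) := fun a e => by
    rw [vmk_mul, vmk_zpow, map_prod, vmk_prod]
    simp only [map_zpow, vmk_zpow]
    rfl
  have hrange : Θ.range = pUnitsMod F p M := by
    refine le_antisymm ?_ ?_
    · rintro _ ⟨⟨a, e⟩, rfl⟩
      rw [hΘ, mem_pUnitsMod_iff]
      exact ⟨_, mul_mem (Subgroup.zpow_mem _ (mem_pUnits_gen hι hp hp2 hh₀) _)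
        fun v _ => ord_intUnits _ v, rfl⟩
    · intro z hz
      obtain ⟨x, hx, rfl⟩ := mem_pUnitsMod_iff.1 hz
      obtain ⟨u, hu⟩ := exists_intUnits_eq (x := x * (h₀ ^ ord P x)⁻¹) fun v => by
        rw [ord_mul, ord_inv, ord_zpow]
        rcases eq_or_ne v P with rfl | hv
        · rw [hP1]; ring
        · rw [(hne v hv).1, hx v (hne v hv).2]; ring
      obtain ⟨⟨ζ, e⟩, hue, -⟩ := Units.exist_unique_eq_mul_prod F u
      refine ⟨(ord P x, e), ?_⟩
      have hx' : h₀ ^ ord P x * intUnits u = x := by rw [hu, mul_comm, inv_mul_cancel_right]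
      rw [hΘ]
      conv_rhs => rw [← hx']
      rw [hue, map_mul, vmk_mul, vmk_mul, vmk_mul, vmk_torsion hM ζ.2, zero_add]
  let π : ℤ × (Fin (Units.rank F) → ℤ) →+ ZMod M × (Fin (Units.rank F) → ZMod M) :=
    (Int.castAddHom (ZMod M)).prodMap ((Int.castAddHom (ZMod M)).compLeft _)
  have hker : Θ.ker = π.ker := by
    ext ⟨a, e⟩
    rw [AddMonoidHom.mem_ker, AddMonoidHom.mem_ker, hΘ, vmk_eq_zero_iff]
    have hπ : π (a, e) = 0 ↔ (M : ℤ) ∣ a ∧ ∀ i, (M : ℤ) ∣ e i := by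
      simp [π, Prod.ext_iff, funext_iff, ZMod.intCast_zmod_eq_zero_iff_dvd]
    rw [hπ]
    constructor
    · rintro ⟨y, hy⟩
      have ha : (M : ℤ) ∣ a := ⟨ord P y, by
        have h := congrArg (ord P) hy
        rw [ord_pow, ord_mul, ord_zpow, hP1, mul_one, ord_intUnits, add_zero] at h
        exact h.symm⟩
      obtain ⟨b, rfl⟩ := ha
      have hyb : (y * (h₀ ^ b)⁻¹) ^ M = intUnits (∏ i, Units.fundSystem F i ^ e i) := by
        rw [mul_pow, hy, inv_pow, ← zpow_natCast, ← zpow_mul, mul_comm b, mul_comm,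
          inv_mul_cancel_left]
      obtain ⟨w, hw⟩ := exists_intUnits_eq (x := y * (h₀ ^ b)⁻¹) fun v => by
        have h := congrArg (ord v) hyb
        rw [ord_pow, ord_intUnits] at h
        exact (mul_eq_zero.1 h).resolve_left (Int.natCast_ne_zero.2 (NeZero.ne M))
      obtain ⟨⟨ζ, f⟩, hwf, -⟩ := Units.exist_unique_eq_mul_prod F w
      have hu : ∏ i, Units.fundSystem F i ^ e i =
          (ζ : (𝓞 F)ˣ) ^ M * ∏ i, Units.fundSystem F i ^ ((M : ℤ) * f i) := by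
        refine intUnits_injective ?_
        rw [← hyb, ← hw, ← map_pow, hwf, mul_pow, ← Finset.prod_pow]
        simp only [← zpow_natCast, ← zpow_mul, mul_comm (M : ℤ)]
      refine ⟨dvd_mul_right _ _, fun i => ⟨f i, ?_⟩⟩
      exact congrFun ((Units.fun_eq_repr F (one_mem _) (one_mul _).symm).trans
        (Units.fun_eq_repr F (pow_mem ζ.2 M) hu).symm) i
    · rintro ⟨⟨b, rfl⟩, he⟩
      choose f hf using he
      refine ⟨h₀ ^ b * intUnits (∏ i, Units.fundSystem F i ^ f i), ?_⟩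
      rw [mul_pow, ← map_pow, ← Finset.prod_pow, ← zpow_natCast, ← zpow_mul, mul_comm b]
      simp only [hf, ← zpow_natCast, ← zpow_mul, mul_comm (M : ℤ)]
  have h1 := AddSubgroup.index_ker Θ
  have h2 := AddSubgroup.index_ker π
  rw [hrange, hker, h2, AddMonoidHom.range_eq_top.2 (by
    rintro ⟨a, e⟩
    refine ⟨((a.val : ℤ), fun i => ((e i).val : ℤ)), ?_⟩
    simp [π, Prod.ext_iff, funext_iff]), AddSubgroup.card_top, Nat.card_prod, Nat.card_fun,
    Nat.card_fin, Nat.card_zmod, ← pow_succ', rank_add_one_eq] at h1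
  exact h1.symm

end base

section engine

variable [IsGalois ℚ F] [IsTotallyReal F] {G : Type*} [CommGroup G] [Fintype G]
  (τ : G →* (F ≃ₐ[ℚ] F)) {ℓ k : ℕ} [Fact ℓ.Prime]

local notation "R" => MonoidAlgebra (ZMod (ℓ ^ k)) G

theorem phiq_mem_pUnitsMod {p M : ℕ} (g : G) {z : Vq F M} (hz : z ∈ pUnitsMod F p M) :
    phiq (phiV τ) M g z ∈ pUnitsMod F p M := by
  obtain ⟨x, hx, rfl⟩ := mem_pUnitsMod_iff.1 hz
  refine mem_pUnitsMod_iff.2 ⟨galU (τ g) x, fun v hv => ?_, (phiq_vmk τ M g x).symm⟩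
  have h3 : galPrime (τ g) (galPrime (τ g⁻¹) v) = v := by
    rw [← galPrime_mul, ← map_mul, mul_inv_cancel, map_one, galPrime_one]
  rw [← h3, ord_galU]
  refine hx _ fun hmem => hv ?_
  have h1 := (Ideal.smul_mem_pointwise_smul_iff (a := τ g)).2 hmem
  rw [show τ g • (p : 𝓞 F) = p from
    map_natCast (MulSemiringAction.toRingHom (F ≃ₐ[ℚ] F) (𝓞 F) (τ g)) p] at h1
  rwa [show τ g • (galPrime (τ g⁻¹) v).asIdeal = v.asIdeal from
    congrArg HeightOneSpectrum.asIdeal h3] at h1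

/-- The Galois module generated by an element. -/
def galSpan (x : Fˣ) : AddSubgroup (Vq F (ℓ ^ k)) :=
  (orbHom (phiV τ) dvd_rfl (1 : R) (vmk (ℓ ^ k) x)).range

theorem map_galSpan (e : R) (x : Fˣ) :
    (galSpan τ x).map (act (phiV τ) dvd_rfl e : Vq F (ℓ ^ k) →+ Vq F (ℓ ^ k)) =
      (orbHom (phiV τ) dvd_rfl e (vmk (ℓ ^ k) x)).range := by
  rw [galSpan, AddMonoidHom.map_range]
  refine congrArg AddMonoidHom.range (AddMonoidHom.ext fun a => ?_)
  show act (phiV τ) dvd_rfl e (act (phiV τ) dvd_rfl (a * 1) _) = act (phiV τ) dvd_rfl (a * e) _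
  rw [mul_one, ← act_mul, mul_comm]

/-- A primitive idempotent occurs in every decomposition of one. -/
theorem IsPrim.mem_of_sum_eq_one {e : R} (he : IsPrim e) {P : Finset R}
    (hP : ∀ f ∈ P, IsPrim f) (hsum : ∑ f ∈ P, f = 1) : e ∈ P := by
  by_contra hne
  refine he.ne_zero ?_
  rw [← mul_one e, ← hsum, Finset.mul_sum]
  refine Finset.sum_eq_zero fun f hf => ?_
  have hidem : e * f * (e * f) = e * f := by rw [mul_mul_mul_comm, he.idem, (hP f hf).idem]
  rcases he.prim _ hidem (by rw [mul_right_comm, he.idem]) with h | h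
  · exact h
  rcases (hP f hf).prim _ hidem (by rw [mul_assoc, (hP f hf).idem]) with h' | h'
  · exact h'
  · exact absurd ((h.symm.trans h') ▸ hf) hne

theorem card_group_ring : Nat.card R = (ℓ ^ k) ^ Fintype.card G := by
  rw [Nat.card_congr (MonoidAlgebra.coeffEquiv.trans Finsupp.equivFunOnFinite), Nat.card_fun,
    Nat.card_zmod, Nat.card_eq_fintype_card]

/-- The element `a e z` depends only on `a e`. -/
theorem card_range_orbHom_le (e : R) (z : Vq F (ℓ ^ k)) :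
    Nat.card (orbHom (phiV τ) dvd_rfl e z).range ≤ Nat.card (levelHom e 0).range := by
  refine Nat.card_le_card_of_surjective
    (fun x : (levelHom e 0).range =>
      (⟨act (phiV τ) dvd_rfl (x : R) z, by
        obtain ⟨a, ha⟩ := x.2
        refine ⟨a, ?_⟩
        rw [← ha, levelHom_apply, pow_zero, Nat.cast_one, one_mul, orbHom_apply, mul_comm]⟩ :
        (orbHom (phiV τ) dvd_rfl e z).range)) ?_
  rintro ⟨_, a, rfl⟩
  refine ⟨⟨levelHom e 0 a, a, rfl⟩, Subtype.ext ?_⟩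
  show act (phiV τ) dvd_rfl (levelHom e 0 a) z = orbHom (phiV τ) dvd_rfl e z a
  rw [levelHom_apply, pow_zero, Nat.cast_one, one_mul, orbHom_apply, mul_comm]

variable (hG : ¬ ℓ ∣ Fintype.card G) (hk : 0 < k)
include hG hk

omit hG in
theorem div_level {e : R} (he : IsPrim e) {x : R} (hx : x ∈ (levelHom e 0).range)
    (hlx : ℓ • x = 0) {i : ℕ} (hi : i < k) :
    ∃ y ∈ (levelHom e 0).range, x = ℓ ^ i • y := by
  obtain ⟨y, hy⟩ := exists_eq_of_pow_mul_eq_zero (x := x) (i := 1) (by omega)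
    (by rw [pow_one, ← nsmul_eq_mul, hlx])
  refine ⟨levelHom e 0 (((ℓ ^ (k - 1 - i) : ℕ) : R) * y), ⟨_, rfl⟩, ?_⟩
  obtain ⟨a, rfl⟩ := hx
  rw [levelHom_apply, pow_zero, Nat.cast_one, one_mul] at hy
  rw [levelHom_apply, levelHom_apply, nsmul_eq_mul, pow_zero, Nat.cast_one, one_mul]
  have h : ((ℓ ^ i : ℕ) : R) * ((ℓ ^ (k - 1 - i) : ℕ) : R) = ((ℓ ^ (k - 1) : ℕ) : R) := by
    rw [← Nat.cast_mul, ← pow_add, Nat.add_sub_cancel' (by omega)]
  linear_combination (e : R) * hy - a * he.idem - e * y * h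

omit hG in
theorem div_pUnitsMod (hl2 : ℓ ≠ 2) {p : ℕ} {z : Vq F (ℓ ^ k)}
    (hz : z ∈ pUnitsMod F p (ℓ ^ k)) (hlz : ℓ • z = 0) {i : ℕ} (hi : i < k) :
    ∃ y ∈ pUnitsMod F p (ℓ ^ k), z = ℓ ^ i • y := by
  obtain ⟨x, hx, rfl⟩ := mem_pUnitsMod_iff.1 hz
  rw [← vmk_pow, vmk_eq_zero_iff] at hlz
  obtain ⟨w, hw⟩ := hlz
  have hx' : x = w ^ ℓ ^ (k - 1) := by
    have h : (x / w ^ ℓ ^ (k - 1)) ^ ℓ = 1 := by
      rw [div_pow, ← pow_mul, ← pow_succ, Nat.sub_add_cancel hk, hw, div_self']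
    exact eq_of_div_eq_one (Units.ext (eq_one_of_odd_pow_eq_one
      ((Fact.out : ℓ.Prime).odd_of_ne_two hl2) (by
        rw [← Units.val_pow_eq_pow_val, h, Units.val_one])))
  have hwU : w ∈ pUnits F p := fun v hv => by
    have h := hx v hv
    rw [hx', ord_pow] at h
    exact (mul_eq_zero.1 h).resolve_left
      (Int.natCast_ne_zero.2 (pow_ne_zero _ (Fact.out : ℓ.Prime).ne_zero))
  refine ⟨vmk (ℓ ^ k) (w ^ ℓ ^ (k - 1 - i)), mem_pUnitsMod_iff.2 ⟨_, pow_mem hwU _, rfl⟩, ?_⟩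
  rw [← vmk_pow, ← pow_mul, ← pow_add, Nat.sub_add_cancel (by omega), hx']

variable {Ω : Type*} [Field Ω] [CharZero Ω] [IsAlgClosed Ω] [Algebra.IsAlgebraic ℚ Ω]
  {p : ℕ} {ι : F →+* Ω}

/-- A component of the `p`-units is at least as large as that of the group ring. -/
theorem card_level_le_card_component (hl2 : ℓ ≠ 2) {e : R} (he : IsPrim e) {x : Fˣ}
    (hx : vmk (ℓ ^ k) x ∈ pUnitsMod F p (ℓ ^ k)) (hfin : Finite (pUnitsMod F p (ℓ ^ k)))
    (hne : act (phiV τ) dvd_rfl e (vmk (ℓ ^ k) x) ≠ 0) :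
    Nat.card (levelHom e 0).range ≤ Nat.card ((pUnitsMod F p (ℓ ^ k)).map
      (act (phiV τ) dvd_rfl e : Vq F (ℓ ^ k) →+ Vq F (ℓ ^ k))) := by
  set z := vmk (ℓ ^ k) x
  set E := (pUnitsMod F p (ℓ ^ k)).map
    (act (phiV τ) dvd_rfl e : Vq F (ℓ ^ k) →+ Vq F (ℓ ^ k))
  obtain ⟨s, hsk, η, hη, hzη, hann⟩ := exists_normal_form τ hG hk hl2 he
    (show act (phiV τ) dvd_rfl e (act (phiV τ) dvd_rfl e z) = act (phiV τ) dvd_rfl e z by
      rw [← act_mul, he.idem]) hne
  have hker : ∀ a : R, orbHom (phiV τ) dvd_rfl e z a = 0 ↔ ((ℓ ^ s : ℕ) : R) * e * a = 0 :=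
    fun a => orbHom_eq_zero_iff τ hG hk he hzη hann a
  haveI : Finite E := by
    rw [← SetLike.coe_sort_coe]
    exact ((Set.finite_coe_iff.1 hfin).image _).to_subtype
  have hstab : ∀ (b : R) {w : Vq F (ℓ ^ k)}, w ∈ pUnitsMod F p (ℓ ^ k) →
      act (phiV τ) dvd_rfl b w ∈ pUnitsMod F p (ℓ ^ k) := fun b w hw =>
    act_mem (fun g y hy => phiq_mem_pUnitsMod τ g hy) b hw
  have hfreeE : Nat.card E = Nat.card (tors E ℓ) ^ k := by
    refine card_eq_card_tors_pow (fun w => Subtype.ext (nsmul_modq_eq_zero _ _)) fun i hi w hw => ?_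
    obtain ⟨w0, hw0, hwe⟩ := w.2
    have hfix : act (phiV τ) dvd_rfl e (w : Vq F (ℓ ^ k)) = w := by
      rw [← hwe]
      show act (phiV τ) dvd_rfl e (act (phiV τ) dvd_rfl e w0) = _
      rw [← act_mul, he.idem]
      rfl
    obtain ⟨y, hy, hwy⟩ := div_pUnitsMod hk hl2 (hwe ▸ hstab e hw0) (congrArg Subtype.val hw) hi
    refine ⟨⟨act (phiV τ) dvd_rfl e y, y, hy, rfl⟩, Subtype.ext ?_⟩
    show (w : Vq F (ℓ ^ k)) = ℓ ^ i • act (phiV τ) dvd_rfl e y
    rw [← map_nsmul, ← hwy, hfix]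
  have hfreeR : Nat.card (levelHom e 0).range = Nat.card (tors (levelHom e 0).range ℓ) ^ k := by
    refine card_eq_card_tors_pow (fun w => Subtype.ext ?_) fun i hi w hw => ?_
    · show ℓ ^ k • (w : R) = 0
      rw [nsmul_eq_mul, pow_k_eq_zero, zero_mul]
    · obtain ⟨y, hy, hwy⟩ := div_level hk he w.2 (congrArg Subtype.val hw) hi
      exact ⟨⟨y, hy⟩, Subtype.ext hwy⟩
  rw [hfreeE, hfreeR]
  refine Nat.pow_le_pow_left ?_ k
  have hrep : ∀ w : tors (levelHom e 0).range ℓ,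
      ∃ a : R, ((w : (levelHom e 0).range) : R) = ((ℓ ^ (k - 1) : ℕ) : R) * (e * a) := fun w => by
    obtain ⟨_, ⟨a, rfl⟩, ha⟩ := div_level hk he (w : (levelHom e 0).range).2
      (congrArg Subtype.val w.2) (show k - 1 < k by omega)
    exact ⟨a, by rw [ha, levelHom_apply, nsmul_eq_mul, pow_zero, Nat.cast_one, one_mul]⟩
  choose a ha using hrep
  set b : tors (levelHom e 0).range ℓ → R := fun w => ((ℓ ^ (k - 1 - s) : ℕ) : R) * a w
  have hls : ((ℓ ^ s : ℕ) : R) * ((ℓ ^ (k - 1 - s) : ℕ) : R) = ((ℓ ^ (k - 1) : ℕ) : R) := by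
    rw [← Nat.cast_mul, ← pow_add, Nat.add_sub_cancel' (by omega)]
  have hl : (ℓ : R) * ((ℓ ^ (k - 1) : ℕ) : R) = 0 := by
    rw [← Nat.cast_mul, ← pow_succ', Nat.sub_add_cancel hk, pow_k_eq_zero]
  refine Nat.card_le_card_of_injective (fun w => (⟨⟨orbHom (phiV τ) dvd_rfl e z (b w),
      act (phiV τ) dvd_rfl (b w) z, hstab _ hx, by
        show act (phiV τ) dvd_rfl e (act (phiV τ) dvd_rfl (b w) z) =
          act (phiV τ) dvd_rfl (b w * e) z
        rw [← act_mul, mul_comm]⟩, Subtype.ext (by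
      show ℓ • orbHom (phiV τ) dvd_rfl e z (b w) = 0
      rw [← map_nsmul, hker, nsmul_eq_mul]
      linear_combination (e * a w * (ℓ : R)) * hls + (e * a w) * hl)⟩ : tors E ℓ)) ?_
  intro w w' h
  have h1 : orbHom (phiV τ) dvd_rfl e z (b w) = orbHom (phiV τ) dvd_rfl e z (b w') :=
    congrArg (fun t : tors E ℓ => ((t : E) : Vq F (ℓ ^ k))) h
  have h2 : orbHom (phiV τ) dvd_rfl e z (b w - b w') = 0 := by rw [map_sub, h1, sub_self]
  rw [hker] at h2
  refine Subtype.ext (Subtype.ext ?_)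
  rw [ha w, ha w']
  linear_combination h2 - (e * (a w - a w')) * hls

/-- **The equality of Gras.** -/
theorem gras_of_index (hτ : Function.Bijective τ) (hι : IsBase p ι) (c : Ctx p ℓ k) (hp2 : p ≠ 2)
    {h₀ : Fˣ} (hh₀ : ι h₀ = hFun Ω p 1) {v : ℕ} (hv : 2 * v < k)
    (hA : ℓ ^ v ≤ Nat.card (Aq F (ℓ ^ v)))
    (hidx : Nat.card (pUnitsMod F p (ℓ ^ k)) ≤
      ℓ ^ v * Nat.card (galSpan (ℓ := ℓ) (k := k) τ h₀)) :
    Nat.card (pUnitsMod F p (ℓ ^ k)) =
        Nat.card (Aq F (ℓ ^ v)) * Nat.card (galSpan (ℓ := ℓ) (k := k) τ h₀) ∧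
      ∀ e : R, IsPrim e →
        Nat.card (act (phiA τ) (pow_dvd_pow ℓ (show v ≤ k by omega)) e :
            Aq F (ℓ ^ v) →+ Aq F (ℓ ^ v)).range *
          Nat.card ((galSpan τ h₀).map
            (act (phiV τ) dvd_rfl e : Vq F (ℓ ^ k) →+ Vq F (ℓ ^ k))) =
        Nat.card ((pUnitsMod F p (ℓ ^ k)).map
          (act (phiV τ) dvd_rfl e : Vq F (ℓ ^ k) →+ Vq F (ℓ ^ k))) := by
  set hm : ℓ ^ v ∣ ℓ ^ k := pow_dvd_pow ℓ (show v ≤ k by omega)
  haveI : Finite (Additive (ClassGroup (𝓞 F))) := Finite.of_equiv _ Additive.ofMul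
  have hcard : Nat.card (pUnitsMod F p (ℓ ^ k)) = (ℓ ^ k) ^ Fintype.card G := by
    rw [card_pUnitsMod hι c.hp hp2 hh₀ ((c.hl.odd_of_ne_two c.hl2).pow)]
    congr 1
    rw [← IsGalois.card_aut_eq_finrank, ← Nat.card_congr (Equiv.ofBijective τ hτ),
      Nat.card_eq_fintype_card]
  haveI hfin : Finite (pUnitsMod F p (ℓ ^ k)) :=
    Nat.finite_of_card_ne_zero (by rw [hcard]; exact pow_ne_zero _ (pow_ne_zero _ c.hl.ne_zero))
  have hz : vmk (ℓ ^ k) h₀ ∈ pUnitsMod F p (ℓ ^ k) :=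
    mem_pUnitsMod_iff.2 ⟨h₀, mem_pUnits_gen hι c.hp hp2 hh₀, rfl⟩
  obtain ⟨P, hP, hPorth, hPsum⟩ : ∃ P : Finset R, (∀ e ∈ P, IsPrim e) ∧
      (∀ e ∈ P, ∀ f ∈ P, e ≠ f → e * f = 0) ∧ ∑ e ∈ P, e = 1 := exists_prim_decomp
  set t : R → ℕ := fun f => Nat.card (levelHom f 0).range
  set w : R → ℕ := fun f => Nat.card (orbHom (phiV τ) dvd_rfl f (vmk (ℓ ^ k) h₀)).range
  set α : R → ℕ := fun f => Nat.card (act (phiA τ) hm f : Aq F (ℓ ^ v) →+ Aq F (ℓ ^ v)).range
  set ε : R → ℕ := fun f => Nat.card ((pUnitsMod F p (ℓ ^ k)).map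
    (act (phiV τ) dvd_rfl f : Vq F (ℓ ^ k) →+ Vq F (ℓ ^ k)))
  have horth : ∀ i ∈ P, ∀ j ∈ P, ∀ x : Vq F (ℓ ^ k),
      act (phiV τ) dvd_rfl i (act (phiV τ) dvd_rfl j x) =
        if i = j then act (phiV τ) dvd_rfl j x else 0 := by
    intro i hi j hj x
    rw [← act_mul]
    split_ifs with h
    · rw [h, (hP j hj).idem]
    · rw [hPorth i hi j hj h, act_zero]
  have hsum : ∀ x : Vq F (ℓ ^ k), ∑ i ∈ P, act (phiV τ) dvd_rfl i x = x := fun x => by
    rw [← act_sum, hPsum, act_one]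
  haveI : Finite (galSpan (ℓ := ℓ) (k := k) τ h₀) := Set.finite_coe_iff.2 (Set.finite_range _)
  have hprodW : Nat.card (galSpan (ℓ := ℓ) (k := k) τ h₀) = ∏ f ∈ P, w f := by
    rw [card_eq_prod_proj P (fun f => (act (phiV τ) dvd_rfl f : Vq F (ℓ ^ k) →+ Vq F (ℓ ^ k)))
      (galSpan τ h₀) (fun i _ x ⟨a, ha⟩ => ⟨i * a, by
        rw [← ha, orbHom_apply, orbHom_apply, mul_one, mul_one, act_mul]
        rfl⟩) horth hsum]
    exact Finset.prod_congr rfl fun f _ => by rw [map_galSpan]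
  have hprodE : Nat.card (pUnitsMod F p (ℓ ^ k)) = ∏ f ∈ P, ε f :=
    card_eq_prod_proj P (fun f => (act (phiV τ) dvd_rfl f : Vq F (ℓ ^ k) →+ Vq F (ℓ ^ k))) _
      (fun i _ x hx => act_mem (fun g y hy => phiq_mem_pUnitsMod τ g hy) i hx) horth hsum
  have hAorth : ∀ i ∈ P, ∀ j ∈ P, ∀ x : Aq F (ℓ ^ v),
      act (phiA τ) hm i (act (phiA τ) hm j x) = if i = j then act (phiA τ) hm j x else 0 := by
    intro i hi j hj x
    rw [← act_mul]
    split_ifs with h
    · rw [h, (hP j hj).idem]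
    · rw [hPorth i hi j hj h, act_zero]
  have hAsum : ∀ x : Aq F (ℓ ^ v), ∑ i ∈ P, act (phiA τ) hm i x = x := fun x => by
    rw [← act_sum, hPsum, act_one]
  have hprodA : Nat.card (Aq F (ℓ ^ v)) = ∏ f ∈ P, α f := by
    rw [← AddSubgroup.card_top, card_eq_prod_proj P
      (fun f => (act (phiA τ) hm f : Aq F (ℓ ^ v) →+ Aq F (ℓ ^ v))) ⊤
      (fun _ _ _ _ => AddSubgroup.mem_top _) hAorth hAsum]
    exact Finset.prod_congr rfl fun f _ => by rw [← AddMonoidHom.range_eq_map]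
  have hprodR : (ℓ ^ k) ^ Fintype.card G = ∏ f ∈ P, t f := by
    rw [← card_group_ring (ℓ := ℓ) (k := k) (G := G), ← AddSubgroup.card_top,
      card_eq_prod_proj P (fun f => AddMonoidHom.mulLeft f) ⊤
      (fun _ _ _ _ => AddSubgroup.mem_top _) (fun i hi j hj x => by
        simp only [AddMonoidHom.coe_mulLeft, ← mul_assoc]
        split_ifs with h
        · rw [h, (hP j hj).idem]
        · rw [hPorth i hi j hj h, zero_mul])
      (fun x => by simp only [AddMonoidHom.coe_mulLeft, ← Finset.sum_mul, hPsum, one_mul])]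
    refine Finset.prod_congr rfl fun f _ => ?_
    show _ = Nat.card (levelHom f 0).range
    rw [← AddMonoidHom.range_eq_map,
      show levelHom f 0 = AddMonoidHom.mulLeft f from AddMonoidHom.ext fun a => by
        rw [levelHom_apply, pow_zero, Nat.cast_one, one_mul]; rfl]
  have ht : ∀ f, 0 < t f := fun f => Nat.card_pos
  rw [hcard, hprodW, hprodR] at hidx
  -- the hypothesis of the bound in each component
  have hidxe : ∀ f ∈ P, t f ≤ ℓ ^ v * w f := by
    intro f hf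
    rw [← Finset.mul_prod_erase P t hf, ← Finset.mul_prod_erase P w hf, ← mul_assoc] at hidx
    exact Nat.le_of_mul_le_mul_right (hidx.trans (Nat.mul_le_mul_left _
      (Finset.prod_le_prod' fun g _ => card_range_orbHom_le τ g _)))
      (Finset.prod_pos fun g _ => ht g)
  have hbound : ∀ f ∈ P, α f * w f ≤ t f := fun f hf =>
    card_component_mul_le τ hG hk hτ hι c hp2 (show v ≤ k by omega) (hP f hf) (by omega)
      (by omega) hh₀ (hidxe f hf)
  have hεt : ∀ f ∈ P, t f ≤ ε f := by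
    intro f hf
    refine card_level_le_card_component τ hG hk c.hl2 (hP f hf) hz hfin fun h0 => ?_
    have hw1 : w f = 1 := by
      rw [AddSubgroup.card_eq_one, AddSubgroup.eq_bot_iff_forall]
      rintro _ ⟨a, rfl⟩
      rw [orbHom_apply, act_mul, h0, map_zero]
    have h2 := (pow_mul_card_level_le hG hk (hP f hf) le_rfl).trans (hidxe f hf)
    rw [hw1, mul_one] at h2
    have hpos : 0 < Nat.card (levelHom f k).range := Nat.card_pos
    exact absurd ((Nat.le_mul_of_pos_right _ hpos).trans h2)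
      (not_le.2 (Nat.pow_lt_pow_right c.hl.one_lt (by omega)))
  have hεeq : ∀ f ∈ P, t f = ε f := by
    by_contra! hne
    obtain ⟨f, hf, hne⟩ := hne
    have := Finset.prod_lt_prod (fun g _ => ht g) hεt ⟨f, hf, lt_of_le_of_ne (hεt f hf) hne⟩
    rw [← hprodR, ← hprodE, hcard] at this
    exact lt_irrefl _ this
  have hαpos : ∀ f, 0 < α f := fun f => Nat.card_pos
  have hwpos : ∀ f, 0 < w f := fun f => by
    haveI : Finite (orbHom (phiV τ) dvd_rfl f (vmk (ℓ ^ k) h₀)).range :=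
      Set.finite_coe_iff.2 (Set.finite_range _)
    exact Nat.card_pos
  have hge : ∏ f ∈ P, t f ≤ ∏ f ∈ P, α f * w f := by
    rw [Finset.prod_mul_distrib, ← hprodA]
    exact hidx.trans (Nat.mul_le_mul_right _ hA)
  have heq : ∀ f ∈ P, α f * w f = t f := by
    by_contra! hne
    obtain ⟨f, hf, hne⟩ := hne
    exact absurd (Finset.prod_lt_prod (fun g _ => Nat.mul_pos (hαpos g) (hwpos g)) hbound
      ⟨f, hf, lt_of_le_of_ne (hbound f hf) hne⟩) (not_lt.2 hge)
  refine ⟨?_, fun e he => ?_⟩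
  · rw [hcard, hprodR, hprodA, hprodW, ← Finset.prod_mul_distrib]
    exact Finset.prod_congr rfl fun f hf => (heq f hf).symm
  · have hmem := he.mem_of_sum_eq_one hP hPsum
    rw [map_galSpan]
    exact (heq e hmem).trans (hεeq e hmem)

end engine

end FA.Kolyvagin
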