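import Mathlib

/-!
# The group ring `(ℤ/ℓ^k)[G]` for `ℓ ∤ |G|`

* `exists_prim_decomp`: one is the sum of orthogonal primitive idempotents;
* `exists_eq_pow_mul_unit`: in the component of a primitive idempotent every nonzero element is a
  power of `ℓ` times a unit;
* `cardinal lemmas` for finite groups killed by `ℓ ^ k` and for the decomposition by idempotents.
-/

set_option autoImplicit false
set_option linter.unusedSectionVars false
set_option linter.style.haveILetI false

noncomputable section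

open scoped Classical
open MonoidAlgebra (single)

namespace FA.Kolyvagin

section finite_ring

variable {R : Type*} [CommRing R]

/-- A primitive idempotent. -/
structure IsPrim (e : R) : Prop where
  idem : e * e = e
  ne_zero : e ≠ 0
  prim : ∀ f : R, f * f = f → f * e = f → f = 0 ∨ f = e

variable [Finite R]

/-- One is the sum of orthogonal primitive idempotents. -/
theorem exists_prim_decomp :
    ∃ P : Finset R, (∀ e ∈ P, IsPrim e) ∧ (∀ e ∈ P, ∀ f ∈ P, e ≠ f → e * f = 0) ∧
      ∑ e ∈ P, e = 1 := by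
  suffices key : ∀ (n : ℕ) (f : R), f * f = f → Nat.card {x : R // x * f = x} = n →
      ∃ P : Finset R, (∀ e ∈ P, IsPrim e ∧ e * f = e) ∧
        (∀ e ∈ P, ∀ e' ∈ P, e ≠ e' → e * e' = 0) ∧ ∑ e ∈ P, e = f by
    obtain ⟨P, h1, h2, h3⟩ := key _ 1 (one_mul 1) rfl
    exact ⟨P, fun e he => (h1 e he).1, h2, h3⟩
  intro n
  induction n using Nat.strong_induction_on with
  | _ n ih =>
  intro f hf hn
  rcases eq_or_ne f 0 with rfl | hf0
  · exact ⟨∅, by simp, by simp, by simp⟩
  by_cases hp : ∀ g : R, g * g = g → g * f = g → g = 0 ∨ g = f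
  · exact ⟨{f}, by simpa using ⟨⟨hf, hf0, hp⟩, hf⟩, by simp, by simp⟩
  push Not at hp
  obtain ⟨g, hg, hgf, hg0, hgne⟩ := hp
  set h := f - g
  have hh : h * h = h := by
    simp only [h]
    linear_combination hf + hg - 2 * hgf
  have hhf : h * f = h := by
    simp only [h]
    linear_combination hf - hgf
  have hgh : g * h = 0 := by
    simp only [h]
    linear_combination hgf - hg
  have hlt : ∀ a b : R, a * f = a → b * f = b → b ≠ 0 → a * b = 0 → b * b = b →
      Nat.card {x : R // x * a = x} < n := by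
    intro a b ha hb hb0 hab hbb
    rw [← hn]
    haveI : Fintype R := Fintype.ofFinite R
    rw [Nat.card_eq_fintype_card, Nat.card_eq_fintype_card, Fintype.card_subtype,
      Fintype.card_subtype]
    refine Finset.card_lt_card (Finset.ssubset_iff_of_subset ?_ |>.2 ⟨b, ?_, ?_⟩)
    · intro x hx
      simp only [Finset.mem_filter, Finset.mem_univ, true_and] at hx ⊢
      linear_combination (1 - f) * hx + x * ha
    · simpa using hb
    · simp only [Finset.mem_filter, Finset.mem_univ, true_and]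
      intro hba
      exact hb0 (by linear_combination hab - hba)
  obtain ⟨P, hP1, hP2, hP3⟩ := ih _ (hlt g h hgf hhf (sub_ne_zero.2 hgne.symm) hgh hh) g hg rfl
  obtain ⟨Q, hQ1, hQ2, hQ3⟩ :=
    ih _ (hlt h g hhf hgf hg0 (by rw [mul_comm, hgh]) hg) h hh rfl
  have horth : ∀ e ∈ P, ∀ e' ∈ Q, e * e' = 0 := fun e he e' he' => by
    linear_combination (-e') * (hP1 e he).2 + (-e * g) * (hQ1 e' he').2 + e * e' * hgh
  have hdisj : Disjoint P Q := Finset.disjoint_left.2 fun e he he' =>
    (hP1 e he).1.ne_zero ((hP1 e he).1.idem.symm.trans (horth e he e he'))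
  refine ⟨P ∪ Q, fun e he => ?_, fun e he e' he' hne => ?_, ?_⟩
  · rcases Finset.mem_union.1 he with h' | h'
    · exact ⟨(hP1 e h').1, by linear_combination (f - 1) * (hP1 e h').2 * (-1) + e * hgf⟩
    · exact ⟨(hQ1 e h').1, by linear_combination (f - 1) * (hQ1 e h').2 * (-1) + e * hhf⟩
  · rcases Finset.mem_union.1 he with h' | h' <;> rcases Finset.mem_union.1 he' with h'' | h''
    · exact hP2 e h' e' h'' hne
    · exact horth e h' e' h''
    · rw [mul_comm]; exact horth e' h'' e h'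
    · exact hQ2 e h' e' h'' hne
  · rw [Finset.sum_union hdisj, hP3, hQ3, add_sub_cancel]

/-- In the component of a primitive idempotent an element is nilpotent or invertible. -/
theorem IsPrim.nilp_or_unit {e : R} (he : IsPrim e) {x : R} (hx : x * e = x) :
    IsNilpotent x ∨ ∃ y : R, x * y = e := by
  obtain ⟨a, b, hne, hab⟩ := Finite.exists_ne_map_eq_of_infinite fun n : ℕ => x ^ n
  change x ^ a = x ^ b at hab
  wlog hlt : a < b generalizing a b
  · exact this b a hne.symm hab.symm (by omega)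
  obtain ⟨d, rfl⟩ : ∃ d, b = a + (d + 1) := ⟨b - a - 1, by omega⟩
  have hper : ∀ j i, x ^ (a + i + j * (d + 1)) = x ^ (a + i) := by
    intro j
    induction j with
    | zero => simp
    | succ j ih =>
      intro i
      rw [show a + i + (j + 1) * (d + 1) = a + (i + (d + 1)) + j * (d + 1) by ring, ih,
        show a + (i + (d + 1)) = a + (d + 1) + i by ring, pow_add, ← hab, ← pow_add]
  set n := (a + 1) * (d + 1) with hndef
  obtain ⟨i, hi⟩ : ∃ i, n = a + i := ⟨n - a, by
    have : a + 1 ≤ (a + 1) * (d + 1) := Nat.le_mul_of_pos_right _ (Nat.succ_pos d)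
    omega⟩
  have hnn : x ^ n * x ^ n = x ^ n := by
    rw [← pow_add]
    conv_lhs => rw [show n + n = a + i + (a + 1) * (d + 1) by rw [← hi]]
    rw [hper, ← hi]
  have hn1 : n = n - 1 + 1 := by
    have : 0 < (a + 1) * (d + 1) := by positivity
    omega
  have hne' : x ^ n * e = x ^ n := by rw [hn1, pow_succ, mul_assoc, hx]
  rcases he.prim _ hnn hne' with h | h
  · exact Or.inl ⟨n, h⟩
  · exact Or.inr ⟨x ^ (n - 1), by rw [← pow_succ', ← hn1, h]⟩

end finite_ring

section group_ring

variable {G : Type*} [CommGroup G] [Fintype G] {ℓ k : ℕ} [Fact ℓ.Prime]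

local notation "R" => MonoidAlgebra (ZMod (ℓ ^ k)) G

instance : Finite R := Finite.of_equiv _ MonoidAlgebra.coeffEquiv.symm

theorem coeff_natCast_mul (n : ℕ) (x : R) (g : G) :
    ((n : R) * x).coeff g = (n : ZMod (ℓ ^ k)) * x.coeff g := by
  rw [← nsmul_eq_mul, MonoidAlgebra.coeff_smul_apply, nsmul_eq_mul]

theorem zmod_exists_eq_mul_of_pow_mul_eq_zero {a : ZMod (ℓ ^ k)} {i : ℕ} (hi : i ≤ k)
    (h : ((ℓ ^ i : ℕ) : ZMod (ℓ ^ k)) * a = 0) :
    ∃ b, a = ((ℓ ^ (k - i) : ℕ) : ZMod (ℓ ^ k)) * b := by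
  haveI : NeZero (ℓ ^ k) := ⟨pow_ne_zero _ (Fact.out : ℓ.Prime).ne_zero⟩
  rw [← ZMod.natCast_zmod_val a, ← Nat.cast_mul, ZMod.natCast_eq_zero_iff] at h
  obtain ⟨c, hc⟩ : ℓ ^ (k - i) ∣ a.val := by
    refine (Nat.mul_dvd_mul_iff_left (pow_pos (Fact.out : ℓ.Prime).pos i)).1 ?_
    rwa [← pow_add, Nat.add_sub_cancel' hi]
  exact ⟨c, by rw [← Nat.cast_mul, ← hc, ZMod.natCast_zmod_val]⟩

/-- The annihilator of `ℓ ^ i`. -/
theorem exists_eq_of_pow_mul_eq_zero {x : R} {i : ℕ} (hi : i ≤ k)
    (h : ((ℓ ^ i : ℕ) : R) * x = 0) : ∃ y : R, x = ((ℓ ^ (k - i) : ℕ) : R) * y := by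
  choose c hc using fun g : G => zmod_exists_eq_mul_of_pow_mul_eq_zero hi (a := x.coeff g) (by
    rw [← coeff_natCast_mul, h]
    rfl)
  refine ⟨MonoidAlgebra.ofCoeff (Finsupp.equivFunOnFinite.symm c), MonoidAlgebra.ext ?_⟩
  ext g
  rw [coeff_natCast_mul, hc g]
  rfl

theorem pow_k_eq_zero : ((ℓ ^ k : ℕ) : R) = 0 := by
  rw [← mul_one ((ℓ ^ k : ℕ) : R)]
  refine MonoidAlgebra.ext (Finsupp.ext fun g => ?_)
  rw [coeff_natCast_mul, ZMod.natCast_self, zero_mul]
  rfl

variable (hG : ¬ ℓ ∣ Fintype.card G) (hk : 0 < k)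
include hG hk

/-- Nilpotents are multiples of `ℓ`. -/
theorem exists_eq_l_mul_of_isNilpotent {x : R} (hx : IsNilpotent x) :
    ∃ y : R, x = (ℓ : R) * y := by
  set f : R →+* MonoidAlgebra (ZMod ℓ) G :=
    MonoidAlgebra.mapRingHom G (ZMod.castHom (dvd_pow_self ℓ hk.ne') (ZMod ℓ))
  have hinj : ∀ y : MonoidAlgebra (ZMod ℓ) G, y ^ ℓ = 0 → y = 0 := by
    intro y hy
    haveI : Nonempty G := ⟨1⟩
    haveI : CharP (MonoidAlgebra (ZMod ℓ) G) ℓ :=
      charP_of_injective_ringHom (f := MonoidAlgebra.singleOneRingHom)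
        (fun a b h => by
          have h' := congrArg (fun z : MonoidAlgebra (ZMod ℓ) G => z.coeff 1) h
          simpa using h') ℓ
    have hco : (Nat.card G).Coprime ℓ := by
      rw [Nat.card_eq_fintype_card]
      exact ((Fact.out : ℓ.Prime).coprime_iff_not_dvd.2 hG).symm
    have hsum : y = ∑ g : G, single g (y.coeff g) := by
      refine MonoidAlgebra.ext (Finsupp.ext fun g => ?_)
      rw [MonoidAlgebra.coeff_sum, Finsupp.finsetSum_apply]
      simp [Finsupp.single_apply]
    rw [hsum, sum_pow_char] at hy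
    simp only [MonoidAlgebra.single_pow, ZMod.pow_card] at hy
    refine MonoidAlgebra.ext (Finsupp.ext fun g => ?_)
    have h := congrArg (fun z : MonoidAlgebra (ZMod ℓ) G => z.coeff (g ^ ℓ)) hy
    simp only [MonoidAlgebra.coeff_sum, Finsupp.finsetSum_apply, MonoidAlgebra.coeff_single,
      MonoidAlgebra.coeff_zero, Finsupp.coe_zero, Pi.zero_apply] at h
    rw [Finset.sum_eq_single g] at h
    · simpa using h
    · intro g' _ hne
      exact Finsupp.single_eq_of_ne fun he => hne ((powCoprime hco).injective he).symm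
    · simp
  obtain ⟨n, hn⟩ := hx
  have hf : f x = 0 := by
    have hpow : ∀ (j : ℕ) (y : MonoidAlgebra (ZMod ℓ) G), y ^ ℓ ^ j = 0 → y = 0 := by
      intro j
      induction j with
      | zero => simp
      | succ j ih =>
        intro y hy
        rw [pow_succ, pow_mul] at hy
        exact ih y (hinj _ hy)
    refine hpow n (f x) (pow_eq_zero_of_le (Nat.lt_pow_self (Fact.out : ℓ.Prime).one_lt).le ?_)
    rw [← map_pow, hn, map_zero]
  have hdvd : ∀ g : G, ∃ c, x.coeff g = ((ℓ : ℕ) : ZMod (ℓ ^ k)) * c := by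
    intro g
    have h := congrArg (fun z : MonoidAlgebra (ZMod ℓ) G => z.coeff g) hf
    simp only [f, MonoidAlgebra.coeff_mapRingHom, MonoidAlgebra.coeff_zero, Finsupp.coe_zero,
      Pi.zero_apply] at h
    haveI : NeZero (ℓ ^ k) := ⟨pow_ne_zero _ (Fact.out : ℓ.Prime).ne_zero⟩
    rw [← ZMod.natCast_zmod_val (x.coeff g), map_natCast, ZMod.natCast_eq_zero_iff] at h
    obtain ⟨c, hc⟩ := h
    exact ⟨c, by rw [← Nat.cast_mul, ← hc, ZMod.natCast_zmod_val]⟩
  choose c hc using hdvd
  refine ⟨MonoidAlgebra.ofCoeff (Finsupp.equivFunOnFinite.symm c), MonoidAlgebra.ext ?_⟩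
  ext g
  rw [coeff_natCast_mul, hc g]
  rfl

/-- A primitive idempotent is not killed by `ℓ ^ (k - 1)`. -/
theorem IsPrim.pow_mul_ne_zero {e : R} (he : IsPrim e) {i : ℕ} (hi : i < k) :
    ((ℓ ^ i : ℕ) : R) * e ≠ 0 := by
  intro h
  obtain ⟨y, hy⟩ := exists_eq_of_pow_mul_eq_zero hi.le h
  have hpow : e = e ^ k := by
    obtain ⟨k', rfl⟩ : ∃ k', k = k' + 1 := ⟨k - 1, by omega⟩
    exact (IsIdempotentElem.pow_succ_eq k' he.idem).symm
  refine he.ne_zero ?_
  rw [hpow, hy, mul_pow, ← Nat.cast_pow, ← pow_mul,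
    show (k - i) * k = k + (k - i - 1) * k by
      obtain ⟨m, hm⟩ : ∃ m, k - i = m + 1 := ⟨k - i - 1, by omega⟩
      rw [hm, Nat.add_sub_cancel]; ring,
    pow_add, Nat.cast_mul, pow_k_eq_zero, zero_mul, zero_mul]

/-- **Elements of a primitive component.** -/
theorem exists_eq_pow_mul_unit {e : R} (he : IsPrim e) {x : R} (hx : x * e = x) (hx0 : x ≠ 0) :
    ∃ i, i < k ∧ ∃ w y : R, w * y = e ∧ w * e = w ∧ x = ((ℓ ^ i : ℕ) : R) * w := by
  set P : ℕ → Prop := fun i => ∃ w : R, w * e = w ∧ x = ((ℓ ^ i : ℕ) : R) * w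
  have h0 : P 0 := ⟨x, hx, by simp⟩
  have hk' : ¬ P k := fun ⟨w, _, h⟩ => hx0 (by rw [h, pow_k_eq_zero, zero_mul])
  obtain ⟨i, hi, hiP, hni⟩ : ∃ i, i < k ∧ P i ∧ ¬ P (i + 1) := by
    by_contra! hcon
    have hall : ∀ j, j ≤ k → P j := by
      intro j
      induction j with
      | zero => exact fun _ => h0
      | succ j ih => exact fun hj => hcon j (by omega) (ih (by omega))
    exact hk' (hall k le_rfl)
  obtain ⟨w, hw, hxw⟩ := hiP
  rcases he.nilp_or_unit hw with hnil | ⟨y, hy⟩
  · exfalso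
    obtain ⟨z, hz⟩ := exists_eq_l_mul_of_isNilpotent hG hk hnil
    refine hni ⟨z * e, by rw [mul_assoc, he.idem], ?_⟩
    rw [hxw, ← hw, hz, pow_succ, Nat.cast_mul]
    ring
  · exact ⟨i, hi, w, y, hy, hw, hxw⟩

end group_ring

section cards

variable {A : Type*} [AddCommGroup A]

/-- The counting used in the descent step. -/
theorem card_range_mul_le {E Y X : Type*} [AddCommGroup E] [Finite E] [AddCommGroup Y]
    [AddCommGroup X] (u : E →+ Y) (ψ : E →+ X) (Z : AddSubgroup Y) (hZ : Z ≤ u.range)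
    (h : ∀ x, u x ∈ Z → ψ x = 0) :
    Nat.card ψ.range * Nat.card Z ≤ Nat.card u.range := by
  have hu := AddSubgroup.card_eq_card_quotient_mul_card_addSubgroup u.ker
  rw [Nat.card_congr (QuotientAddGroup.quotientKerEquivRange u).toEquiv] at hu
  have hψ := AddSubgroup.card_eq_card_quotient_mul_card_addSubgroup ψ.ker
  rw [Nat.card_congr (QuotientAddGroup.quotientKerEquivRange ψ).toEquiv] at hψ
  set u' : Z.comap u →+ Z := (u.comp (Z.comap u).subtype).codRestrict Z fun x => x.2
  have hu'surj : Function.Surjective u' := fun z => by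
    obtain ⟨x, hx⟩ := hZ z.2
    exact ⟨⟨x, by rw [AddSubgroup.mem_comap, hx]; exact z.2⟩, Subtype.ext hx⟩
  have hcom := AddSubgroup.card_eq_card_quotient_mul_card_addSubgroup u'.ker
  rw [Nat.card_congr (QuotientAddGroup.quotientKerEquivOfSurjective u' hu'surj).toEquiv] at hcom
  have hker : Nat.card u'.ker = Nat.card u.ker :=
    Nat.card_congr
      { toFun := fun x => ⟨(x.1 : E), congrArg Subtype.val x.2⟩
        invFun := fun x => ⟨⟨x.1, by
          rw [AddSubgroup.mem_comap, show u x.1 = 0 from x.2]; exact zero_mem _⟩, Subtype.ext x.2⟩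
        left_inv := fun x => Subtype.ext (Subtype.ext rfl)
        right_inv := fun x => rfl }
  have hle : Nat.card (Z.comap u) ≤ Nat.card ψ.ker :=
    AddSubgroup.card_le_of_le fun x hx => h x hx
  rw [hcom, hker] at hle
  have hpos : 0 < Nat.card u.ker := Nat.card_pos
  refine Nat.le_of_mul_le_mul_right ?_ hpos
  rw [mul_assoc, ← hu]
  calc Nat.card ψ.range * (Nat.card Z * Nat.card u.ker)
      ≤ Nat.card ψ.range * Nat.card ψ.ker := Nat.mul_le_mul_left _ hle
    _ = Nat.card E := hψ.symm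

variable {ℓ k : ℕ}

/-- The multiples killed by `ℓ ^ i`. -/
abbrev tors (A : Type*) [AddCommGroup A] (n : ℕ) : AddSubgroup A := (nsmulAddMonoidHom n).ker

/-- A group in which the torsion is divisible is free over `ℤ/ℓ^k`. -/
theorem card_eq_card_tors_pow [Finite A] (hA : ∀ x : A, ℓ ^ k • x = 0)
    (hdiv : ∀ i, i < k → ∀ x : A, ℓ • x = 0 → ∃ y : A, x = ℓ ^ i • y) :
    Nat.card A = Nat.card (tors A ℓ) ^ k := by
  have key : ∀ i, i ≤ k → Nat.card (tors A (ℓ ^ i)) = Nat.card (tors A ℓ) ^ i := by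
    intro i
    induction i with
    | zero =>
      intro _
      have hbot : tors A (ℓ ^ 0) = ⊥ := (AddSubgroup.eq_bot_iff_forall _).2 fun x hx => by
        simpa using hx
      rw [hbot, pow_zero, AddSubgroup.card_bot]
    | succ i ih =>
      intro hi
      set B := tors A (ℓ ^ (i + 1))
      set m : B →+ tors A ℓ :=
        ((nsmulAddMonoidHom (ℓ ^ i)).comp B.subtype).codRestrict _ fun x => by
        show ℓ • (ℓ ^ i • (x : A)) = 0
        rw [← mul_nsmul', ← pow_succ']
        exact x.2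
      have hsurj : Function.Surjective m := fun x => by
        obtain ⟨y, hy⟩ := hdiv i (by omega) x.1 x.2
        refine ⟨⟨y, ?_⟩, Subtype.ext hy.symm⟩
        show ℓ ^ (i + 1) • y = 0
        rw [pow_succ', mul_nsmul', ← hy]
        exact x.2
      have h := AddSubgroup.card_eq_card_quotient_mul_card_addSubgroup m.ker
      rw [Nat.card_congr (QuotientAddGroup.quotientKerEquivOfSurjective m hsurj).toEquiv] at h
      have hker : Nat.card m.ker = Nat.card (tors A (ℓ ^ i)) :=
        Nat.card_congr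
          { toFun := fun x => ⟨(x.1 : A), congrArg Subtype.val x.2⟩
            invFun := fun x => ⟨⟨x.1, by
              show ℓ ^ (i + 1) • (x : A) = 0
              rw [pow_succ', mul_nsmul', show ℓ ^ i • (x : A) = 0 from x.2, nsmul_zero]⟩,
              Subtype.ext x.2⟩
            left_inv := fun x => Subtype.ext (Subtype.ext rfl)
            right_inv := fun x => rfl }
      rw [h, hker, ih (by omega), pow_succ']
  rw [← key k le_rfl]
  exact (Nat.card_congr (Equiv.subtypeUnivEquiv hA)).symm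

/-- The decomposition of a subgroup by orthogonal projections. -/
theorem card_eq_prod_proj {ι : Type*} [DecidableEq ι] (s : Finset ι) (f : ι → A →+ A)
    (W : AddSubgroup A) [Finite W] (hW : ∀ i ∈ s, ∀ x ∈ W, f i x ∈ W)
    (horth : ∀ i ∈ s, ∀ j ∈ s, ∀ x, f i (f j x) = if i = j then f j x else 0)
    (hsum : ∀ x, ∑ i ∈ s, f i x = x) :
    Nat.card W = ∏ i ∈ s, Nat.card (W.map (f i)) := by
  have hmem : ∀ (i : s) (y : W.map (f i.1)), (y : A) ∈ W := fun i y => by
    obtain ⟨x, hx, hxy⟩ := y.2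
    rw [← hxy]
    exact hW i.1 i.2 x hx
  have hfix : ∀ (i j : s) (y : W.map (f j.1)), f i.1 (y : A) = if i = j then (y : A) else 0 := by
    intro i j y
    obtain ⟨x, hx, hxy⟩ := y.2
    rw [← hxy, horth i.1 i.2 j.1 j.2 x]
    exact if_congr Subtype.coe_inj rfl rfl
  let e : W ≃ ((i : s) → W.map (f i.1)) :=
    { toFun := fun w i => ⟨f i.1 w, ⟨w, w.2, rfl⟩⟩
      invFun := fun y => ⟨∑ i : s, (y i : A), sum_mem fun i _ => hmem i (y i)⟩
      left_inv := fun w => Subtype.ext (by
        show ∑ i : s, f i.1 (w : A) = w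
        rw [← Finset.attach_eq_univ, Finset.sum_attach s fun i => f i (w : A), hsum])
      right_inv := fun y => funext fun i => Subtype.ext (by
        show f i.1 (∑ j : s, (y j : A)) = y i
        rw [map_sum]
        simp only [hfix]
        rw [Finset.sum_ite_eq, if_pos (Finset.mem_univ _)]) }
  rw [Nat.card_congr e, Nat.card_pi, ← Finset.attach_eq_univ]
  exact Finset.prod_attach s fun i => Nat.card (W.map (f i))

end cards

end FA.Kolyvagin
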