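import Fermat.Agent.Kolyvagin.Gras
import Fermat.Agent.CycloIndex.Main

/-!
# The real field `ℚ(ζ_p)⁺`

* `card_Aq_padicValNat`: the classes modulo `ℓ ^ v`, `ℓ ^ v` the exact power in the class number,
  number `ℓ ^ v`;
* `exists_isBase`: the real subfield of `ℚ(ζ_p)` is a base field;
* `card_pUnitsMod_le`: by Kummer's index theorem the module generated by `(1 - ζ)(1 - ζ⁻¹)` has
  index at most `ℓ ^ v` in the `p`-units modulo `ℓ ^ k`.
-/

set_option autoImplicit false
set_option linter.unusedSectionVars false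
set_option linter.style.haveILetI false

noncomputable section

open scoped Classical Pointwise
open NumberField IsDedekindDomain IntermediateField FA.ArtinRec FA.AmbClass
open MonoidAlgebra (single)

namespace FA.Kolyvagin

/-- A finite group killed by `ℓ ^ n` has as order a power of `ℓ`. -/
theorem exists_card_eq_pow {ℓ n : ℕ} (hl : ℓ.Prime) {X : Type*} [AddCommGroup X] [Finite X]
    (h : ∀ x : X, ℓ ^ n • x = 0) : ∃ j, Nat.card X = ℓ ^ j := by
  refine ⟨_, Nat.eq_prime_pow_of_unique_prime_dvd Nat.card_pos.ne' fun {r} hr hrd => ?_⟩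
  haveI : Fact r.Prime := ⟨hr⟩
  obtain ⟨x, hx⟩ := exists_prime_addOrderOf_dvd_card' r hrd
  exact (Nat.prime_dvd_prime_iff_eq hr hl).1
    (hr.dvd_of_dvd_pow (hx ▸ addOrderOf_dvd_of_nsmul_eq_zero (h x)))

/-- The classes modulo `ℓ ^ v`, `ℓ ^ v` the exact power in the class number. -/
theorem card_Aq_padicValNat (F : Type*) [Field F] [NumberField F] (ℓ : ℕ) [Fact ℓ.Prime] :
    Nat.card (Aq F (ℓ ^ padicValNat ℓ (classNumber F))) =
      ℓ ^ padicValNat ℓ (classNumber F) := by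
  have hl : ℓ.Prime := Fact.out
  set v := padicValNat ℓ (classNumber F)
  haveI : Finite (Additive (ClassGroup (𝓞 F))) := Finite.of_equiv _ Additive.ofMul
  have hA : Nat.card (Additive (ClassGroup (𝓞 F))) = classNumber F := by
    rw [classNumber, ← Nat.card_eq_fintype_card]
    exact Nat.card_congr Additive.toMul
  set B := (nsmulAddMonoidHom (α := Additive (ClassGroup (𝓞 F))) (ℓ ^ v)).range
  have hmul : classNumber F = Nat.card (Aq F (ℓ ^ v)) * Nat.card B := by
    rw [← hA]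
    exact AddSubgroup.card_eq_card_quotient_mul_card_addSubgroup B
  have hB : ¬ ℓ ∣ Nat.card B := fun hd => by
    obtain ⟨⟨_, y, rfl⟩, hy⟩ := exists_prime_addOrderOf_dvd_card' ℓ hd
    rw [← AddSubgroup.addOrderOf_coe] at hy
    change addOrderOf (ℓ ^ v • y) = ℓ at hy
    have h1 : addOrderOf y = ℓ ^ (v + 1) := addOrderOf_eq_prime_pow
      (fun h0 => hl.ne_one (by rw [← hy, h0, addOrderOf_zero]))
      (by
        have h0 := addOrderOf_nsmul_eq_zero (ℓ ^ v • y)
        rwa [hy, ← mul_nsmul', ← pow_succ'] at h0)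
    have h2 : ℓ ^ (v + 1) ∣ classNumber F := h1 ▸ hA ▸ addOrderOf_dvd_natCard y
    rw [padicValNat_dvd_iff_le (classNumber_pos F).ne'] at h2
    omega
  obtain ⟨j, hj⟩ := exists_card_eq_pow hl (X := Aq F (ℓ ^ v)) fun x => nsmul_modq_eq_zero _ x
  have hcop : (ℓ ^ v).Coprime (Nat.card B) := (hl.coprime_iff_not_dvd.2 hB).pow_left v
  have hv : ℓ ^ v ∣ Nat.card (Aq F (ℓ ^ v)) :=
    hcop.dvd_of_dvd_mul_right (hmul ▸ pow_padicValNat_dvd)
  refine le_antisymm ?_ (Nat.le_of_dvd Nat.card_pos hv)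
  rw [hj]
  refine Nat.pow_le_pow_right hl.pos ?_
  rw [← padicValNat_dvd_iff_le (classNumber_pos F).ne', ← hj, hmul]
  exact dvd_mul_right _ _

variable (p : ℕ) [Fact p.Prime] (K : Type*) [Field K] [NumberField K]
  [IsCyclotomicExtension {p} ℚ K] [IsCMField K]

local notation "L" => maximalRealSubfield K

include p in
/-- The real subfield is abelian. -/
theorem isAbelianGalois_real : IsAbelianGalois ℚ L :=
  haveI := IsCyclotomicExtension.isAbelianGalois {p} ℚ K
  IsAbelianGalois.tower_bot ℚ L K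

theorem algebraMap_norm_eq (x : K) :
    algebraMap L K (Algebra.norm L x) = x * IsCMField.complexConj K x := by
  rw [Algebra.norm_eq_prod_automorphisms]
  have huniv : (Finset.univ : Finset (K ≃ₐ[L] K)) = {1, IsCMField.complexConj K} := by
    refine (Finset.eq_univ_of_card _ ?_).symm
    rw [Finset.card_pair (IsCMField.complexConj_ne_one K).symm, ← Nat.card_eq_fintype_card,
      IsGalois.card_aut_eq_finrank, Algebra.IsQuadraticExtension.finrank_eq_two L K]
  rw [huniv, Finset.prod_pair (IsCMField.complexConj_ne_one K).symm]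
  rfl

theorem complexConj_zeta :
    IsCMField.complexConj K (IsCyclotomicExtension.zeta p ℚ K) =
      (IsCyclotomicExtension.zeta p ℚ K)⁻¹ := by
  have hp : p.Prime := Fact.out
  obtain ⟨φ⟩ : Nonempty (K →+* ℂ) := inferInstance
  refine φ.injective ?_
  rw [IsCMField.complexEmbedding_complexConj, map_inv₀]
  refine (Complex.inv_eq_conj (Complex.norm_eq_one_of_pow_eq_one ?_ hp.ne_zero)).symm
  rw [← map_pow, (IsCyclotomicExtension.zeta_spec p ℚ K).pow_eq_one, map_one]

/-- The norm to the real field. -/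
def normU : Kˣ →* (L)ˣ := Units.map (Algebra.norm L : K →* L)

/-- `1 - ζ`. -/
def lamU : Kˣ :=
  Units.mk0 (1 - IsCyclotomicExtension.zeta p ℚ K)
    (sub_ne_zero.2
      ((IsCyclotomicExtension.zeta_spec p ℚ K).ne_one (Fact.out : p.Prime).one_lt).symm)

/-- The generator `(1 - ζ)(1 - ζ⁻¹)` of the cyclotomic `p`-units of the real field. -/
def realCycGen : (L)ˣ := normU K (lamU p K)

theorem algebraMap_realCycGen :
    algebraMap L K (realCycGen p K : L) =
      (1 - IsCyclotomicExtension.zeta p ℚ K) * (1 - (IsCyclotomicExtension.zeta p ℚ K)⁻¹) := by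
  rw [show ((realCycGen p K : (L)ˣ) : L) =
    Algebra.norm L (1 - IsCyclotomicExtension.zeta p ℚ K) from rfl, algebraMap_norm_eq,
    map_sub, map_one, complexConj_zeta p K]

/-- **The real subfield is a base field.** -/
theorem exists_isBase (Ω : Type*) [Field Ω] [CharZero Ω] [IsAlgClosed Ω]
    [Algebra.IsAlgebraic ℚ Ω] :
    ∃ ι : L →+* Ω, IsBase p ι ∧ ι (realCycGen p K : L) = hFun Ω p 1 := by
  have hp : p.Prime := Fact.out
  haveI : NeZero p := ⟨hp.ne_zero⟩
  have hζ := IsCyclotomicExtension.zeta_spec p ℚ K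
  set ζ := IsCyclotomicExtension.zeta p ℚ K
  have hirr := Polynomial.cyclotomic.irreducible_rat hp.pos
  obtain ⟨φ, hφ⟩ := (hζ.embeddingsEquivPrimitiveRoots Ω hirr).surjective
    ⟨zr Ω p, (mem_primitiveRoots hp.pos).2 (zr_spec Ω hp.ne_zero)⟩
  have hφζ : φ ζ = zr Ω p := by
    have h := congrArg Subtype.val hφ
    rwa [IsPrimitiveRoot.embeddingsEquivPrimitiveRoots_apply_coe] at h
  set ιA : L →ₐ[ℚ] Ω := φ.comp (IsScalarTower.toAlgHom ℚ L K)
  refine ⟨ιA.toRingHom, fun x => ⟨fun hx => ?_, ?_⟩, ?_⟩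
  · obtain ⟨c, hc⟩ : ∃ c : L, algebraMap L K c = ζ + ζ⁻¹ :=
      ⟨⟨ζ + ζ⁻¹, (IsCMField.complexConj_eq_self_iff K _).1 (by
        rw [map_add, map_inv₀, complexConj_zeta p K, inv_inv, add_comm])⟩, rfl⟩
    have hle : plusField Ω p ∅ ≤ ιA.fieldRange := by
      rw [plusField, adjoin_le_iff]
      refine Set.insert_subset ⟨c, ?_⟩ (by simp)
      show φ (algebraMap L K c) = cp Ω p
      rw [hc, map_add, map_inv₀, hφζ, cp]
    exact hle hx
  · rintro ⟨y, rfl⟩
    refine mem_base_iff.2 fun σ hσ => ?_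
    show σ (φ (algebraMap L K y)) = φ (algebraMap L K y)
    rw [cp, map_add, map_inv₀] at hσ
    set z := zr Ω p
    have hz0 : z ≠ 0 := zr_ne_zero Ω p
    have h0 : (σ z - z) * (σ z * z - 1) = 0 := by
      linear_combination (σ z * z) * hσ - z * mul_inv_cancel₀ ((map_ne_zero σ).2 hz0) +
        σ z * mul_inv_cancel₀ hz0
    rcases mul_eq_zero.1 h0 with h | h
    · have h1 : (σ : Ω →ₐ[ℚ] Ω).comp φ = φ := (hζ.powerBasis ℚ).algHom_ext (by
        rw [IsPrimitiveRoot.powerBasis_gen]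
        show σ (φ ζ) = φ ζ
        rw [hφζ]
        exact sub_eq_zero.1 h)
      exact AlgHom.congr_fun h1 _
    · have h1 : (σ : Ω →ₐ[ℚ] Ω).comp φ =
          φ.comp ((IsCMField.complexConj K).toAlgHom.restrictScalars ℚ) :=
        (hζ.powerBasis ℚ).algHom_ext (by
          rw [IsPrimitiveRoot.powerBasis_gen]
          show σ (φ ζ) = φ (IsCMField.complexConj K ζ)
          rw [complexConj_zeta p K, map_inv₀, hφζ]
          exact eq_inv_of_mul_eq_one_left (sub_eq_zero.1 h))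
      exact (AlgHom.congr_fun h1 _).trans
        (congrArg φ (IsCMField.complexConj_apply_eq_self K y))
  · show φ (algebraMap L K _) = _
    rw [algebraMap_realCycGen, map_mul, map_sub, map_sub, map_one, map_inv₀, hφζ, hFun_eq,
      mul_one, mul_one]

/-- **The index of the cyclotomic `p`-units modulo `ℓ ^ k`**, from Kummer's index theorem. -/
theorem card_pUnitsMod_le [IsGalois ℚ L] (hp5 : 5 ≤ p) {ℓ k : ℕ} [Fact ℓ.Prime] (hl2 : ℓ ≠ 2)
    {G : Type*} [CommGroup G] [Fintype G] (τ : G →* ((L) ≃ₐ[ℚ] L)) (hτ : Function.Bijective τ) :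
    Nat.card (pUnitsMod L p (ℓ ^ k)) ≤
      ℓ ^ padicValNat ℓ (classNumber L) *
        Nat.card (galSpan (ℓ := ℓ) (k := k) τ (realCycGen p K)) := by
  have hl : ℓ.Prime := Fact.out
  have hp : p.Prime := Fact.out
  haveI : NeZero p := ⟨hp.ne_zero⟩
  haveI hab := IsCyclotomicExtension.isAbelianGalois {p} ℚ K
  obtain ⟨Ω, _, _, _, _⟩ : ∃ (Ω : Type) (_ : Field Ω) (_ : CharZero Ω) (_ : IsAlgClosed Ω),
      Algebra.IsAlgebraic ℚ Ω :=
    ⟨AlgebraicClosure ℚ, inferInstance, inferInstance, inferInstance, inferInstance⟩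
  obtain ⟨ι, hι, hh₀⟩ := exists_isBase p K Ω
  obtain ⟨P, hpP, hP1, hne⟩ := exists_ord_gen hι hp (by omega) hh₀
  set h₀ := realCycGen p K
  set W := galSpan (ℓ := ℓ) (k := k) τ h₀
  set q := QuotientAddGroup.mk' W
  set z := vmk (ℓ ^ k) h₀
  have hzW : z ∈ W := ⟨1, by rw [orbHom_apply, mul_one, act_one]⟩
  have hgW : ∀ g : G, phiq (phiV τ) _ g z ∈ W := fun g =>
    ⟨single g 1, by rw [orbHom_apply, mul_one, act_of]⟩
  set Φ : Additive (𝓞 K)ˣ →+ Vq L (ℓ ^ k) ⧸ W :=
    q.comp ((mkq (ℓ ^ k)).comp ((normU K).comp intUnits).toAdditive)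
  have hΦ : ∀ u, Φ (Additive.ofMul u) = q (vmk (ℓ ^ k) (normU K (intUnits u))) := fun _ => rfl
  have hcyc : Subgroup.toAddSubgroup (FA.Regular.cycloUnits p K) ≤ Φ.ker := by
    suffices h : FA.Regular.cycloUnits p K ≤
        ((AddMonoidHom.toMultiplicativeRight Φ).ker : Subgroup (𝓞 K)ˣ) from fun u hu => h hu
    refine sup_le (fun t ht => ?_) ((Subgroup.closure_le _).2 ?_)
    · show Φ (Additive.ofMul t) = 0
      rw [hΦ]
      have h1 : normU K (intUnits t) =
          intUnits (Units.map (RingOfIntegers.norm L : 𝓞 K →* 𝓞 L) t) :=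
        Units.ext rfl
      rw [h1, vmk_torsion ((hl.odd_of_ne_two hl2).pow) ((CommGroup.mem_torsion _).2
        (MonoidHom.isOfFinOrder _ ((CommGroup.mem_torsion t).1 ht))), map_zero]
    · rintro _ ⟨⟨a, ha⟩, rfl⟩
      show Φ (Additive.ofMul (FA.Regular.cycU p K ha)) = 0
      rw [hΦ]
      set d : (ZMod p)ˣ := Units.mk0 (a : ZMod p) ha
      set s := FA.Ext.sigmaK p K d
      obtain ⟨g, hg⟩ := hτ.2 (s.restrictNormal L)
      have hs : ∀ y : L, algebraMap L K (τ g y) = s (algebraMap L K y) := fun y => by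
        rw [hg]; exact AlgEquiv.restrictNormal_commutes s L y
      have hcomm : ∀ x : K, s (IsCMField.complexConj K x) = IsCMField.complexConj K (s x) :=
        fun x => AlgEquiv.congr_fun
          (hab.is_comm.comm s ((IsCMField.complexConj K).restrictScalars ℚ)) x
      have hsN : ∀ x : Kˣ, galU (τ g) (normU K x) =
          normU K (Units.map (s : K →* K) x) := fun x => by
        refine Units.ext ((algebraMap L K).injective ?_)
        show algebraMap L K (τ g (Algebra.norm L (x : K))) =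
          algebraMap L K (Algebra.norm L (s (x : K)))
        rw [hs, algebraMap_norm_eq, algebraMap_norm_eq, map_mul, hcomm]
      have hprod : intUnits (FA.Regular.cycU p K ha) * lamU p K =
          Units.map (s : K →* K) (lamU p K) := by
        refine Units.ext ?_
        show ((FA.Regular.cycU p K ha : 𝓞 K) : K) * (1 - IsCyclotomicExtension.zeta p ℚ K) =
          s (1 - IsCyclotomicExtension.zeta p ℚ K)
        rw [← FA.Ext.zetaInt_coe, map_sub, map_one, ← FA.Ext.sigma_coe, FA.Ext.sigma_zetaInt]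
        have h := mul_neg_geom_sum (FA.Ext.zetaInt p K) a
        have hpow : FA.Ext.zetaInt p K ^ ((d : ZMod p)).val = FA.Ext.zetaInt p K ^ a := by
          rw [Units.val_mk0, ZMod.val_natCast, ← pow_eq_pow_mod a
            (FA.Ext.zetaInt_spec p K).pow_eq_one]
        rw [hpow, FA.Regular.cycU, IsUnit.unit_spec, mul_comm]
        exact_mod_cast congrArg (fun t : 𝓞 K => (t : K)) h
      have h1 : vmk (ℓ ^ k) (normU K (intUnits (FA.Regular.cycU p K ha))) =
          phiq (phiV τ) _ g z - z := by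
        rw [eq_sub_iff_add_eq, phiq_vmk, ← vmk_mul]
        show vmk (ℓ ^ k) (_ * normU K (lamU p K)) = vmk _ (galU (τ g) (normU K (lamU p K)))
        rw [← map_mul, hprod, hsN]
      rw [h1]
      exact (QuotientAddGroup.eq_zero_iff _).2 (sub_mem (hgW g) hzW)
  have hidx : Φ.ker.index ∣ classNumber L := by
    rw [← FA.CycloIndex.index_cycloUnits K hp5, ← Subgroup.index_toAddSubgroup]
    exact AddSubgroup.index_dvd_of_le hcyc
  rw [AddSubgroup.index_ker] at hidx
  haveI : Finite Φ.range := Nat.finite_of_card_ne_zero fun h0 =>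
    (classNumber_pos L).ne' (Nat.eq_zero_of_zero_dvd (h0 ▸ hidx))
  have hkill : ∀ y : Vq L (ℓ ^ k) ⧸ W, ℓ ^ k • y = 0 := fun y => by
    obtain ⟨y, rfl⟩ := QuotientAddGroup.mk'_surjective W y
    rw [← map_nsmul, nsmul_modq_eq_zero, map_zero]
  obtain ⟨j, hj⟩ := exists_card_eq_pow (n := k) hl (X := Φ.range) fun y =>
    Subtype.ext (hkill y)
  rw [hj, padicValNat_dvd_iff_le (classNumber_pos L).ne'] at hidx
  have hsub : ∀ x ∈ pUnitsMod L p (ℓ ^ k), q x ∈ Φ.range := by
    intro y hy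
    obtain ⟨x, hx, rfl⟩ := mem_pUnitsMod_iff.1 hy
    obtain ⟨w, hw⟩ := exists_intUnits_eq (x := x * (h₀ ^ ord P x)⁻¹) fun v => by
      rw [ord_mul, ord_inv, ord_zpow]
      rcases eq_or_ne v P with rfl | hv
      · rw [hP1]; ring
      · rw [(hne v hv).1, hx v (hne v hv).2]; ring
    have hxw : x = h₀ ^ ord P x * intUnits w := by
      rw [hw, mul_comm, inv_mul_cancel_right]
    have h2 : 2 • q (vmk (ℓ ^ k) (intUnits w)) =
        Φ (Additive.ofMul (Units.map (algebraMap (𝓞 L) (𝓞 K) : 𝓞 L →* 𝓞 K) w)) := by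
      rw [hΦ, ← map_nsmul, ← vmk_pow]
      congr 2
      refine Units.ext ?_
      show ((intUnits w : (L)ˣ) : L) ^ 2 = Algebra.norm L (algebraMap L K ((w : 𝓞 L) : L))
      rw [Algebra.norm_algebraMap, Algebra.IsQuadraticExtension.finrank_eq_two L K]
      rfl
    obtain ⟨m, hm⟩ := (hl.odd_of_ne_two hl2).pow (n := k)
    have hq : q (vmk (ℓ ^ k) x) = (m + 1) • (2 • q (vmk (ℓ ^ k) (intUnits w))) := by
      rw [← mul_nsmul', show (m + 1) * 2 = ℓ ^ k + 1 by omega, add_nsmul, hkill, zero_add,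
        one_nsmul]
      conv_lhs => rw [hxw]
      rw [vmk_mul, map_add, vmk_zpow, map_zsmul,
        show q z = 0 from (QuotientAddGroup.eq_zero_iff _).2 hzW, zsmul_zero, zero_add]
    rw [hq, h2]
    exact AddSubgroup.nsmul_mem _ (AddMonoidHom.mem_range.2 ⟨_, rfl⟩) _
  set f := q.comp (pUnitsMod L p (ℓ ^ k)).subtype
  have hcard := AddSubgroup.card_eq_card_quotient_mul_card_addSubgroup f.ker
  rw [Nat.card_congr (QuotientAddGroup.quotientKerEquivRange f).toEquiv] at hcard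
  rw [hcard]
  refine Nat.mul_le_mul ?_ ?_
  · refine (AddSubgroup.card_le_of_le (K := Φ.range) ?_).trans
      (hj.le.trans (Nat.pow_le_pow_right hl.pos hidx))
    rintro _ ⟨⟨x, hx⟩, rfl⟩
    exact hsub x hx
  · haveI : Finite W := Set.finite_coe_iff.2 (Set.finite_range _)
    refine Nat.card_le_card_of_injective
      (fun t : f.ker => (⟨(t.1 : Vq L (ℓ ^ k)), (QuotientAddGroup.eq_zero_iff _).1 t.2⟩ : W)) ?_
    exact fun t t' h => Subtype.ext (Subtype.ext (congrArg (fun x : W => (x : Vq L (ℓ ^ k))) h :))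

/-- The cyclotomic `p`-units are `p`-units. -/
theorem galSpan_le_pUnitsMod (hp5 : 5 ≤ p) {ℓ k : ℕ} [Fact ℓ.Prime] {G : Type*} [CommGroup G]
    [Fintype G] (τ : G →* ((L) ≃ₐ[ℚ] L)) :
    galSpan (ℓ := ℓ) (k := k) τ (realCycGen p K) ≤ pUnitsMod L p (ℓ ^ k) := by
  haveI := isAbelianGalois_real p K
  obtain ⟨Ω, _, _, _, _⟩ : ∃ (Ω : Type) (_ : Field Ω) (_ : CharZero Ω) (_ : IsAlgClosed Ω),
      Algebra.IsAlgebraic ℚ Ω :=
    ⟨AlgebraicClosure ℚ, inferInstance, inferInstance, inferInstance, inferInstance⟩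
  obtain ⟨ι, hι, hh₀⟩ := exists_isBase p K Ω
  rintro _ ⟨a, rfl⟩
  rw [orbHom_apply]
  exact act_mem (fun g y hy => phiq_mem_pUnitsMod τ g hy) _
    (mem_pUnitsMod_iff.2 ⟨_, mem_pUnits_gen hι (Fact.out : p.Prime) (by omega) hh₀, rfl⟩)

/-- **The equality of Gras for `ℚ(ζ_p)⁺`.** -/
theorem gras_real (hp5 : 5 ≤ p) {ℓ k : ℕ} [Fact ℓ.Prime] (hl2 : ℓ ≠ 2)
    (hlp : ¬ ℓ ∣ (p - 1) / 2) (hk : 2 * padicValNat ℓ (classNumber L) < k)
    {G : Type*} [CommGroup G] [Fintype G] (τ : G →* ((L) ≃ₐ[ℚ] L)) (hτ : Function.Bijective τ) :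
    Nat.card (pUnitsMod L p (ℓ ^ k)) =
        ℓ ^ padicValNat ℓ (classNumber L) *
          Nat.card (galSpan (ℓ := ℓ) (k := k) τ (realCycGen p K)) ∧
      ∀ e : MonoidAlgebra (ZMod (ℓ ^ k)) G, IsPrim e →
        Nat.card (act (phiA τ)
            (pow_dvd_pow ℓ (show padicValNat ℓ (classNumber L) ≤ k by omega)) e :
            Aq L (ℓ ^ padicValNat ℓ (classNumber L)) →+
              Aq L (ℓ ^ padicValNat ℓ (classNumber L))).range *
          Nat.card ((galSpan τ (realCycGen p K)).map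
            (act (phiV τ) dvd_rfl e : Vq L (ℓ ^ k) →+ Vq L (ℓ ^ k))) =
        Nat.card ((pUnitsMod L p (ℓ ^ k)).map
          (act (phiV τ) dvd_rfl e : Vq L (ℓ ^ k) →+ Vq L (ℓ ^ k))) := by
  haveI := isAbelianGalois_real p K
  obtain ⟨Ω, _, _, _, _⟩ : ∃ (Ω : Type) (_ : Field Ω) (_ : CharZero Ω) (_ : IsAlgClosed Ω),
      Algebra.IsAlgebraic ℚ Ω :=
    ⟨AlgebraicClosure ℚ, inferInstance, inferInstance, inferInstance, inferInstance⟩
  obtain ⟨ι, hι, hh₀⟩ := exists_isBase p K Ω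
  have hp : p.Prime := Fact.out
  have hdeg := finrank_mul_two hι hp (by omega)
  have hG : ¬ ℓ ∣ Fintype.card G := by
    rw [← Nat.card_eq_fintype_card, Nat.card_congr (Equiv.ofBijective τ hτ),
      IsGalois.card_aut_eq_finrank, show Module.finrank ℚ L = (p - 1) / 2 by omega]
    exact hlp
  have hA := card_Aq_padicValNat L ℓ
  obtain ⟨h1, h2⟩ := gras_of_index τ hG (by omega) hτ hι ⟨hp, Fact.out, hl2, by omega⟩ (by omega)
    hh₀ hk hA.ge (card_pUnitsMod_le p K hp5 hl2 τ hτ)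
  exact ⟨by rw [h1, hA], h2⟩

end FA.Kolyvagin
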