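import Mathlib

/-!
# Roots of unity for Kolyvagin's Euler system

In an algebraically closed field `Ω` of algebraic numbers a primitive `q`-th root of unity `zr Ω q`
is fixed for each `q`. With `cp = ζ_p + ζ_p⁻¹`, the field `plusField Ω p S` is generated by `cp`
and the `ζ_q`, `q ∈ S`, and `fullField Ω p S` by `ζ_p` and the `ζ_q`, `q ∈ S`.

* `exists_aut`: automorphisms with prescribed action on finitely many `ζ_q`;
* `mem_adjoin_iff_fixed`: the infinite Galois correspondence;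
* `eq_one_of_pow_eq_one`: `plusField` has no nontrivial root of unity of order a power of an odd
  prime `ℓ ∉ S`.
-/

set_option autoImplicit false
set_option linter.unusedSectionVars false
set_option linter.style.haveILetI false

noncomputable section

open scoped Classical
open IntermediateField

namespace FA.Kolyvagin

variable (Ω : Type*) [Field Ω] [CharZero Ω] [IsAlgClosed Ω]

theorem exists_primitive (q : ℕ) (hq : q ≠ 0) : ∃ z : Ω, IsPrimitiveRoot z q := by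
  haveI : NeZero (q : Ω) := ⟨by exact_mod_cast hq⟩
  obtain ⟨z, hz⟩ := IsAlgClosed.exists_root (Polynomial.cyclotomic q Ω)
    (by rw [Polynomial.degree_cyclotomic]; exact_mod_cast (Nat.totient_pos.2 (by omega)).ne')
  exact ⟨z, Polynomial.isRoot_cyclotomic_iff.1 hz⟩

/-- The chosen primitive `q`-th root of unity. -/
def zr (q : ℕ) : Ω := if h : q = 0 then 1 else (exists_primitive Ω q h).choose

theorem zr_spec {q : ℕ} (hq : q ≠ 0) : IsPrimitiveRoot (zr Ω q) q := by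
  rw [zr, dif_neg hq]
  exact (exists_primitive Ω q hq).choose_spec

theorem zr_ne_zero (q : ℕ) : zr Ω q ≠ 0 := by
  rcases eq_or_ne q 0 with rfl | hq
  · simp [zr]
  · exact (zr_spec Ω hq).ne_zero hq

theorem zr_pow_self (q : ℕ) : zr Ω q ^ q = 1 := by
  rcases eq_or_ne q 0 with rfl | hq
  · exact pow_zero _
  · exact (zr_spec Ω hq).pow_eq_one

theorem zr_pow_congr {q a b : ℕ} (h : a ≡ b [MOD q]) : zr Ω q ^ a = zr Ω q ^ b :=
  pow_eq_pow_of_modEq h (zr_pow_self Ω q)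

variable {Ω}

theorem exists_map_zr (σ : Ω →+* Ω) {q : ℕ} (hq : q.Prime) :
    ∃ a : ℕ, σ (zr Ω q) = zr Ω q ^ a ∧ ¬ q ∣ a := by
  have : NeZero q := ⟨hq.ne_zero⟩
  have hσ := (zr_spec Ω hq.ne_zero).map_of_injective σ.injective
  obtain ⟨a, -, ha⟩ := (zr_spec Ω hq.ne_zero).eq_pow_of_pow_eq_one hσ.pow_eq_one
  refine ⟨a, ha.symm, fun ⟨b, hb⟩ => hσ.ne_one hq.one_lt ?_⟩
  rw [← ha, hb, pow_mul, zr_pow_self, one_pow]

variable (Ω)

/-- The product of the chosen roots. -/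
def zProd (S : Finset ℕ) : Ω := ∏ q ∈ S, zr Ω q

theorem zr_prod_pow {S : Finset ℕ} (hS : ∀ q ∈ S, q.Prime) {q : ℕ} (hq : q ∈ S) {b : ℕ}
    (h1 : b ≡ 1 [MOD q]) (h0 : ∀ s ∈ S, s ≠ q → s ∣ b) : zProd Ω S ^ b = zr Ω q := by
  rw [zProd, ← Finset.prod_pow, Finset.prod_eq_single q]
  · rw [zr_pow_congr Ω h1, pow_one]
  · intro s hs hne
    obtain ⟨c, rfl⟩ := h0 s hs hne
    rw [pow_mul, zr_pow_self, one_pow]
  · exact fun h => absurd hq h

theorem exists_single_exponent {S : Finset ℕ} (hS : ∀ q ∈ S, q.Prime) (a : ℕ → ℕ) :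
    ∃ A : ℕ, ∀ q ∈ S, A ≡ a q [MOD q] :=
  ⟨_, (Nat.chineseRemainderOfFinset a id S (fun q hq => (hS q hq).ne_zero)
    fun q hq s hs hne => (Nat.coprime_primes (hS q hq) (hS s hs)).2 hne).2⟩

theorem zr_mem_powers {S : Finset ℕ} (hS : ∀ q ∈ S, q.Prime) {q : ℕ} (hq : q ∈ S) :
    ∃ b : ℕ, zProd Ω S ^ b = zr Ω q := by
  obtain ⟨b, hb⟩ := exists_single_exponent hS fun s => if s = q then 1 else 0
  refine ⟨b, zr_prod_pow Ω hS hq (by simpa using hb q hq) fun s hs hne => ?_⟩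
  exact Nat.modEq_zero_iff_dvd.1 (by simpa [hne] using hb s hs)

theorem zProd_isPrimitiveRoot {S : Finset ℕ} (hS : ∀ q ∈ S, q.Prime) :
    IsPrimitiveRoot (zProd Ω S) (∏ q ∈ S, q) := by
  refine ⟨?_, fun m hm => Finset.prod_primes_dvd m (fun q hq => (hS q hq).prime) fun q hq => ?_⟩
  · rw [zProd, ← Finset.prod_pow]
    refine Finset.prod_eq_one fun q hq => ?_
    obtain ⟨c, hc⟩ := Finset.dvd_prod_of_mem (fun s : ℕ => s) hq
    rw [hc, pow_mul, zr_pow_self, one_pow]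
  · obtain ⟨b, hb⟩ := zr_mem_powers Ω hS hq
    refine (zr_spec Ω (hS q hq).ne_zero).dvd_of_pow_eq_one m ?_
    rw [← hb, pow_right_comm, hm, one_pow]

variable {Ω} [Algebra.IsAlgebraic ℚ Ω]

theorem isGalois_rat : IsGalois ℚ Ω :=
  haveI : IsAlgClosure ℚ Ω := ⟨inferInstance, inferInstance⟩
  haveI : Normal ℚ Ω := IsAlgClosure.normal ℚ Ω
  ⟨⟩

/-- **Automorphisms with prescribed action on the roots.** -/
theorem exists_aut {S : Finset ℕ} (hS : ∀ q ∈ S, q.Prime) (a : ℕ → ℕ)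
    (ha : ∀ q ∈ S, ¬ q ∣ a q) :
    ∃ σ : Ω ≃ₐ[ℚ] Ω, ∀ q ∈ S, σ (zr Ω q) = zr Ω q ^ a q := by
  haveI := isGalois_rat (Ω := Ω)
  obtain ⟨A, hA⟩ := exists_single_exponent hS a
  have hpr := zProd_isPrimitiveRoot Ω hS
  have hN : 0 < ∏ q ∈ S, q := Finset.prod_pos fun q hq => (hS q hq).pos
  have hco : A.Coprime (∏ q ∈ S, q) :=
    Nat.Coprime.prod_right fun q hq => ((hS q hq).coprime_iff_not_dvd.2 fun h => ha q hq
      (((hA q hq).dvd_iff dvd_rfl).1 h)).symm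
  have hmin : minpoly ℚ (zProd Ω S ^ A) = minpoly ℚ (zProd Ω S) := by
    rw [← Polynomial.cyclotomic_eq_minpoly_rat hpr hN,
      ← Polynomial.cyclotomic_eq_minpoly_rat (hpr.pow_of_coprime A hco) hN]
  obtain ⟨σ, hσ⟩ := (Normal.minpoly_eq_iff_mem_orbit (E := Ω)).1 hmin
  refine ⟨σ, fun q hq => ?_⟩
  obtain ⟨b, hb⟩ := zr_mem_powers Ω hS hq
  have hσ' : σ (zProd Ω S) = zProd Ω S ^ A := hσ
  rw [← hb, map_pow, hσ', pow_right_comm, hb, zr_pow_congr Ω (hA q hq)]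

/-- Membership in a generated subfield, by automorphisms. -/
theorem mem_adjoin_iff_fixed {X : Set Ω} {x : Ω} :
    x ∈ adjoin ℚ X ↔ ∀ σ : Ω ≃ₐ[ℚ] Ω, (∀ y ∈ X, σ y = y) → σ x = x := by
  haveI := isGalois_rat (Ω := Ω)
  constructor
  · intro hx σ hσ
    induction hx using adjoin_induction ℚ with
    | mem y hy => exact hσ y hy
    | algebraMap r => exact σ.commutes r
    | add y z _ _ hy hz => rw [map_add, hy, hz]
    | inv y _ hy => rw [map_inv₀, hy]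
    | mul y z _ _ hy hz => rw [map_mul, hy, hz]
  · intro h
    rw [← InfiniteGalois.fixedField_fixingSubgroup (adjoin ℚ X), mem_fixedField_iff]
    exact fun σ hσ => h σ fun y hy =>
      (mem_fixingSubgroup_iff _ σ).1 hσ y (subset_adjoin ℚ X hy)

variable (Ω) (p : ℕ)

/-- `ζ_p + ζ_p⁻¹`. -/
def cp : Ω := zr Ω p + (zr Ω p)⁻¹

/-- `ℚ(ζ_p + ζ_p⁻¹, ζ_q : q ∈ S)`. -/
def plusField (S : Finset ℕ) : IntermediateField ℚ Ω :=
  adjoin ℚ (insert (cp Ω p) (zr Ω '' (S : Set ℕ)))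

/-- `ℚ(ζ_p, ζ_q : q ∈ S)`. -/
def fullField (S : Finset ℕ) : IntermediateField ℚ Ω :=
  adjoin ℚ (zr Ω '' ((insert p S : Finset ℕ) : Set ℕ))

variable {Ω} {p}

theorem cp_mem_plusField (S : Finset ℕ) : cp Ω p ∈ plusField Ω p S :=
  subset_adjoin ℚ _ (Set.mem_insert _ _)

theorem zr_mem_plusField {S : Finset ℕ} {q : ℕ} (hq : q ∈ S) : zr Ω q ∈ plusField Ω p S :=
  subset_adjoin ℚ _ (Set.mem_insert_of_mem _ ⟨q, hq, rfl⟩)

theorem zr_mem_fullField {S : Finset ℕ} {q : ℕ} (hq : q ∈ insert p S) :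
    zr Ω q ∈ fullField Ω p S :=
  subset_adjoin ℚ _ ⟨q, hq, rfl⟩

theorem plusField_mono {S T : Finset ℕ} (h : S ⊆ T) : plusField Ω p S ≤ plusField Ω p T :=
  adjoin.mono _ _ _ (Set.insert_subset_insert (Set.image_mono (Finset.coe_subset.2 h)))

theorem plusField_le_fullField (S : Finset ℕ) : plusField Ω p S ≤ fullField Ω p S := by
  refine adjoin_le_iff.2 (Set.insert_subset ?_ (Set.image_subset_iff.2 fun q hq => ?_))
  · exact add_mem (zr_mem_fullField (Finset.mem_insert_self _ _))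
      (inv_mem (zr_mem_fullField (Finset.mem_insert_self _ _)))
  · exact zr_mem_fullField (Finset.mem_insert_of_mem hq)

theorem mem_plusField_iff {S : Finset ℕ} {x : Ω} :
    x ∈ plusField Ω p S ↔ ∀ σ : Ω ≃ₐ[ℚ] Ω,
      σ (cp Ω p) = cp Ω p → (∀ q ∈ S, σ (zr Ω q) = zr Ω q) → σ x = x := by
  rw [plusField, mem_adjoin_iff_fixed]
  refine ⟨fun h σ hc hq => h σ fun y hy => ?_,
    fun h σ hσ => h σ (hσ _ (Set.mem_insert _ _))
      fun q hq => hσ _ (Set.mem_insert_of_mem _ ⟨q, hq, rfl⟩)⟩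
  rcases hy with rfl | ⟨q, hq', rfl⟩
  exacts [hc, hq q hq']

/-- The maximal real subfield of `ℚ(ζ_p)` is `plusField Ω p ∅`. -/
theorem mem_base_iff {x : Ω} :
    x ∈ plusField Ω p ∅ ↔ ∀ σ : Ω ≃ₐ[ℚ] Ω, σ (cp Ω p) = cp Ω p → σ x = x := by
  rw [mem_plusField_iff]
  simp

/-- Automorphisms fixing `cp` preserve `plusField`. -/
theorem map_mem_plusField (σ : Ω ≃ₐ[ℚ] Ω) (hσ : σ (cp Ω p) = cp Ω p) {S : Finset ℕ}
    (hS : ∀ q ∈ S, q.Prime) {x : Ω} (hx : x ∈ plusField Ω p S) : σ x ∈ plusField Ω p S := by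
  induction hx using adjoin_induction ℚ with
  | mem y hy =>
    rcases hy with rfl | ⟨q, hq, rfl⟩
    · rw [hσ]; exact cp_mem_plusField S
    · obtain ⟨a, ha, -⟩ := exists_map_zr (σ : Ω →+* Ω) (hS q hq)
      rw [show σ (zr Ω q) = zr Ω q ^ a from ha]
      exact pow_mem (zr_mem_plusField hq) a
  | algebraMap r => rw [σ.commutes]; exact IntermediateField.algebraMap_mem _ r
  | add y z _ _ hy hz => rw [map_add]; exact add_mem hy hz
  | inv y _ hy => rw [map_inv₀]; exact inv_mem hy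
  | mul y z _ _ hy hz => rw [map_mul]; exact mul_mem hy hz

theorem fullField_eq_adjoin {S : Finset ℕ} (hS : ∀ q ∈ insert p S, q.Prime) :
    fullField Ω p S = adjoin ℚ {zProd Ω (insert p S)} := by
  refine le_antisymm (adjoin_le_iff.2 ?_) (adjoin_le_iff.2 (Set.singleton_subset_iff.2 ?_))
  · rintro _ ⟨q, hq, rfl⟩
    obtain ⟨b, hb⟩ := zr_mem_powers Ω hS hq
    rw [← hb]
    exact pow_mem (mem_adjoin_simple_self ℚ (zProd Ω (insert p S))) b
  · exact prod_mem fun q hq => zr_mem_fullField hq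

theorem fullField_isCyclotomic {S : Finset ℕ} (hS : ∀ q ∈ insert p S, q.Prime) :
    IsCyclotomicExtension {∏ q ∈ insert p S, q} ℚ (fullField Ω p S) := by
  haveI : NeZero (∏ q ∈ insert p S, q) := ⟨(Finset.prod_pos fun q hq => (hS q hq).pos).ne'⟩
  rw [fullField_eq_adjoin hS]
  exact (zProd_isPrimitiveRoot Ω hS).intermediateField_adjoin_isCyclotomicExtension ℚ

/-- **No roots of unity of `ℓ`-power order in the plus field.** -/
theorem eq_one_of_pow_eq_one (hp : p.Prime) {S : Finset ℕ} (hS : ∀ q ∈ S, q.Prime)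
    (hpS : p ∉ S) {ℓ k : ℕ} (hℓ : ℓ.Prime) (hℓ2 : ℓ ≠ 2) (hℓS : ℓ ∉ S) {x : Ω}
    (hx : x ∈ plusField Ω p S) (h : x ^ ℓ ^ k = 1) : x = 1 := by
  have hS' : ∀ q ∈ insert p S, q.Prime := fun q hq =>
    (Finset.mem_insert.1 hq).elim (fun h => h ▸ hp) (hS q)
  haveI hne : NeZero (∏ q ∈ insert p S, q) :=
    ⟨(Finset.prod_pos fun q hq => (hS' q hq).pos).ne'⟩
  haveI := fullField_isCyclotomic (Ω := Ω) hS'
  haveI : NumberField (fullField Ω p S) :=
    IsCyclotomicExtension.numberField {∏ q ∈ insert p S, q} ℚ _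
  obtain ⟨i, -, hi⟩ := (Nat.dvd_prime_pow hℓ).1 (orderOf_dvd_of_pow_eq_one h)
  have hprim : IsPrimitiveRoot (⟨x, plusField_le_fullField S hx⟩ : fullField Ω p S) (ℓ ^ i) := by
    refine IsPrimitiveRoot.of_map_of_injective (f := (fullField Ω p S).val) ?_ Subtype.val_injective
    rw [← hi]
    exact IsPrimitiveRoot.orderOf x
  have hdvd : ℓ ^ i ∣ p := by
    have hd := hprim.dvd_of_isCyclotomicExtension (∏ q ∈ insert p S, q) (pow_ne_zero _ hℓ.ne_zero)
    have hd2 := (((Nat.coprime_primes hℓ Nat.prime_two).2 hℓ2).pow_left i).dvd_of_dvd_mul_left hd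
    rw [Finset.prod_insert hpS] at hd2
    refine (Nat.Coprime.pow_left i (Nat.Coprime.prod_right fun q hq => ?_)).dvd_of_dvd_mul_right hd2
    exact (Nat.coprime_primes hℓ (hS q hq)).2 fun e => hℓS (e ▸ hq)
  rcases Nat.eq_zero_or_pos i with rfl | hipos
  · rw [pow_zero] at hi
    exact orderOf_eq_one_iff.1 hi
  have hℓp : ℓ = p :=
    (Nat.prime_dvd_prime_iff_eq hℓ hp).1 ((dvd_pow_self ℓ hipos.ne').trans hdvd)
  subst hℓp
  have hxl : x ^ ℓ = 1 := by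
    obtain ⟨c, hc⟩ := hdvd
    rw [hc, pow_mul, ← hi, pow_orderOf_eq_one, one_pow]
  obtain ⟨σ, hσ⟩ := exists_aut (Ω := Ω) hS' (fun q => if q = ℓ then ℓ - 1 else 1) fun q hq => by
    split_ifs with he
    · subst he
      exact fun hd => absurd (Nat.le_of_dvd (by have := hℓ.two_le; omega) hd)
        (by have := hℓ.two_le; omega)
    · exact (hS' q hq).not_dvd_one
  have hσℓ : σ (zr Ω ℓ) = (zr Ω ℓ)⁻¹ := by
    rw [hσ ℓ (Finset.mem_insert_self _ _), if_pos rfl]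
    refine eq_inv_of_mul_eq_one_left ?_
    rw [← pow_succ, Nat.sub_add_cancel hℓ.one_le, zr_pow_self]
  have hfix : σ x = x := (mem_plusField_iff.1 hx) σ
    (by rw [cp, map_add, map_inv₀, hσℓ, inv_inv, add_comm]) fun q hq => by
      rw [hσ q (Finset.mem_insert_of_mem hq), if_neg (fun (e : q = ℓ) => hpS (e ▸ hq)), pow_one]
  haveI : NeZero ℓ := ⟨hℓ.ne_zero⟩
  obtain ⟨a, -, rfl⟩ := (zr_spec Ω hℓ.ne_zero).eq_pow_of_pow_eq_one hxl
  rw [map_pow, hσℓ, inv_pow] at hfix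
  have hx2 : (zr Ω ℓ ^ a) ^ 2 = 1 := by
    rw [sq]
    nth_rw 1 [← hfix]
    exact inv_mul_cancel₀ (pow_ne_zero _ (zr_ne_zero Ω ℓ))
  exact orderOf_eq_one_iff.1 (Nat.eq_one_of_dvd_coprimes
    ((Nat.coprime_primes hℓ Nat.prime_two).2 hℓ2) (orderOf_dvd_of_pow_eq_one hxl)
    (orderOf_dvd_of_pow_eq_one hx2))

end FA.Kolyvagin
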